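import Fermat.Agent.OrdH.UDef
import Fermat.Agent.ZG.Psi

/-!
# Consequences of the relation between `U_p` and Frobenius
-/

set_option autoImplicit false
set_option linter.unusedSectionVars false
set_option linter.style.haveILetI false

open Matrix Matrix.SpecialLinearGroup
open scoped MatrixGroups TensorProduct
open IsLocalRing
open Fermat.Agent.AL Fermat.Agent.ALCoh Fermat.Agent.KumG Fermat.Agent.Cov Fermat.Agent.GamH
open Fermat.Agent.SSH Fermat.Agent.TW Fermat.Agent.GalRep Fermat.Agent.E2Y Fermat.Agent.S59e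
open Fermat.Agent.ZG

namespace Fermat.Agent.OrdH

noncomputable section

/-! ### algebra -/

section abs

variable {R V : Type} [CommRing R] [AddCommGroup V] [Module R V]

theorem rel_abs {c β ψ P a2 a1 a0 : R} (hb : β * (1 - c) = 1) {y y₁ y₂ : V}
    (h : a1 • y₂ - (a2 + P * a0) • y₁ + (P * a1) • y = 0) (h2 : (1 - c) * ψ = a1)
    (h3 : (1 - c) * (ψ * ψ) = a2) (h4 : (1 - c) * 1 = a0) :
    ψ • y₂ - (ψ ^ 2 + P) • y₁ + (P * ψ) • y = 0 := by
  subst h2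
  subst h3
  subst h4
  have h5 : ψ • y₂ - (ψ ^ 2 + P) • y₁ + (P * ψ) • y =
      (β * (1 - c)) • (ψ • y₂ - (ψ ^ 2 + P) • y₁ + (P * ψ) • y) := by
    rw [hb, one_smul]
  have h6 : (β * (1 - c)) • (ψ • y₂ - (ψ ^ 2 + P) • y₁ + (P * ψ) • y) =
    β • (((1 - c) * ψ) • y₂ - ((1 - c) * (ψ * ψ) + P * ((1 - c) * 1)) • y₁ +
      (P * ((1 - c) * ψ)) • y) := by
    module
  rw [h5, h6, h, smul_zero]

theorem o2_abs {ψ P : R} {y z y₁ y₂ z₁ z₂ : V} (hu : IsUnit (ψ ^ 2 - P ^ 2))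
    (h1 : ψ • y₂ - (ψ ^ 2 + P) • y₁ + (P * ψ) • y = 0)
    (h2 : ψ • z₂ - (ψ ^ 2 + P) • z₁ + (P * ψ) • z = 0) (e1 : y₁ = -z) (e2 : y₂ = y)
    (e3 : z₁ = -y) (e4 : z₂ = z) : (ψ ^ 2 - 1) • y = 0 := by
  subst e1
  subst e3
  rw [e2] at h1
  rw [e4] at h2
  rw [← hu.smul_eq_zero, smul_smul, mul_comm]
  rw [smul_neg, sub_neg_eq_add] at h1 h2
  have h3 : ((ψ ^ 2 - 1) * (ψ ^ 2 - P ^ 2)) • y = (ψ ^ 2 + P) • (ψ • z + (ψ ^ 2 + P) • y + (P * ψ) • z) -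
      ((1 + P) * ψ) • (ψ • y + (ψ ^ 2 + P) • z + (P * ψ) • y) := by
    module
  rw [h3, h1, h2, smul_zero, smul_zero, sub_zero]

theorem o3_abs {R' U : Type} [CommRing R'] [AddCommGroup U] [Module R' U] {ψ P : R} {ψ' P' : R'}
    {i1 i2 : U → V} {T : U → U} {F : V → V} (hF : ∀ a b, F (a - b) = F a - F b)
    (ha1 : ∀ a b, i1 (a + b) = i1 a + i1 b) (ha2 : ∀ a b, i2 (a + b) = i2 a + i2 b)
    (hinj : ∀ x y : U, i1 x + i2 y = 0 → x = 0 ∧ y = 0)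
    (f1 : ∀ x, F (i1 x) = i1 (T x) - i2 x) (f2 : ∀ x, F (i2 x) = P • i1 x)
    (hψ1 : ∀ x, i1 (ψ' • x) = ψ • i1 x) (hψ2 : ∀ x, i2 (ψ' • x) = ψ • i2 x)
    (hP1 : ∀ x, i1 (P' • x) = P • i1 x) (hP2 : ∀ x, i2 (P' • x) = P • i2 x) (x : U)
    (h : ψ • F (F (i1 x)) - (ψ ^ 2 + P) • F (i1 x) + (P * ψ) • i1 x = 0) :
    ψ' • T x = (ψ' ^ 2 + P') • x := by
  have hz1 : i1 0 = 0 := by
    have := ha1 0 0
    rwa [add_zero, left_eq_add] at this
  have hz2 : i2 0 = 0 := by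
    have := ha2 0 0
    rwa [add_zero, left_eq_add] at this
  have hn1 : ∀ a, i1 (-a) = - i1 a := fun a => by
    rw [eq_neg_iff_add_eq_zero, ← ha1, neg_add_cancel, hz1]
  have hn2 : ∀ a, i2 (-a) = - i2 a := fun a => by
    rw [eq_neg_iff_add_eq_zero, ← ha2, neg_add_cancel, hz2]
  have h1 : i1 (ψ' • T (T x) + -(ψ' • ψ' • T x + P' • T x)) +
      i2 (ψ' • ψ' • x + P' • x + - (ψ' • T x)) = 0 := by
    rw [ha1, ha2, ha2, hn1, hn2, ha1, hψ1, hψ1, hψ1, hψ2, hψ2, hψ2, hP1, hP2, ← h, f1, hF, f1, f2]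
    module
  have h2 := (hinj _ _ h1).2
  rw [add_smul, pow_two, mul_smul]
  exact (add_neg_eq_zero.1 h2).symm

/-- a pair of maps injective modulo the maximal ideal is injective -/
theorem pair_inj {O U V : Type} [CommRing O] [IsDomain O] [IsLocalRing O] [IsNoetherianRing O]
    [AddCommGroup U] [Module O U] [Module.Finite O U] [AddCommGroup V] [Module O V]
    [Module.Free O V] {ϖ : O} (hmax : maximalIdeal O = Ideal.span {ϖ}) (i1 i2 : U →ₗ[O] V)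
    (inj : ∀ x y, i1 x + i2 y ∈ maximalIdeal O • (⊤ : Submodule O V) →
      x ∈ maximalIdeal O • (⊤ : Submodule O U) ∧ y ∈ maximalIdeal O • (⊤ : Submodule O U))
    {x y : U} (h : i1 x + i2 y = 0) : x = 0 ∧ y = 0 := by
  have key : ∀ n : ℕ, ∀ x y : U, i1 x + i2 y = 0 →
      x ∈ (maximalIdeal O) ^ n • (⊤ : Submodule O U) ∧
        y ∈ (maximalIdeal O) ^ n • (⊤ : Submodule O U) := by
    intro n
    induction n with
    | zero =>
      intro x y _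
      rw [pow_zero, Ideal.one_eq_top, Submodule.top_smul]
      exact ⟨trivial, trivial⟩
    | succ n ih =>
      intro x y hxy
      obtain ⟨h1, h2⟩ := inj x y (by rw [hxy]; exact Submodule.zero_mem _)
      rw [hmax, Submodule.ideal_span_singleton_smul] at h1 h2
      obtain ⟨x', -, hx'⟩ := Submodule.mem_smul_pointwise_iff_exists _ _ _ |>.1 h1
      obtain ⟨y', -, hy'⟩ := Submodule.mem_smul_pointwise_iff_exists _ _ _ |>.1 h2
      by_cases h0 : ϖ = 0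
      · rw [← hx', ← hy', h0, zero_smul, zero_smul]
        exact ⟨Submodule.zero_mem _, Submodule.zero_mem _⟩
      have h3 : i1 x' + i2 y' = 0 := by
        rw [← hx', ← hy', map_smul, map_smul, ← smul_add] at hxy
        exact (smul_eq_zero.1 hxy).resolve_left h0
      obtain ⟨h4, h5⟩ := ih x' y' h3
      have h6 : ϖ ∈ maximalIdeal O := by
        rw [hmax]
        exact Ideal.mem_span_singleton_self _
      rw [← hx', ← hy', pow_succ', mul_smul]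
      exact ⟨Submodule.smul_mem_smul h6 h4, Submodule.smul_mem_smul h6 h5⟩
  have h1 := Ideal.iInf_pow_smul_eq_bot_of_isLocalRing (M := U) (maximalIdeal O)
    (maximalIdeal.isMaximal O).ne_top
  have h2 : ∀ z : U, (∀ n : ℕ, z ∈ (maximalIdeal O) ^ n • (⊤ : Submodule O U)) → z = 0 := by
    intro z hz
    have h3 : z ∈ (⨅ n : ℕ, (maximalIdeal O) ^ n • (⊤ : Submodule O U)) := by
      rw [Submodule.mem_iInf]
      exact hz
    rw [h1] at h3
    exact h3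
  exact ⟨h2 x fun n => (key n x y h).1, h2 y fun n => (key n x y h).2⟩

end abs

/-! ### the relation with an adapted basis -/

section Y

variable {O : Type} [CommRing O] [IsLocalRing O] [IsNoetherianRing O]
  [IsAdicComplete (maximalIdeal O) O] {p : ℕ} [hp : Fact p.Prime]
  {hpO : (p : O) ∈ maximalIdeal O} {ι : AlgebraicClosure ℚ →+* ℂ} {S : Set ℕ}
  {M : ℕ} [NeZero M] {H : Subgroup (ZMod M)ˣ} [hH : Fact ((-1 : (ZMod M)ˣ) ∈ H)]
  {hNS : ∀ l, l.Prime → l ∣ p * M → l ∈ S} {e : TS O S}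
  {S' : Set ℕ} {ρb : GQ →* Matrix (Fin 2) (Fin 2) (ResidueField O)} {θ : TD O S (p * M) →ₐ[O] ResidueField O}
  [Nontrivial (YH (HM (dvd_mul_left M p) H) hNS e)]
  [Module.Free O (YH (HM (dvd_mul_left M p) H) hNS e)]

/-- the trace element defining the quotient character at `p` -/
def psE {T Y : Type} [CommRing T] [Algebra O T] [AddCommGroup Y] [Module O Y]
    [Module.Finite O Y] [Module.Free O Y] [Nontrivial Y] {t : GQ → ResidueField O}
    {ψ : T →ₐ[O] Module.End O Y} {θ : T →ₐ[O] ResidueField O} {ρ : GQ →* Module.End O Y}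
    (h : HG hpO S' t ψ θ ρ) (Φ τ : GQ) (b : O) : h.TT :=
  algebraMap O h.TT b * (h.tt (Φ * τ) - algebraMap O h.TT (cycO hpO τ) * h.tt Φ)

section psE

variable {T Y : Type} [CommRing T] [Algebra O T] [AddCommGroup Y] [Module O Y]
    [Module.Finite O Y] [Module.Free O Y] [Nontrivial Y]
    {ψ : T →ₐ[O] Module.End O Y} {θ : T →ₐ[O] ResidueField O} {ρ : GQ →* Module.End O Y}
    {h : HG hpO S' (fun g => (ρb g).trace) ψ θ ρ} [Invertible (2 : O)] {g₀ k₀ : GQ}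
    {hgk : HG.IrrAt (fun g => (ρb g).trace) g₀ k₀} {A : ValuationSubring (AlgebraicClosure ℚ)}
    {Q Qi : Matrix (Fin 2) (Fin 2) h.TT}

theorem psE_eq (H : OrdR h hgk A Q Qi) {Φ τ : GQ} (hΦ : Φ ∈ A.decompositionSubgroup ℚ)
    (hτ : τ ∈ A.inertiaSubgroupIn ℚ) {b : O} (hb : b * (1 - cycO hpO τ) = 1) :
    psE h Φ τ b = (Qi * h.R hgk Φ * Q) 1 1 := (H.psi_eq' hΦ hτ hb).symm

/-- the quotient character is a unit -/
theorem psi_unit (H : OrdR h hgk A Q Qi) {Φ : GQ} (hΦ : Φ ∈ A.decompositionSubgroup ℚ) :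
    IsUnit ((Qi * h.R hgk Φ * Q) 1 1) := IsUnit.of_mul_eq_one _ (H.psi_inv hΦ)

theorem psi_sub_unit (H : OrdR h hgk A Q Qi) {Φ : GQ} (hΦ : Φ ∈ A.decompositionSubgroup ℚ) :
    IsUnit ((Qi * h.R hgk Φ * Q) 1 1 ^ 2 - algebraMap O h.TT p ^ 2) := by
  by_contra hn
  have h1 : ((Qi * h.R hgk Φ * Q) 1 1 ^ 2 - algebraMap O h.TT p ^ 2) ∈ maximalIdeal h.TT :=
    (mem_maximalIdeal _).2 hn
  have h2 : algebraMap O h.TT p ∈ maximalIdeal h.TT := by
    rw [← h.theta_eq_zero, AlgHom.commutes]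
    exact (residue_eq_zero_iff _).2 hpO
  have h3 : (Qi * h.R hgk Φ * Q) 1 1 ^ 2 ∈ maximalIdeal h.TT := by
    have h4 := Ideal.add_mem _ h1 (Ideal.pow_mem_of_mem _ h2 2 two_pos)
    rwa [sub_add_cancel] at h4
  exact (mem_maximalIdeal _).1 h3 ((psi_unit H hΦ).pow 2)

theorem psi_mul (H : OrdR h hgk A Q Qi) {g k : GQ} (hg : g ∈ A.decompositionSubgroup ℚ)
    (hk : k ∈ A.decompositionSubgroup ℚ) :
    (Qi * h.R hgk (g * k) * Q) 1 1 = (Qi * h.R hgk g * Q) 1 1 * (Qi * h.R hgk k * Q) 1 1 :=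
  H.mul11 hg

theorem psi_one (H : OrdR h hgk A Q Qi) : (Qi * h.R hgk 1 * Q) 1 1 = 1 := by
  rw [map_one, mul_one, H.inv', Matrix.one_apply_eq]

end psE

section comm

variable {T Y T' Y' : Type} [CommRing T] [Algebra O T] [AddCommGroup Y] [Module O Y]
    [Module.Finite O Y] [Module.Free O Y] [Nontrivial Y] {t t' : GQ → ResidueField O}
    {ψ : T →ₐ[O] Module.End O Y} {θ : T →ₐ[O] ResidueField O} {ρ : GQ →* Module.End O Y}
    [CommRing T'] [Algebra O T'] [AddCommGroup Y'] [Module O Y']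
    [Module.Finite O Y'] [Module.Free O Y'] [Nontrivial Y'] {S₁ : Set ℕ}
    {ψ' : T' →ₐ[O] Module.End O Y'} {θ' : T' →ₐ[O] ResidueField O} {ρ' : GQ →* Module.End O Y'}
    (h : HG hpO S' t ψ θ ρ) (h' : HG hpO S₁ t' ψ' θ' ρ')

theorem ttU_comm (u : Y →ₗ[O] Y') (hu : ∀ σ y, u (ρ σ y) = ρ' σ (u y)) (g : GQ) (y : Y) :
    u (h.tt g • y) = h'.tt g • u y := by
  rw [h.tt_smul, h'.tt_smul, map_add, map_smul, hu, hu]

theorem psE_comm (u : Y →ₗ[O] Y') (hu : ∀ σ y, u (ρ σ y) = ρ' σ (u y)) (Φ τ : GQ) (b : O)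
    (y : Y) : u (psE h Φ τ b • y) = psE h' Φ τ b • u y := by
  rw [psE, psE, mul_smul, mul_smul, sub_smul, sub_smul, mul_smul, mul_smul, algebraMap_smul,
    algebraMap_smul, algebraMap_smul, algebraMap_smul, map_smul, map_sub,
    ttU_comm h h' u hu, map_smul u (cycO hpO τ) (h.tt Φ • y), ttU_comm h h' u hu]

end comm

variable [Algebra (ZMod p) (ResidueField O)] [Invertible (2 : O)] {g₀ k₀ : GQ}
  {hgk : HG.IrrAt (fun g => (ρb g).trace) g₀ k₀} {A : ValuationSubring (AlgebraicClosure ℚ)}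
  {h : HG hpO S' (fun g => (ρb g).trace) (psiY (HM (dvd_mul_left M p) H) hNS e) θ
    (rhoY hpO ι (HM (dvd_mul_left M p) H) hNS e)}
  {Q Qi : Matrix (Fin 2) (Fin 2) h.TT} {D : WData p M H} {hpM : ¬ p ∣ M}

omit [Algebra (ZMod p) (ResidueField O)] in
theorem frob_dec {A : ValuationSubring (AlgebraicClosure ℚ)} {Φ : GQ}
    (hΦ : A.IsFrobeniusAt Φ p) : Φ ∈ A.decompositionSubgroup ℚ := hΦ.mem_decompositionSubgroup

/-- **the relation for the quotient character** -/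
theorem URel.psi (hU : URel h D hpM) (HO : OrdR h hgk A Q Qi) (hp2 : p ≠ 2)
    (hA : A.LiesOverPrime p) {Φ : GQ} (hΦ : A.IsFrobeniusAt Φ p)
    (y : YH (HM (dvd_mul_left M p) H) hNS e) :
    (Qi * h.R hgk Φ * Q) 1 1 • UY hNS e D hpM (UY hNS e D hpM y) -
      ((Qi * h.R hgk Φ * Q) 1 1 ^ 2 + algebraMap O h.TT p) • UY hNS e D hpM y +
      (algebraMap O h.TT p * (Qi * h.R hgk Φ * Q) 1 1) • y = 0 := by
  obtain ⟨τ, hτ, b, hb⟩ := OrdR.exists_tau hpO hp2 hA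
  have hd := frob_dec hΦ
  have h1 := hU A hA Φ hΦ τ hτ y
  have h2 := HO.psi_eq hd hτ
  have h3 := HO.psi_eq (mul_mem hd hd) hτ
  have h4 := HO.psi_eq (one_mem _) hτ
  rw [one_mul, psi_one HO] at h4
  rw [psi_mul HO hd hd] at h3
  have hb' := congrArg (algebraMap O h.TT) hb
  rw [map_mul, map_sub, map_one] at hb'
  exact rel_abs hb' h1 h2 h3 h4

/-- **(O2)** -/
theorem URel.o2 (hU : URel h D hpM) (HO : OrdR h hgk A Q Qi) (hp2 : p ≠ 2)
    (hA : A.LiesOverPrime p) {Φ : GQ} (hΦ : A.IsFrobeniusAt Φ p)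
    {y : YH (HM (dvd_mul_left M p) H) hNS e} (h1 : tO O p M H y = 0)
    (h2 : tO O p M H (WO O D y) = 0) :
    ((Qi * h.R hgk Φ * Q) 1 1 ^ 2 - 1) • y = 0 := by
  have e1 : UY hNS e D hpM y = - WY hNS e D y := by
    apply Subtype.ext
    rw [UY_coe', h2, map_zero, zero_sub]
    rfl
  have e2 : UY hNS e D hpM (WY hNS e D y) = - y := by
    apply Subtype.ext
    rw [UY_coe', WY_coe, WO_WO, h1, map_zero, zero_sub]
    rfl
  have e3 : UY hNS e D hpM (UY hNS e D hpM y) = y := by rw [e1, map_neg, e2, neg_neg]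
  have e4 : UY hNS e D hpM (UY hNS e D hpM (WY hNS e D y)) = WY hNS e D y := by
    rw [e2, map_neg, e1, neg_neg]
  exact o2_abs (psi_sub_unit HO (frob_dec hΦ)) (hU.psi HO hp2 hA hΦ y)
    (hU.psi HO hp2 hA hΦ (WY hNS e D y)) e1 e3 e2 e4

end Y

/-! ### at a level `N = p M` -/

section N

variable {O : Type} [CommRing O] [IsLocalRing O] [IsNoetherianRing O]
  [IsAdicComplete (maximalIdeal O) O] {p : ℕ} [hp : Fact p.Prime]
  {hpO : (p : O) ∈ maximalIdeal O} {ι : AlgebraicClosure ℚ →+* ℂ} {S : Set ℕ}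
  {M N : ℕ} [NeZero M] [NeZero N]
  {H : Subgroup (ZMod M)ˣ} [hH : Fact ((-1 : (ZMod M)ˣ) ∈ H)]
  {H' : Subgroup (ZMod N)ˣ} [hH' : Fact ((-1 : (ZMod N)ˣ) ∈ H')]

/-- the normalised operator `U_p` -/
def UN (h : Lv2 p H H') (hNS : ∀ l, l.Prime → l ∣ N → l ∈ S) (e : TS O S) (D : WData p M H)
    (hpM : ¬ p ∣ M) : Module.End O (YH H' hNS e) := by
  obtain ⟨hN, hH⟩ := h
  subst hN
  subst hH
  exact UY hNS e D hpM

/-- the involution -/
def WN (h : Lv2 p H H') (hNS : ∀ l, l.Prime → l ∣ N → l ∈ S) (e : TS O S) (D : WData p M H) :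
    Module.End O (YH H' hNS e) := by
  obtain ⟨hN, hH⟩ := h
  subst hN
  subst hH
  exact WY hNS e D

variable {S' : Set ℕ} {t : GQ → ResidueField O} {θ : TD O S N →ₐ[O] ResidueField O}
  {hNS : ∀ l, l.Prime → l ∣ N → l ∈ S} {e : TS O S}
  [hnt : Nontrivial (YH H' hNS e)] [hfr : Module.Free O (YH H' hNS e)]

/-- **the relation between `U_p` and Frobenius** at level `N = p M` -/
def URelN (h2 : Lv2 p H H')
    (h : HG hpO S' t (psiY H' hNS e) θ (rhoY hpO ι H' hNS e)) (D : WData p M H)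
    (hpM : ¬ p ∣ M) : Prop :=
  ∀ A : ValuationSubring (AlgebraicClosure ℚ), A.LiesOverPrime p → ∀ Φ : GQ,
    A.IsFrobeniusAt Φ p → ∀ τ ∈ A.inertiaSubgroupIn ℚ, ∀ y : YH H' hNS e,
      (h.tt (Φ * τ) - algebraMap O h.TT (cycO hpO τ) * h.tt Φ) •
          UN h2 hNS e D hpM (UN h2 hNS e D hpM y) -
      ((h.tt (Φ * Φ * τ) - algebraMap O h.TT (cycO hpO τ) * h.tt (Φ * Φ)) +
        algebraMap O h.TT p * (h.tt τ - algebraMap O h.TT (cycO hpO τ) * h.tt 1)) •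
          UN h2 hNS e D hpM y +
      (algebraMap O h.TT p * (h.tt (Φ * τ) - algebraMap O h.TT (cycO hpO τ) * h.tt Φ)) • y = 0

/-- the two forms of the relation -/
theorem URelN.of (h2 : Lv2 p H H')
    (h : HG hpO S' t (psiY H' hNS e) θ (rhoY hpO ι H' hNS e)) (D : WData p M H)
    (hpM : ¬ p ∣ M)
    (hU : ∀ (θ : TD O S (p * M) →ₐ[O] ResidueField O) (hNS : ∀ l, l.Prime → l ∣ p * M → l ∈ S)
      [Nontrivial (YH (HM (dvd_mul_left M p) H) hNS e)]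
      [Module.Free O (YH (HM (dvd_mul_left M p) H) hNS e)]
      (h : HG hpO S' t (psiY (HM (dvd_mul_left M p) H) hNS e) θ
        (rhoY hpO ι (HM (dvd_mul_left M p) H) hNS e)), URel h D hpM) : URelN h2 h D hpM := by
  obtain ⟨hN, hH⟩ := h2
  subst hN
  subst hH
  exact @hU θ hNS hnt hfr h

theorem UN_i1N (h2 : Lv2 p H H') (hMS : ∀ l, l.Prime → l ∣ M → l ∈ S)
    (hNS : ∀ l, l.Prime → l ∣ N → l ∈ S) (D : WData p M H) (hpM : ¬ p ∣ M) (x : YH H hMS e) :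
    UN h2 hNS e D hpM (i1N h2 hMS hNS e x) =
      i1N h2 hMS hNS e (TqY hMS e D hpM x) - i2N h2 hMS hNS e D x := by
  obtain ⟨hN, hH⟩ := h2
  subst hN
  subst hH
  apply Subtype.ext
  change rO O p M H (tO O p M H (WO O D (rO O p M H x))) - WO O D (rO O p M H x) =
    rO O p M H (TqO O D hpM x) - WO O D (rO O p M H x)
  rw [tO_WO_rO D hpM]

theorem UN_i2N (h2 : Lv2 p H H') (hMS : ∀ l, l.Prime → l ∣ M → l ∈ S)
    (hNS : ∀ l, l.Prime → l ∣ N → l ∈ S) (D : WData p M H) (hpM : ¬ p ∣ M) (x : YH H hMS e) :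
    UN h2 hNS e D hpM (i2N h2 hMS hNS e D x) = (p : O) • i1N h2 hMS hNS e x := by
  obtain ⟨hN, hH⟩ := h2
  subst hN
  subst hH
  apply Subtype.ext
  change rO O p M H (tO O p M H (WO O D (WO O D (rO O p M H x)))) -
    WO O D (WO O D (rO O p M H x)) = (p : O) • rO O p M H x
  rw [WO_WO, tO_rO D hpM, map_smul, add_smul, one_smul, add_sub_cancel_right]

theorem UN_eq (h2 : Lv2 p H H') (hMS : ∀ l, l.Prime → l ∣ M → l ∈ S)
    (hNS : ∀ l, l.Prime → l ∣ N → l ∈ S) (D : WData p M H) (hpM : ¬ p ∣ M) (y : YH H' hNS e) :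
    UN h2 hNS e D hpM y = i1N h2 hMS hNS e (s2N h2 hMS hNS e D hpM y) - WN h2 hNS e D y := by
  obtain ⟨hN, hH⟩ := h2
  subst hN
  subst hH
  rfl

theorem UN_WN (h2 : Lv2 p H H') (hMS : ∀ l, l.Prime → l ∣ M → l ∈ S)
    (hNS : ∀ l, l.Prime → l ∣ N → l ∈ S) (D : WData p M H) (hpM : ¬ p ∣ M) (y : YH H' hNS e) :
    UN h2 hNS e D hpM (WN h2 hNS e D y) =
      i1N h2 hMS hNS e (s1N h2 hMS hNS e D hpM y) - y := by
  obtain ⟨hN, hH⟩ := h2
  subst hN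
  subst hH
  apply Subtype.ext
  let y' : XH O (p * M) (HM (dvd_mul_left M p) H) := y.1
  change rO O p M H (tO O p M H (WO O D (WO O D y'))) - WO O D (WO O D y') =
    rO O p M H (tO O p M H y') - y'
  rw [WO_WO]

variable {ρb : GQ →* Matrix (Fin 2) (Fin 2) (ResidueField O)} [Algebra (ZMod p) (ResidueField O)]
  [Invertible (2 : O)] {g₀ k₀ : GQ}
  {hgk : HG.IrrAt (fun g => (ρb g).trace) g₀ k₀} {A : ValuationSubring (AlgebraicClosure ℚ)}
  {h : HG hpO S' (fun g => (ρb g).trace) (psiY H' hNS e) θ (rhoY hpO ι H' hNS e)}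
  {Q Qi : Matrix (Fin 2) (Fin 2) h.TT} {D : WData p M H} {hpM : ¬ p ∣ M} {h2 : Lv2 p H H'}

/-- **the relation for the quotient character** -/
theorem URelN.psi (hU : URelN h2 h D hpM) (HO : OrdR h hgk A Q Qi) (hp2 : p ≠ 2)
    (hA : A.LiesOverPrime p) {Φ : GQ} (hΦ : A.IsFrobeniusAt Φ p) (y : YH H' hNS e) :
    (Qi * h.R hgk Φ * Q) 1 1 • UN h2 hNS e D hpM (UN h2 hNS e D hpM y) -
      ((Qi * h.R hgk Φ * Q) 1 1 ^ 2 + algebraMap O h.TT p) • UN h2 hNS e D hpM y +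
      (algebraMap O h.TT p * (Qi * h.R hgk Φ * Q) 1 1) • y = 0 := by
  obtain ⟨τ, hτ, b, hb⟩ := OrdR.exists_tau hpO hp2 hA
  have hd := frob_dec hΦ
  have h1 := hU A hA Φ hΦ τ hτ y
  have h2 := HO.psi_eq hd hτ
  have h3 := HO.psi_eq (mul_mem hd hd) hτ
  have h4 := HO.psi_eq (one_mem _) hτ
  rw [one_mul, psi_one HO] at h4
  rw [psi_mul HO hd hd] at h3
  have hb' := congrArg (algebraMap O h.TT) hb
  rw [map_mul, map_sub, map_one] at hb'
  exact rel_abs hb' h1 h2 h3 h4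

/-- **(O2)**: on the kernel of the transfers `ψ(Φ)² = 1`. -/
theorem URelN.o2 {hMS : ∀ l, l.Prime → l ∣ M → l ∈ S} (hU : URelN h2 h D hpM)
    (HO : OrdR h hgk A Q Qi) (hp2 : p ≠ 2)
    (hA : A.LiesOverPrime p) {Φ : GQ} (hΦ : A.IsFrobeniusAt Φ p) {y : YH H' hNS e}
    (h1 : s1N h2 hMS hNS e D hpM y = 0) (h3 : s2N h2 hMS hNS e D hpM y = 0) :
    ((Qi * h.R hgk Φ * Q) 1 1 ^ 2 - 1) • y = 0 := by
  have e1 : UN h2 hNS e D hpM y = - WN h2 hNS e D y := by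
    rw [UN_eq h2 hMS hNS D hpM, h3, map_zero, zero_sub]
  have e2 : UN h2 hNS e D hpM (WN h2 hNS e D y) = - y := by
    rw [UN_WN h2 hMS hNS D hpM, h1, map_zero, zero_sub]
  have e3 : UN h2 hNS e D hpM (UN h2 hNS e D hpM y) = y := by rw [e1, map_neg, e2, neg_neg]
  have e4 : UN h2 hNS e D hpM (UN h2 hNS e D hpM (WN h2 hNS e D y)) = WN h2 hNS e D y := by
    rw [e2, map_neg, e1, neg_neg]
  exact o2_abs (psi_sub_unit HO (frob_dec hΦ)) (hU.psi HO hp2 hA hΦ y)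
    (hU.psi HO hp2 hA hΦ (WN h2 hNS e D y)) e1 e3 e2 e4

section o3

variable [IsDomain O] {hMS : ∀ l, l.Prime → l ∣ M → l ∈ S} [Nontrivial (YH H hMS e)]
  [Module.Free O (YH H hMS e)] {S₁ : Set ℕ} {t₁ : GQ → ResidueField O}
  {θ₁ : TD O S M →ₐ[O] ResidueField O}
  (h₁ : HG hpO S₁ t₁ (psiY H hMS e) θ₁ (rhoY hpO ι H hMS e))

include hgk in
/-- the quotient character descends -/
theorem psE_inv (hd : DegY hpO ι h2 hMS hNS e D hpM) {ϖ : O}
    (hmax : maximalIdeal O = Ideal.span {ϖ}) (HO : OrdR h hgk A Q Qi) {Φ : GQ}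
    (hΦ : A.IsFrobeniusAt Φ p) {τ : GQ} (hτ : τ ∈ A.inertiaSubgroupIn ℚ) {b : O}
    (hb : b * (1 - cycO hpO τ) = 1) : psE h₁ Φ τ b * psE h₁ Φ⁻¹ τ b = 1 := by
  rw [← sub_eq_zero]
  refine h₁.faithful fun y => ?_
  refine (pair_inj hmax (i1N h2 hMS hNS e) (i2N h2 hMS hNS e D) hd.inj (y := 0) ?_).1
  rw [map_zero, add_zero, sub_smul, one_smul, map_sub, mul_smul,
    psE_comm h₁ h _ hd.i1_rho, psE_comm h₁ h _ hd.i1_rho, smul_smul,
    psE_eq HO (frob_dec hΦ) hτ hb, psE_eq HO (inv_mem (frob_dec hΦ)) hτ hb,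
    HO.psi_inv (frob_dec hΦ), one_smul, sub_self]

/-- **(O3)**: `T_p = ψ(Φ) + p ψ(Φ)⁻¹` at the level prime to `p`. -/
theorem URelN.o3 (hU : URelN h2 h D hpM) (hd : DegY hpO ι h2 hMS hNS e D hpM) {ϖ : O}
    (hmax : maximalIdeal O = Ideal.span {ϖ}) (HO : OrdR h hgk A Q Qi) (hp2 : p ≠ 2)
    (hA : A.LiesOverPrime p) {Φ : GQ} (hΦ : A.IsFrobeniusAt Φ p) {τ : GQ}
    (hτ : τ ∈ A.inertiaSubgroupIn ℚ) {b : O} (hb : b * (1 - cycO hpO τ) = 1)
    (x : YH H hMS e) :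
    TqY hMS e D hpM x =
      (psE h₁ Φ τ b + algebraMap O h₁.TT p * psE h₁ Φ⁻¹ τ b) • x := by
  have hinv := psE_inv h₁ hd hmax HO hΦ hτ hb
  have h1 := hU.psi HO hp2 hA hΦ (i1N h2 hMS hNS e x)
  rw [← psE_eq HO (frob_dec hΦ) hτ hb] at h1
  have h3 := o3_abs (R' := h₁.TT) (P' := algebraMap O h₁.TT p) (ψ' := psE h₁ Φ τ b)
    (i1 := i1N h2 hMS hNS e)
    (i2 := i2N h2 hMS hNS e D) (T := TqY hMS e D hpM) (F := UN h2 hNS e D hpM)
    (fun a b => map_sub _ _ _) (fun a b => map_add _ _ _) (fun a b => map_add _ _ _)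
    (fun x y hxy => pair_inj hmax (i1N h2 hMS hNS e) (i2N h2 hMS hNS e D) hd.inj hxy)
    (fun x => UN_i1N h2 hMS hNS D hpM x)
    (fun x => by rw [UN_i2N h2 hMS hNS D hpM x, algebraMap_smul])
    (fun x => psE_comm h₁ h _ hd.i1_rho Φ τ b x) (fun x => psE_comm h₁ h _ hd.i2_rho Φ τ b x)
    (fun x => by rw [algebraMap_smul, algebraMap_smul, map_smul])
    (fun x => by rw [algebraMap_smul, algebraMap_smul, map_smul]) x h1
  have h4 := congrArg (fun z => psE h₁ Φ⁻¹ τ b • z) h3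
  simp only [smul_smul] at h4
  rw [mul_comm, hinv, one_smul] at h4
  rw [h4]
  congr 1
  linear_combination (psE h₁ Φ τ b) * hinv

end o3

end N

end

end Fermat.Agent.OrdH
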