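import Fermat.Agent.OrdH.UC

/-!
# The `U`-relation on the localised lattices
-/

set_option autoImplicit false
set_option linter.unusedSectionVars false
set_option linter.style.haveILetI false

open Matrix.SpecialLinearGroup Filter
open scoped MatrixGroups TensorProduct
open IsLocalRing
open Fermat.Agent.TW Fermat.Agent.GalRep Fermat.Agent.Places Fermat.Agent.Ord Fermat.Agent.KumG
open Fermat.Agent.SSH Fermat.Agent.S59e Fermat.Agent.AL Fermat.Agent.ALCoh Fermat.Agent.Cov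
open Fermat.Agent.GamH Fermat.Agent.LevelRaise

namespace Fermat.Agent.OrdH

noncomputable section

/-- the bound for the Hecke algebra -/
theorem exists_faithful (N : ℕ) [NeZero N] (S : Set ℕ) {p : ℕ} (hp0 : p ≠ 0) :
    ∃ c : ℕ, ∀ n m : ℕ, m = p ^ (n + c) → ∀ [NeZero m],
      ∀ a : CuspForm.heckeAlgebra N 2 S, (∀ ξ : Kum.XL N m, Kum.actX N m S a ξ = 0) →
      ∃ b : CuspForm.heckeAlgebra N 2 S, a = p ^ n • b := by
  letI : Module (CuspForm.heckeAlgebra N 2 S) (HeckeHom.LZ N) :=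
    Module.compHom (HeckeHom.LZ N) (HeckeHom.actL N S)
  obtain ⟨c, hc⟩ := exists_faithful_bound (T := CuspForm.heckeAlgebra N 2 S) (L := HeckeHom.LZ N)
    (fun a ha => by
      apply HeckeHom.actL_injective N
      rw [map_zero]
      exact LinearMap.ext ha) p hp0
  refine ⟨c, fun n m hm => ?_⟩
  subst hm
  intro _ a ha
  refine hc n a (fun φ => ?_)
  have h1 : (Kum.mkX (HeckeHom.actL N S a φ) : Kum.XL N (p ^ (n + c))) = Kum.mkX 0 := by
    rw [map_zero]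
    exact ha (Kum.mkX φ)
  rw [Kum.mkX_eq_iff, Kum.redI_zero, Kum.redI_eq_zero] at h1
  obtain ⟨ψ, hψ⟩ := h1
  exact ⟨ψ, hψ⟩

section approx

variable {O T Y : Type} [CommRing O] [IsLocalRing O] [IsNoetherianRing O]
  [IsAdicComplete (maximalIdeal O) O] [CommRing T] [Algebra O T] [AddCommGroup Y] [Module O Y]
  [Module.Finite O Y] [Module.Free O Y] [Nontrivial Y] {p : ℕ} [hp : Fact p.Prime]
  {hpO : (p : O) ∈ maximalIdeal O} {S : Set ℕ} {t : GQ → ResidueField O}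
  {ψ : T →ₐ[O] Module.End O Y} {θ : T →ₐ[O] ResidueField O} {ρ : GQ →* Module.End O Y}
  (h : HG hpO S t ψ θ ρ)

include h in
theorem theta_mem {a : h.TT} : a ∈ maximalIdeal h.TT ↔ h.theta a = 0 := h.theta_eq_zero.symm

include h in
theorem isGood_chi {N : ℕ} [NeZero N] (χ : CuspForm.heckeAlgebra N 2 S →+* h.TT)
    (hNS' : ∀ l, l.Prime → l ∣ N → l ∈ S)
    (hχ : ∀ (l : ℕ) (hl : l.Prime) (hlN' : ¬ l ∣ N) (hlS : l ∉ S)
        (A : ValuationSubring (AlgebraicClosure ℚ)), A.LiesOverPrime l → ∀ τ : GQ,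
        A.IsFrobeniusAt τ l → χ (CuspForm.heckeAlgebra.T hl hlN' hlS) = h.tt τ) :
    IsGoodPseudoRep (maximalIdeal h.TT)
      (fun l => χ (heckeFun N S l)) S p ∅ h.tt h.DD :=
  isGood h (fun l hl hlS A hA τ hτ => by
    have hlN : ¬ l ∣ N := fun h => hlS (hNS' l hl h)
    rw [heckeFun_eq hl hlN hlS, hχ l hl hlN hlS A hA τ hτ])

include h in
theorem tt_comm {g₀ k₀ : GQ} (hgk : HG.IrrAt t g₀ k₀) [Invertible (2 : O)] (g k : GQ) :
    h.tt (g * k) = h.tt (k * g) := by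
  rw [← h.R_trace hgk, ← h.R_trace hgk, map_mul, map_mul, Matrix.trace_mul_comm]

include h in
theorem irr_notMem {g₀ k₀ : GQ} (hgk : HG.IrrAt t g₀ k₀) :
    h.tt (g₀ * k₀) + h.tt (complexConjugation * g₀ * k₀) -
      h.tt (g₀ * complexConjugation * k₀) -
      h.tt (complexConjugation * g₀ * complexConjugation * k₀) ∉ maximalIdeal h.TT := by
  rw [theta_mem, map_sub, map_sub, map_add, h.theta_tt, h.theta_tt, h.theta_tt, h.theta_tt]
  intro h1
  apply hgk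
  rw [← h1]
  simp only [mul_assoc]
  ring

include h in
theorem res_mem {σ τ g : GQ}
    (hres : t (σ * τ * g) - t (σ * g) - residue O (cycO hpO σ) * t (τ * g) +
        residue O (cycO hpO σ) * t g = 0) :
    h.tt (σ * τ * g) - h.tt (σ * g) - h.DD σ * h.tt (τ * g) + h.DD σ * h.tt g ∈
        maximalIdeal h.TT := by
  have h1 : h.theta (h.DD σ) = residue O (cycO hpO σ) := by
    rw [h.DD_apply, AlgHom.commutes]; rfl
  rw [theta_mem, map_add, map_sub, map_sub, map_mul, map_mul, h.theta_tt, h.theta_tt, h.theta_tt,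
    h.theta_tt, h1]
  exact hres

include h in
theorem comap_isMaximal [Finite (ResidueField O)] {R : Type*} [CommRing R] (χ : R →+* h.TT) :
    (Ideal.comap χ (maximalIdeal h.TT)).IsMaximal := by
  haveI : (Ideal.comap χ (maximalIdeal h.TT)).IsPrime := Ideal.comap_isPrime _ _
  haveI : Finite (h.TT ⧸ maximalIdeal h.TT) := by
    refine Finite.of_injective (Ideal.Quotient.lift (maximalIdeal h.TT) h.theta.toRingHom
      (fun a ha => (theta_mem h).1 ha)) ?_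
    rw [injective_iff_map_eq_zero]
    intro a ha
    obtain ⟨a, rfl⟩ := Ideal.Quotient.mk_surjective a
    rw [Ideal.Quotient.lift_mk] at ha
    exact Ideal.Quotient.eq_zero_iff_mem.2 ((theta_mem h).2 ha)
  haveI : Finite (R ⧸ Ideal.comap χ (maximalIdeal h.TT)) :=
    Finite.of_injective _ (Ideal.quotientMap_injective (f := χ) (I := maximalIdeal h.TT))
  exact Ideal.Quotient.maximal_of_isField _ (Finite.isField_of_domain _)

set_option maxHeartbeats 4000000 in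
include h in
/-- approximation of the relation -/
theorem approx [Finite (ResidueField O)] {M' : ℕ} [NeZero M'] (hpM' : ¬ p ∣ M')
    (hp2 : p ≠ 2) (hpS : p ∈ S) (hNS' : ∀ l, l.Prime → l ∣ p * M' → l ∈ S)
    (ι : AlgebraicClosure ℚ →+* ℂ) (χ : CuspForm.heckeAlgebra (p * M') 2 S →+* h.TT)
    (hχ : ∀ (l : ℕ) (hl : l.Prime) (hlN' : ¬ l ∣ p * M') (hlS : l ∉ S)
        (A : ValuationSubring (AlgebraicClosure ℚ)), A.LiesOverPrime l → ∀ τ : GQ,
        A.IsFrobeniusAt τ l → χ (CuspForm.heckeAlgebra.T hl hlN' hlS) = h.tt τ)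
    {A : ValuationSubring (AlgebraicClosure ℚ)} (hA : A.LiesOverPrime p)
    (hres : ∀ σ ∈ A.inertiaSubgroupIn ℚ, ∀ τ ∈ A.inertiaSubgroupIn ℚ, ∀ g,
      t (σ * τ * g) - t (σ * g) - residue O (cycO hpO σ) * t (τ * g) +
        residue O (cycO hpO σ) * t g = 0)
    {g₀ k₀ : GQ} (hgk : HG.IrrAt t g₀ k₀) {Φ : GQ}
    (hΦ : A.IsFrobeniusAt Φ p) {τ : GQ} (hτ : τ ∈ A.inertiaSubgroupIn ℚ)
    {S' : Set ℕ} (hSS : S' ⊆ S) (hpS' : p ∉ S') (n : ℕ) :
    ∃ (r : GQ → CuspForm.heckeAlgebra (p * M') 2 S) (s cy : CuspForm.heckeAlgebra (p * M') 2 S)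
      (b : CuspForm.heckeAlgebra (p * M') 2 S'), IsUnit (χ s) ∧
      (∀ g, h.tt g - χ (r g) ∈ maximalIdeal h.TT ^ n) ∧ h.DD τ - χ cy ∈ maximalIdeal h.TT ^ n ∧
      inclH hSS s * (inclH hSS (r (τ * Φ) - cy * r Φ) *
          CuspForm.heckeAlgebra.U hp.out (dvd_mul_right p M') hpS' ^ 2 -
        inclH hSS ((r (τ * Φ * Φ) - cy * r (Φ * Φ)) +
          (p : CuspForm.heckeAlgebra (p * M') 2 S) * (r τ - cy * r 1)) *
          CuspForm.heckeAlgebra.U hp.out (dvd_mul_right p M') hpS' +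
        inclH hSS ((p : CuspForm.heckeAlgebra (p * M') 2 S) * (r (τ * Φ) - cy * r Φ))) =
        p ^ n • b := by
  have hgood := isGood_chi h χ hNS' hχ
  have hu := irr_notMem h hgk
  have h𝔫 := comap_isMaximal h χ
  have hp𝔫 : (p : CuspForm.heckeAlgebra (p * M') 2 S) ∈
      Ideal.comap χ (maximalIdeal h.TT) := by
    rw [Ideal.mem_comap, map_natCast]
    exact h.p_mem
  obtain ⟨ℓ, hℓ, hℓS, hTℓ⟩ := exists_ell h.p_mem h.fin hpS hgood
    complexConjugation_mul_self hu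
  have hℓN : ¬ ℓ ∣ p * M' := fun h => hℓS (hNS' ℓ hℓ h)
  have hT : CuspForm.heckeAlgebra.T hℓ hℓN hℓS -
      ((ℓ + 1 : ℕ) : CuspForm.heckeAlgebra (p * M') 2 S) ∉
      Ideal.comap χ (maximalIdeal h.TT) := by
    rw [Ideal.mem_comap, map_sub, map_natCast, ← heckeFun_eq hℓ hℓN hℓS]
    exact hTℓ
  obtain ⟨c, hc⟩ := isHG_rhoS (N := p * M') hpS hNS' ι
  obtain ⟨c', hc'⟩ := exists_faithful (p * M') S' hp.out.ne_zero
  obtain ⟨m, hm⟩ : ∃ m, m = n + c + c' + 1 := ⟨_, rfl⟩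
  haveI : NeZero (p ^ m) := ⟨pow_ne_zero _ hp.out.ne_zero⟩
  letI := modXS (p * M') (p ^ m) S
  have hHG : IsHG (heckeFun (p * M') S) S p (n + c' + 1) (rhoS hNS' ι (p ^ m)) :=
    hc (n + c' + 1) (p ^ m) (by rw [hm]; congr 1; ring)
  have hmX : ∀ x : Kum.XL (p * M') (p ^ m), p ^ m • x = 0 := fun ξ => by
    obtain ⟨φ, rfl⟩ := Kum.mkX_surjective ξ
    exact Kum.mkX_nsmul φ
  choose r hr using hHG.exists_trace h.fin hpS m hmX
  have ht := lim_eq h.p_mem χ h.fin hpS hgood hHG hmX hr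
  have hDm : ∀ g, Ideal.Quotient.mk (maximalIdeal h.TT ^ (n + c' + 1)) (h.DD g) =
      Ideal.Quotient.mk (maximalIdeal h.TT ^ (n + c' + 1)) (χ ((cyc (p ^ m) g).val :
        CuspForm.heckeAlgebra (p * M') 2 S)) := fun g => by
    rw [hgood.D_eq, map_natCast, map_natCast]
    refine natCast_eq_of_modEq (natCast_val_eq_zero_of_dvd h.p_mem) ?_
    rw [← ZMod.natCast_eq_natCast_iff, ZMod.natCast_zmod_val,
      ← castHom_cyc (m := p ^ (n + c' + 1)) (n := p ^ m) (pow_dvd_pow p (by omega)) g]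
    simp [ZMod.natCast_val]
  have hx : ∀ σ τ g, Ideal.Quotient.mk (maximalIdeal h.TT ^ (n + c' + 1))
      (h.tt (σ * τ * g) - h.tt (σ * g) - h.DD σ * h.tt (τ * g) + h.DD σ * h.tt g) =
      Ideal.Quotient.mk (maximalIdeal h.TT ^ (n + c' + 1)) (χ (r (σ * τ * g) - r (σ * g) -
        ((cyc (p ^ m) σ).val : CuspForm.heckeAlgebra (p * M') 2 S) * r (τ * g) +
        ((cyc (p ^ m) σ).val : CuspForm.heckeAlgebra (p * M') 2 S) * r g)) := by
    intro σ τ g
    rw [map_add χ, map_sub χ, map_sub χ, map_mul χ, map_mul χ, map_add, map_sub, map_sub,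
      map_mul, map_mul, map_add, map_sub, map_sub, map_mul, map_mul, ht, ht, ht, ht, hDm]
  have hle : maximalIdeal h.TT ^ (n + c' + 1) ≤ maximalIdeal h.TT :=
    Ideal.pow_le_self (Nat.succ_ne_zero _)
  have hcmp : ∀ {x y : h.TT}, Ideal.Quotient.mk (maximalIdeal h.TT ^ (n + c' + 1)) x =
      Ideal.Quotient.mk (maximalIdeal h.TT ^ (n + c' + 1)) y → (x ∈ maximalIdeal h.TT ↔
        y ∈ maximalIdeal h.TT) := by
    intro x y hxy
    rw [Ideal.Quotient.eq] at hxy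
    have h1 := hle hxy
    constructor
    · intro h2
      have := Ideal.sub_mem _ h2 h1
      rwa [sub_sub_cancel] at this
    · intro h2
      have := Ideal.add_mem _ h1 h2
      rwa [sub_add_cancel] at this
  obtain ⟨τ₀, hτ₀, hcτ₀⟩ := exists_tau hA hp2
  have hDτ := tau_unit h.p_mem hgood hcτ₀
  obtain ⟨s, hs, hs'⟩ := rel_U hpM' hA hp2 ι hSS hNS' (dvd_mul_right p M') hpS' (n + c + c')
    (D := p ^ m) (by rw [hm, pow_succ]) h𝔫 hp𝔫 hℓ hℓN hℓS hT (m := m) (by omega) hmX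
    (r := r) hr (fun σ hσ τ hτ g => by
      rw [Ideal.mem_comap]
      exact (hcmp (hx σ τ g)).1 (res_mem h (hres σ hσ τ hτ g))) complexConjugation_mul_self
    (g₀ := g₀) (k₀ := k₀) (fun h1 => hu (by
      rw [Ideal.mem_comap] at h1
      refine (hcmp ?_).2 h1
      rw [map_sub χ, map_sub χ, map_add χ, map_sub, map_sub, map_add, map_sub, map_sub, map_add,
        ht, ht, ht, ht])) hτ₀ (fun h1 => hDτ (by
      rw [Ideal.mem_comap] at h1
      refine (hcmp ?_).2 h1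
      rw [map_sub χ, map_sub, map_sub, hDm, map_one χ])) hΦ hτ
  obtain ⟨b, hb⟩ := hc' (n + c + 1) (p ^ m) (by rw [hm]; congr 1; ring) _ hs'
  refine ⟨r, s, ((cyc (p ^ m) τ).val : CuspForm.heckeAlgebra (p * M') 2 S), p ^ (c + 1) • b,
    ?_, fun g => ?_, ?_, ?_⟩
  · by_contra h1
    exact hs (by rw [Ideal.mem_comap]; exact (mem_maximalIdeal _).2 h1)
  · have h1 := ht g
    rw [Ideal.Quotient.eq] at h1
    exact Ideal.pow_le_pow_right (by omega) h1
  · have h1 := hDm τ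
    rw [Ideal.Quotient.eq] at h1
    exact Ideal.pow_le_pow_right (by omega) h1
  · rw [smul_smul, ← pow_add, hb, add_assoc]

end approx

variable {M₀ M M' : ℕ} {p : ℕ} [hp : Fact p.Prime] [NeZero M] [NeZero M'] {L : List ℕ}
  {H : Subgroup (ZMod M)ˣ} [hH : Fact ((-1 : (ZMod M)ˣ) ∈ H)]
  (V : TwL' M₀ (p * M) (p * M') L (HM (dvd_mul_left M p) H))
  {O : Type} [CommRing O] {S : Set ℕ}
  {hNS : ∀ l, l.Prime → l ∣ p * M → l ∈ S} {e : TS O S} [IsLocalRing O] [IsNoetherianRing O]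
  [IsAdicComplete (maximalIdeal O) O]
  {hpO : (p : O) ∈ maximalIdeal O} {ι : AlgebraicClosure ℚ →+* ℂ}

theorem aL_inclH {N : ℕ} [NeZero N] {S S' : Set ℕ} (h : S' ⊆ S)
    (t : CuspForm.heckeAlgebra N 2 S) : aL N S' (inclH h t) = aL N S t :=
  LinearMap.ext fun φ => actL_inclH h t φ

theorem aL_U {N q : ℕ} [NeZero N] {S' : Set ℕ} (hq : q.Prime) (hqN : q ∣ N) (hqS : q ∉ S') :
    aL N S' (CuspForm.heckeAlgebra.U hq hqN hqS) = UG hq hqN := by
  refine LinearMap.ext fun x => Subtype.ext ?_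
  change (HeckeHom.actL N S' _ x).1 = _
  rw [HeckeHom.actL_U, ALCoh.opU_eq hq hqN]
  rfl

include V in
theorem not_mem_L (hpM' : ¬ p ∣ M') : p ∉ L := by
  intro hpL
  have h1 : p ∣ L.prod := List.dvd_prod hpL
  have h2 : p * p ∣ p * M' := by
    rw [V.eN']
    exact mul_dvd_mul (h1.mul_left M₀) h1
  exact hpM' (Nat.dvd_of_mul_dvd_mul_left hp.out.pos h2)

include V in
/-- `U_p` -/
theorem Cor.mem_U {S' : Set ℕ} {k : ℕ} (D : SSH.WData p M H) (hpM : ¬ p ∣ M) (hpM' : ¬ p ∣ M')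
    (hpS' : p ∉ S') :
    (CuspForm.heckeAlgebra.U hp.out (dvd_mul_right p M') hpS', UY hNS e D hpM) ∈
      Cor M₀ (p * M') L hNS e S' (2 * k + 1) := by
  refine ⟨UH D, ?_, fun y => ?_⟩
  · change (aL (p * M') S' (CuspForm.heckeAlgebra.U hp.out (dvd_mul_right p M') hpS'), _) ∈ _
    rw [aL_U]
    exact mem_Rl_U rfl D hpM (not_mem_L V hpM') (dvd_mul_right p M')
  · change (UY hNS e D hpM y : XH O (p * M) (HM (dvd_mul_left M p) H)) = _
    rw [UY_coe, UO_eq]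

include V in
/-- every Hecke operator has a counterpart -/
theorem Cor.exists_right {S' : Set ℕ} {k : ℕ}
    (hk : Fintype.card (DG (p * M) (HM (dvd_mul_left M p) H)) = 2 * k + 1)
    (D : SSH.WData p M H) (hpM : ¬ p ∣ M) (hpM' : ¬ p ∣ M') (hS' : S' = S \ {p})
    (hpO : (p : O) ∈ maximalIdeal O) (ι : AlgebraicClosure ℚ →+* ℂ)
    (b : CuspForm.heckeAlgebra (p * M') 2 S') :
    ∃ bY : Module.End O (YH (HM (dvd_mul_left M p) H) hNS e),
      (b, bY) ∈ Cor M₀ (p * M') L hNS e S' (2 * k + 1) := by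
  have hpS' : p ∉ S' := fun h => by rw [hS'] at h; exact h.2 rfl
  have hU : b ∈ (Cor (H := HM (dvd_mul_left M p) H) M₀ (p * M') L hNS e S' (2 * k + 1)).map
      (RingHom.fst _ _) := by
    refine mem_of_gens _ (fun l hl hlN' hlS' => ?_) (fun q hq hqN hqS' => ?_) b
    · have hlp : l ≠ p := fun h => hlN' (h ▸ dvd_mul_right p M')
      have hlS : l ∉ S := fun h => hlS' (by rw [hS']; exact ⟨h, hlp⟩)
      have hlN : ¬ l ∣ p * M := fun h => hlS (hNS l hl h)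
      obtain ⟨A, hA⟩ := exists_liesOverPrime (AlgebraicClosure ℚ) hl
      obtain ⟨Φ, hΦ⟩ := exists_isFrobeniusAt A hl hA
      exact ⟨_, Cor.mem_T (hpO := hpO) (ι := ι) hk hl hlN hlN' hlS' hlp hA hΦ, rfl⟩
    · have hqS : q ∈ S := hNS q hq ((V.prime_dvd hq).2 hqN)
      obtain rfl : q = p := by
        by_contra h
        exact hqS' (by rw [hS']; exact ⟨hqS, h⟩)
      exact ⟨_, Cor.mem_U V D hpM hpM' hpS', rfl⟩
  obtain ⟨z, hz, rfl⟩ := hU
  exact ⟨z.2, hz⟩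

variable {t : GQ → ResidueField O} [Module.Free O (YH (HM (dvd_mul_left M p) H) hNS e)]
  [Nontrivial (YH (HM (dvd_mul_left M p) H) hNS e)]
  {θ : TD O S (p * M) →ₐ[O] ResidueField O}
  (h : HG hpO S t (psiY (HM (dvd_mul_left M p) H) hNS e) θ
    (rhoY hpO ι (HM (dvd_mul_left M p) H) hNS e))

set_option maxHeartbeats 4000000 in
include V in
/-- the relation modulo powers of the maximal ideal -/
theorem rel_mod [Finite (ResidueField O)] (hpM : ¬ p ∣ M) (hpM' : ¬ p ∣ M')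
    (hp2 : p ≠ 2) (hodd : Odd (Fintype.card (DG (p * M) (HM (dvd_mul_left M p) H)))) (hpS : p ∈ S)
    {A : ValuationSubring (AlgebraicClosure ℚ)} (hA : A.LiesOverPrime p)
    (hres : ∀ σ ∈ A.inertiaSubgroupIn ℚ, ∀ τ ∈ A.inertiaSubgroupIn ℚ, ∀ g,
      t (σ * τ * g) - t (σ * g) - residue O (cycO hpO σ) * t (τ * g) +
        residue O (cycO hpO σ) * t g = 0)
    {g₀ k₀ : GQ} (hgk : HG.IrrAt t g₀ k₀) (D : SSH.WData p M H) {Φ : GQ}
    (hΦ : A.IsFrobeniusAt Φ p) {τ : GQ} (hτ : τ ∈ A.inertiaSubgroupIn ℚ) (n : ℕ)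
    (y : YH (HM (dvd_mul_left M p) H) hNS e) :
    (h.tt (τ * Φ) - h.DD τ * h.tt Φ) • UY hNS e D hpM (UY hNS e D hpM y) -
      ((h.tt (τ * Φ * Φ) - h.DD τ * h.tt (Φ * Φ)) + (p : h.TT) * (h.tt τ - h.DD τ * h.tt 1)) •
        UY hNS e D hpM y +
      ((p : h.TT) * (h.tt (τ * Φ) - h.DD τ * h.tt Φ)) • y ∈
    (maximalIdeal h.TT) ^ n • (⊤ : Submodule h.TT (YH (HM (dvd_mul_left M p) H) hNS e)) := by
  have hNS' : ∀ l, l.Prime → l ∣ p * M' → l ∈ S := fun l hl hlN =>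
    hNS l hl ((V.prime_dvd hl).2 hlN)
  obtain ⟨χ, hχ, hχC⟩ := exists_chi V h hodd hpS
  obtain ⟨k, hk⟩ := hodd
  rw [hk] at hχC
  have hpS' : p ∉ S \ {p} := fun h => h.2 rfl
  have hSS : S \ {p} ⊆ S := Set.sdiff_subset
  obtain ⟨r, s, cy, b, hs, hr, hcy, hb⟩ := approx h hpM' hp2 hpS hNS' ι χ hχ hA hres hgk hΦ hτ
    hSS hpS' n
  obtain ⟨bY, hbY⟩ := Cor.exists_right (hNS := hNS) (e := e) V hk D hpM hpM' rfl hpO ι b
  have hU := Cor.mem_U (hNS := hNS) (e := e) (k := k) V D hpM hpM' hpS'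
  have hC : ∀ r, (inclH hSS r, h.act (χ r)) ∈ Cor M₀ (p * M') L hNS e (S \ {p}) (2 * k + 1) := by
    intro r
    obtain ⟨B, hB, hB'⟩ := (mem_CorT h).1 (hχC r)
    exact ⟨B, by rw [aL_inclH]; exact hB, hB'⟩
  have h1 := mul_mem (hC s) (add_mem (sub_mem (mul_mem (hC (r (τ * Φ) - cy * r Φ)) (pow_mem hU 2))
    (mul_mem (hC ((r (τ * Φ * Φ) - cy * r (Φ * Φ)) +
      (p : CuspForm.heckeAlgebra (p * M') 2 S) * (r τ - cy * r 1))) hU))
    (hC ((p : CuspForm.heckeAlgebra (p * M') 2 S) * (r (τ * Φ) - cy * r Φ))))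
  have h2 := sub_mem h1 (nsmul_mem hbY (p ^ n))
  have h3 : (inclH hSS s * (inclH hSS (r (τ * Φ) - cy * r Φ) *
          CuspForm.heckeAlgebra.U hp.out (dvd_mul_right p M') hpS' ^ 2 -
        inclH hSS ((r (τ * Φ * Φ) - cy * r (Φ * Φ)) +
          (p : CuspForm.heckeAlgebra (p * M') 2 S) * (r τ - cy * r 1)) *
          CuspForm.heckeAlgebra.U hp.out (dvd_mul_right p M') hpS' +
        inclH hSS ((p : CuspForm.heckeAlgebra (p * M') 2 S) * (r (τ * Φ) - cy * r Φ))) -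
        p ^ n • b,
      h.act (χ s) * (h.act (χ (r (τ * Φ) - cy * r Φ)) * UY hNS e D hpM ^ 2 -
        h.act (χ ((r (τ * Φ * Φ) - cy * r (Φ * Φ)) +
          (p : CuspForm.heckeAlgebra (p * M') 2 S) * (r τ - cy * r 1))) * UY hNS e D hpM +
        h.act (χ ((p : CuspForm.heckeAlgebra (p * M') 2 S) * (r (τ * Φ) - cy * r Φ)))) -
        p ^ n • bY) ∈ Cor M₀ (p * M') L hNS e (S \ {p}) (2 * k + 1) := h2
  rw [hb, sub_self] at h3
  have h4' := LinearMap.congr_fun (Cor.eq_zero V hk h3) y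
  have h4 : (h.act (χ s) * (h.act (χ (r (τ * Φ) - cy * r Φ)) * UY hNS e D hpM ^ 2 -
        h.act (χ ((r (τ * Φ * Φ) - cy * r (Φ * Φ)) +
          (p : CuspForm.heckeAlgebra (p * M') 2 S) * (r τ - cy * r 1))) * UY hNS e D hpM +
        h.act (χ ((p : CuspForm.heckeAlgebra (p * M') 2 S) * (r (τ * Φ) - cy * r Φ))))) y =
        p ^ n • bY y := sub_eq_zero.1 h4'
  clear h1 h2 h3 h4'
  have hpn : ∀ z : YH (HM (dvd_mul_left M p) H) hNS e, p ^ n • z ∈
      (maximalIdeal h.TT) ^ n • (⊤ : Submodule h.TT (YH (HM (dvd_mul_left M p) H) hNS e)) := by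
    intro z
    have e1 : p ^ n • z = ((p : h.TT) ^ n) • z := by
      rw [← Nat.cast_pow, Nat.cast_smul_eq_nsmul]
    rw [e1]
    exact Submodule.smul_mem_smul (Ideal.pow_mem_pow h.p_mem n) trivial
  have h5 : χ s • (χ (r (τ * Φ) - cy * r Φ) • UY hNS e D hpM (UY hNS e D hpM y) -
      χ ((r (τ * Φ * Φ) - cy * r (Φ * Φ)) +
          (p : CuspForm.heckeAlgebra (p * M') 2 S) * (r τ - cy * r 1)) • UY hNS e D hpM y +
      χ ((p : CuspForm.heckeAlgebra (p * M') 2 S) * (r (τ * Φ) - cy * r Φ)) • y) ∈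
      (maximalIdeal h.TT) ^ n • (⊤ : Submodule h.TT (YH (HM (dvd_mul_left M p) H) hNS e)) := by
    have h6 := hpn (bY y)
    rw [← h4] at h6
    exact h6
  have h6 := (Submodule.smul_mem_iff_of_isUnit _ hs).1 h5
  have hr' : ∀ g, Ideal.Quotient.mk (maximalIdeal h.TT ^ n) (h.tt g) =
      Ideal.Quotient.mk (maximalIdeal h.TT ^ n) (χ (r g)) := fun g => Ideal.Quotient.eq.2 (hr g)
  have hcy' : Ideal.Quotient.mk (maximalIdeal h.TT ^ n) (h.DD τ) =
      Ideal.Quotient.mk (maximalIdeal h.TT ^ n) (χ cy) := Ideal.Quotient.eq.2 hcy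
  have hd : ∀ (a a' : h.TT) (z : YH (HM (dvd_mul_left M p) H) hNS e),
      Ideal.Quotient.mk (maximalIdeal h.TT ^ n) a = Ideal.Quotient.mk (maximalIdeal h.TT ^ n) a' →
      a • z - a' • z ∈
        (maximalIdeal h.TT) ^ n • (⊤ : Submodule h.TT (YH (HM (dvd_mul_left M p) H) hNS e)) := by
    intro a a' z haa
    rw [← sub_smul]
    exact Submodule.smul_mem_smul (Ideal.Quotient.eq.1 haa) trivial
  have k1 := hd (h.tt (τ * Φ) - h.DD τ * h.tt Φ) (χ (r (τ * Φ) - cy * r Φ))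
    (UY hNS e D hpM (UY hNS e D hpM y)) (by simp only [map_sub, map_mul, hr', hcy'])
  have k2 := hd ((h.tt (τ * Φ * Φ) - h.DD τ * h.tt (Φ * Φ)) +
    (p : h.TT) * (h.tt τ - h.DD τ * h.tt 1)) (χ ((r (τ * Φ * Φ) - cy * r (Φ * Φ)) +
          (p : CuspForm.heckeAlgebra (p * M') 2 S) * (r τ - cy * r 1)))
    (UY hNS e D hpM y) (by simp only [map_sub, map_mul, map_add, map_natCast, hr', hcy'])
  have k3 := hd ((p : h.TT) * (h.tt (τ * Φ) - h.DD τ * h.tt Φ))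
    (χ ((p : CuspForm.heckeAlgebra (p * M') 2 S) * (r (τ * Φ) - cy * r Φ))) y
    (by simp only [map_sub, map_mul, map_natCast, hr', hcy'])
  have k4 := add_mem (add_mem h6 (sub_mem k1 k2)) k3
  convert k4 using 1
  abel

set_option maxHeartbeats 4000000 in
include V in
/-- **the `U`-relation** -/
theorem uRel [Finite (ResidueField O)] [Invertible (2 : O)] (hpM : ¬ p ∣ M) (hpM' : ¬ p ∣ M')
    (hp2 : p ≠ 2) (hodd : Odd (Fintype.card (DG (p * M) (HM (dvd_mul_left M p) H)))) (hpS : p ∈ S)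
    (hres : ∀ A : ValuationSubring (AlgebraicClosure ℚ), A.LiesOverPrime p →
      ∀ σ ∈ A.inertiaSubgroupIn ℚ, ∀ τ ∈ A.inertiaSubgroupIn ℚ, ∀ g,
      t (σ * τ * g) - t (σ * g) - residue O (cycO hpO σ) * t (τ * g) +
        residue O (cycO hpO σ) * t g = 0)
    {g₀ k₀ : GQ} (hgk : HG.IrrAt t g₀ k₀) (D : SSH.WData p M H) : URel h D hpM := by
  intro A hA Φ hΦ τ hτ y
  haveI : Module.Finite h.TT (YH (HM (dvd_mul_left M p) H) hNS e) :=
    Module.Finite.of_restrictScalars_finite O h.TT _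
  have h1 := Ideal.iInf_pow_smul_eq_bot_of_isLocalRing
    (M := YH (HM (dvd_mul_left M p) H) hNS e) (maximalIdeal h.TT)
    (Ideal.IsPrime.ne_top inferInstance)
  rw [← Submodule.mem_bot h.TT, ← h1, Submodule.mem_iInf]
  intro n
  have h2 := rel_mod V h hpM hpM' hp2 hodd hpS hA (hres A hA) hgk D hΦ hτ n y
  rw [tt_comm h hgk Φ τ, tt_comm h hgk (Φ * Φ) τ, ← mul_assoc τ Φ Φ, map_natCast]
  exact h2

end

end Fermat.Agent.OrdH
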