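import Fermat.Agent.OrdH.Gen

/-!
# The map from the Hecke algebra of level `Γ₀` to the trace ring
-/

set_option autoImplicit false
set_option linter.unusedSectionVars false
set_option linter.style.haveILetI false

open Matrix.SpecialLinearGroup Filter
open scoped MatrixGroups TensorProduct
open IsLocalRing
open Fermat.Agent.AL Fermat.Agent.ALCoh Fermat.Agent.TW Fermat.Agent.Twi Fermat.Agent.KumG
  Fermat.Agent.GalRep Fermat.Agent.HeckeHom Fermat.Agent.Places

namespace Fermat.Agent.OrdH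

noncomputable section

/-- the levels -/
structure TwL' (M N N' : ℕ) (L : List ℕ) (H : Subgroup (ZMod N)ˣ) : Prop where
  ld : LD M L
  eN : N = M * L.prod
  eN' : N' = M * L.prod * L.prod
  ker : ∀ u : (ZMod N)ˣ, (∀ v ∈ L, ∀ hv : v ∣ N,
      ZMod.castHom hv (ZMod v) (u : ZMod N) = 1) → u ∈ H

variable {M N N' : ℕ} [NeZero N] [NeZero N'] {L : List ℕ} {H : Subgroup (ZMod N)ˣ}
  [hH : Fact ((-1 : (ZMod N)ˣ) ∈ H)] (V : TwL' M N N' L H)

include V in
theorem TwL'.prime_dvd {l : ℕ} (hl : l.Prime) : l ∣ N ↔ l ∣ N' := by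
  rw [V.eN', ← V.eN]
  constructor
  · exact fun h => h.mul_right _
  · intro h
    rcases (hl.dvd_mul).1 h with h | h
    · exact h
    · rw [V.eN]
      exact h.mul_left M

variable {O : Type} [CommRing O] {S : Set ℕ}
  (hNS : ∀ l, l.Prime → l ∣ N → l ∈ S) (e : TS O S)

/-- the endomorphism of the lattice of level `Γ₀` attached to a Hecke operator -/
def aL (N' : ℕ) [NeZero N'] (S' : Set ℕ) :
    CuspForm.heckeAlgebra N' 2 S' →+* Module.End ℤ (KumG.LZ (GG N')) := actL N' S'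

theorem aL_T {S' : Set ℕ} {l : ℕ} (hl : l.Prime) (hlN : ¬ l ∣ N') (hlS : l ∉ S') :
    aL N' S' (CuspForm.heckeAlgebra.T hl hlN hlS) = TG hl hlN := by
  refine LinearMap.ext fun x => Subtype.ext ?_
  change (actL N' S' _ x).1 = _
  rw [actL_T, ALCoh.opT_eq]
  rfl

variable (M N' L) in
/-- the correspondence -/
def Cor (S' : Set ℕ) (m : ℕ) :
    Subring (CuspForm.heckeAlgebra N' 2 S' × Module.End O (YH H hNS e)) where
  carrier := {z | ∃ B : Module.End ℤ (KumG.LZ (GH N H)),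
    (aL N' S' z.1, B) ∈ Rl M N' L H (AlgebraicClosure ℚ) m ∧
    ∀ y : YH H hNS e, ((z.2 y : YH H hNS e) : XH O N H) = B.baseChange O y}
  mul_mem' := by
    rintro a b ⟨B, hB, hB'⟩ ⟨C, hC, hC'⟩
    refine ⟨B * C, ?_, fun y => ?_⟩
    · have := mul_mem hB hC
      rwa [Prod.mk_mul_mk, ← map_mul] at this
    · have h1 : (B * C).baseChange O = B.baseChange O ∘ₗ C.baseChange O :=
        LinearMap.baseChange_comp _ _
      rw [Prod.snd_mul, Module.End.mul_apply, hB', hC', h1]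
      rfl
  one_mem' := ⟨1, by rw [Prod.fst_one, map_one]; exact one_mem _, fun y => by
    have h1 : (1 : Module.End ℤ (KumG.LZ (GH N H))).baseChange O = LinearMap.id :=
      LinearMap.baseChange_id
    rw [h1]; rfl⟩
  add_mem' := by
    rintro a b ⟨B, hB, hB'⟩ ⟨C, hC, hC'⟩
    refine ⟨B + C, ?_, fun y => ?_⟩
    · have := add_mem hB hC
      rwa [Prod.mk_add_mk, ← map_add] at this
    · rw [Prod.snd_add, LinearMap.add_apply, Submodule.coe_add, hB', hC',
        LinearMap.baseChange_add]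
      rfl
  zero_mem' := ⟨0, by rw [Prod.fst_zero, map_zero]; exact zero_mem _, fun y => by
    rw [LinearMap.baseChange_zero]; rfl⟩
  neg_mem' := by
    rintro a ⟨B, hB, hB'⟩
    refine ⟨-B, ?_, fun y => ?_⟩
    · have := neg_mem hB
      rwa [Prod.neg_mk, ← map_neg] at this
    · rw [Prod.snd_neg, LinearMap.neg_apply, Submodule.coe_neg, hB', LinearMap.baseChange_neg]
      rfl

variable {hNS e}

include V in
theorem Cor.eq_zero {S' : Set ℕ} {k : ℕ} (hk : Fintype.card (DG N H) = 2 * k + 1)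
    {b : Module.End O (YH H hNS e)} (hb : (0, b) ∈ Cor M N' L hNS e S' (2 * k + 1)) : b = 0 := by
  obtain ⟨B, hB, hB'⟩ := hb
  have h1 : ((0, B) : Module.End ℤ (KumG.LZ (GG N')) × Module.End ℤ (KumG.LZ (GH N H))) ∈
      Rl M N' L H (AlgebraicClosure ℚ) (2 * k + 1) := by
    have h2 : aL N' S' ((0, b) : CuspForm.heckeAlgebra N' 2 S' × Module.End O (YH H hNS e)).1 =
      0 := map_zero _
    rwa [h2] at hB
  have h2 := eq_zero_of_Rl V.ld V.eN V.eN' V.ker hk h1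
  refine LinearMap.ext fun y => Subtype.ext ?_
  rw [hB', h2, LinearMap.baseChange_zero]
  rfl

variable [IsLocalRing O] [IsNoetherianRing O]
  [IsAdicComplete (maximalIdeal O) O] {p : ℕ} [hp : Fact p.Prime]
  {hpO : (p : O) ∈ maximalIdeal O} {ι : AlgebraicClosure ℚ →+* ℂ}

/-- Hecke operators -/
theorem Cor.mem_T {S' : Set ℕ} {k : ℕ} (hk : Fintype.card (DG N H) = 2 * k + 1) {l : ℕ}
    (hl : l.Prime) (hlN : ¬ l ∣ N) (hlN' : ¬ l ∣ N') (hlS' : l ∉ S') (hlp : l ≠ p)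
    {A : ValuationSubring (AlgebraicClosure ℚ)} (hA : A.LiesOverPrime l) {τ : GQ}
    (hτ : A.IsFrobeniusAt τ l) :
    (CuspForm.heckeAlgebra.T hl hlN' hlS', (rhoY hpO ι H hNS e τ + (l : O) •
      rhoY hpO ι H hNS e τ⁻¹ : Module.End O (YH H hNS e))) ∈ Cor M N' L hNS e S' (2 * k + 1) := by
  have hu : ((cycU N τ : (ZMod N)ˣ) : ZMod N) = l :=
    cycU_frobenius ((Nat.Prime.coprime_iff_not_dvd hl).2 hlN) hA hτ
  refine ⟨DH N H (cycU N τ ^ k) * TH N H hl hlN, ?_, fun y => ?_⟩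
  · change (aL N' S' (CuspForm.heckeAlgebra.T hl hlN' hlS'), _) ∈ _
    rw [aL_T]
    exact mem_Rl_T rfl hl hlN hlN' hu
  · have h1 := rhoT_frob (O := O) (H := H) hpO ι ⟨k, hk⟩ hl hlN hlp hA hτ
    have h2 := LinearMap.congr_fun h1 (y : XH O N H)
    have h3 : DO O N H (twd N H τ) = (DH N H (cycU N τ ^ k)).baseChange O := by
      rw [twd_apply, hk, Nat.add_sub_cancel, Nat.mul_div_cancel_left k two_pos,
        ← QuotientGroup.mk_pow]
      rfl
    rw [h3] at h2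
    have h4 : (DH N H (cycU N τ ^ k) * TH N H hl hlN).baseChange O =
        (DH N H (cycU N τ ^ k)).baseChange O * (TH N H hl hlN).baseChange O :=
      LinearMap.baseChange_comp _ _
    rw [h4, ← h2]
    rfl

variable {t : GQ → ResidueField O} [Module.Free O (YH H hNS e)] [Nontrivial (YH H hNS e)]
  {θ : TD O S N →ₐ[O] ResidueField O}
  (h : HG hpO S t (psiY H hNS e) θ (rhoY hpO ι H hNS e))

variable (M N' L) in
/-- the correspondence with values in the trace ring -/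
def CorT (S' : Set ℕ) (m : ℕ) : Subring (CuspForm.heckeAlgebra N' 2 S' × h.TT) :=
  (Cor M N' L hNS e S' m).comap (RingHom.prodMap (RingHom.id _) h.act.toRingHom)

theorem mem_CorT {S' : Set ℕ} {m : ℕ} {r : CuspForm.heckeAlgebra N' 2 S'} {a : h.TT} :
    (r, a) ∈ CorT M N' L h S' m ↔ (r, h.act a) ∈ Cor M N' L hNS e S' m := Iff.rfl

include V in
theorem CorT.eq_zero {S' : Set ℕ} {k : ℕ} (hk : Fintype.card (DG N H) = 2 * k + 1)
    {a : h.TT} (ha : (0, a) ∈ CorT M N' L h S' (2 * k + 1)) : a = 0 := by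
  refine h.act_injective ?_
  rw [map_zero]
  exact Cor.eq_zero V hk ((mem_CorT h).1 ha)

theorem CorT.mem_T {S' : Set ℕ} {k : ℕ} (hk : Fintype.card (DG N H) = 2 * k + 1) {l : ℕ}
    (hl : l.Prime) (hlN : ¬ l ∣ N) (hlN' : ¬ l ∣ N') (hlS' : l ∉ S') (hlp : l ≠ p)
    {A : ValuationSubring (AlgebraicClosure ℚ)} (hA : A.LiesOverPrime l) {τ : GQ}
    (hτ : A.IsFrobeniusAt τ l) :
    (CuspForm.heckeAlgebra.T hl hlN' hlS', h.tt τ) ∈ CorT M N' L h S' (2 * k + 1) := by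
  rw [mem_CorT, h.act_tt, cycO_frob hpO hl hlp hA hτ]
  exact Cor.mem_T hk hl hlN hlN' hlS' hlp hA hτ

include V in
/-- **the Hecke algebra of level `Γ₀(N')` maps to the trace ring** -/
theorem exists_chi (hodd : Odd (Fintype.card (DG N H))) (hpS : p ∈ S) :
    ∃ χ : CuspForm.heckeAlgebra N' 2 S →+* h.TT,
      (∀ (l : ℕ) (hl : l.Prime) (hlN' : ¬ l ∣ N') (hlS : l ∉ S)
        (A : ValuationSubring (AlgebraicClosure ℚ)), A.LiesOverPrime l → ∀ τ : GQ,
        A.IsFrobeniusAt τ l → χ (CuspForm.heckeAlgebra.T hl hlN' hlS) = h.tt τ) ∧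
      ∀ r, (r, χ r) ∈ CorT M N' L h S (Fintype.card (DG N H)) := by
  obtain ⟨k, hk⟩ := hodd
  have hT : ∀ (l : ℕ) (hl : l.Prime) (hlN' : ¬ l ∣ N') (hlS : l ∉ S)
        (A : ValuationSubring (AlgebraicClosure ℚ)), A.LiesOverPrime l → ∀ τ : GQ,
        A.IsFrobeniusAt τ l → (CuspForm.heckeAlgebra.T hl hlN' hlS, h.tt τ) ∈
          CorT M N' L h S (2 * k + 1) := by
    intro l hl hlN' hlS A hA τ hτ
    have hlp : l ≠ p := by rintro rfl; exact hlS hpS
    have hlN : ¬ l ∣ N := fun h => hlS (hNS l hl h)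
    exact CorT.mem_T h hk hl hlN hlN' hlS hlp hA hτ
  obtain ⟨χ, hχ⟩ := exists_hom_of_rel (CorT M N' L h S (2 * k + 1)) (fun r => by
    have hU : ∀ r, r ∈ (CorT M N' L h S (2 * k + 1)).map (RingHom.fst _ _) :=
      mem_of_gens _ (fun l hl hlN' hlS => by
      obtain ⟨A, hA⟩ := exists_liesOverPrime (AlgebraicClosure ℚ) hl
      obtain ⟨Φ, hΦ⟩ := exists_isFrobeniusAt A hl hA
      exact ⟨_, hT l hl hlN' hlS A hA Φ hΦ, rfl⟩) (fun q hq hqN hqS =>
      absurd (hNS q hq ((V.prime_dvd hq).2 hqN)) hqS)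
    obtain ⟨z, hz, rfl⟩ := hU r
    exact ⟨z.2, hz⟩) (fun a ha => CorT.eq_zero V h hk ha)
  refine ⟨χ, fun l hl hlN' hlS A hA τ hτ => ?_, fun r => by rw [hk]; exact hχ r⟩
  have h1 := sub_mem (hχ (CuspForm.heckeAlgebra.T hl hlN' hlS)) (hT l hl hlN' hlS A hA τ hτ)
  rw [Prod.mk_sub_mk, sub_self] at h1
  exact sub_eq_zero.1 (CorT.eq_zero V h hk h1)

end

end Fermat.Agent.OrdH
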