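import Fermat.Agent.OrdH.Tw4
import Fermat.Agent.Ord.Main
import Fermat.Agent.TW.YH

/-!
# Ordinariness at `p` at the levels `Γ_H(N)`, `p ∥ N`: the relation on inertia
-/

set_option autoImplicit false
set_option linter.unusedSectionVars false
set_option linter.style.haveILetI false

open Matrix.SpecialLinearGroup Filter
open scoped MatrixGroups TensorProduct
open IsLocalRing
open Fermat.Agent.AL Fermat.Agent.ALCoh Fermat.Agent.TW Fermat.Agent.Twi Fermat.Agent.KumG
  Fermat.Agent.GalRep Fermat.Agent.HeckeHom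

namespace Fermat.Agent.OrdH

noncomputable section

/-- correspondences which are functions -/
theorem exists_hom_of_rel {R T : Type*} [CommRing R] [Ring T] (𝒮 : Subring (R × T))
    (h1 : ∀ r, ∃ t, (r, t) ∈ 𝒮) (h2 : ∀ t, (0, t) ∈ 𝒮 → t = 0) :
    ∃ χ : R →+* T, ∀ r, (r, χ r) ∈ 𝒮 := by
  choose f hf using h1
  have huniq : ∀ r t, (r, t) ∈ 𝒮 → f r = t := fun r t h => by
    have h3 := sub_mem (hf r) h
    rw [Prod.mk_sub_mk, sub_self] at h3
    exact sub_eq_zero.1 (h2 _ h3)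
  exact ⟨{ toFun := f
           map_one' := huniq _ _ (one_mem 𝒮)
           map_mul' := fun a b => huniq _ _ (mul_mem (hf a) (hf b))
           map_zero' := huniq _ _ (zero_mem 𝒮)
           map_add' := fun a b => huniq _ _ (add_mem (hf a) (hf b)) }, hf⟩

/-- the generators of the Hecke algebra -/
theorem mem_of_gens {N : ℕ} [NeZero N] {S : Set ℕ}
    (U : Subring (CuspForm.heckeAlgebra N 2 S))
    (hT : ∀ (l : ℕ) (hl : l.Prime) (hlN : ¬ l ∣ N) (hlS : l ∉ S),
      CuspForm.heckeAlgebra.T hl hlN hlS ∈ U)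
    (hU : ∀ (q : ℕ) (hq : q.Prime) (hqN : q ∣ N) (hqS : q ∉ S),
      CuspForm.heckeAlgebra.U hq hqN hqS ∈ U) (t : CuspForm.heckeAlgebra N 2 S) : t ∈ U := by
  obtain ⟨t, ht⟩ := t
  induction ht using Algebra.adjoin_induction with
  | mem x hx =>
    rcases hx with ⟨ℓ, hℓ, hℓN, hℓS, rfl⟩ | ⟨q, hqN, hq, hqS, rfl⟩
    · exact hT ℓ hℓ hℓN hℓS
    · exact hU q hq hqN hqS
  | algebraMap n =>
    have h1 : (⟨algebraMap ℤ _ n, Subalgebra.algebraMap_mem _ n⟩ : CuspForm.heckeAlgebra N 2 S) =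
      ((n : ℤ) : CuspForm.heckeAlgebra N 2 S) := by
      apply Subtype.ext
      simp
    rw [h1]
    exact intCast_mem U n
  | add x y hx hy ihx ihy => exact add_mem ihx ihy
  | mul x y hx hy ihx ihy => exact mul_mem ihx ihy

/-- matrices orthogonal to the image of the Galois group vanish -/
theorem eq_zero_of_tr {O T Y : Type} [CommRing O] [IsLocalRing O] [IsNoetherianRing O]
    [IsAdicComplete (maximalIdeal O) O] [CommRing T] [Algebra O T] [AddCommGroup Y] [Module O Y]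
    [Module.Finite O Y] [Module.Free O Y] [Nontrivial Y] {p : ℕ} [hp : Fact p.Prime]
    {hpO : (p : O) ∈ maximalIdeal O} {S : Set ℕ} {t : GQ → ResidueField O}
    {ψ : T →ₐ[O] Module.End O Y} {θ : T →ₐ[O] ResidueField O} {ρ : GQ →* Module.End O Y}
    (h : HG hpO S t ψ θ ρ) [Invertible (2 : O)] {g₀ k₀ : GQ} (hgk : HG.IrrAt t g₀ k₀)
    {X : Matrix (Fin 2) (Fin 2) h.TT} (hX : ∀ g, (X * h.R hgk g).trace = 0) : X = 0 := by
  have h2 : ∀ {a : h.TT}, a + a = 0 → a = 0 := fun {a} ha => by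
    have h3 : (2 : h.TT) * a = 0 := by rw [two_mul, ha]
    exact (IsUnit.mul_right_eq_zero (isUnit_of_invertible 2)).1 h3
  have tr : ∀ g, X 0 0 * h.R hgk g 0 0 + X 0 1 * h.R hgk g 1 0 + X 1 0 * h.R hgk g 0 1 +
      X 1 1 * h.R hgk g 1 1 = 0 := fun g => by
    have h3 := hX g
    rw [Matrix.trace_fin_two, Matrix.mul_apply, Matrix.mul_apply, Fin.sum_univ_two,
      Fin.sum_univ_two] at h3
    linear_combination h3
  have e1 := tr 1
  have e2 := tr complexConjugation
  rw [map_one] at e1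
  rw [h.R_conj] at e2
  simp at e1 e2
  have hx0 : X 0 0 = 0 := h2 (by linear_combination e1 + e2)
  have hx3 : X 1 1 = 0 := by rw [hx0, zero_add] at e1; exact e1
  have tr2 : ∀ g, X 0 1 * h.R hgk g 1 0 + X 1 0 * h.R hgk g 0 1 = 0 := fun g => by
    have h3 := tr g
    rw [hx0, hx3] at h3
    linear_combination h3
  have tr3 : ∀ g, -(X 0 1 * h.R hgk g 1 0) + X 1 0 * h.R hgk g 0 1 = 0 := fun g => by
    have h3 := tr2 (complexConjugation * g)
    rw [map_mul, h.R_conj, Matrix.mul_apply, Matrix.mul_apply, Fin.sum_univ_two,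
      Fin.sum_univ_two] at h3
    simp at h3
    linear_combination h3
  have hb : h.R hgk g₀ 0 1 = 1 := by
    change ((h.uu hgk)⁻¹ : h.TTˣ).1 * bc h.tt complexConjugation g₀ k₀ = 1
    rw [← h.uu_eq hgk, Units.inv_mul]
  have hc : h.R hgk k₀ 1 0 = h.uu hgk := rfl
  have hx2 : X 1 0 = 0 := h2 (by
    have h3 := tr2 g₀
    have h4 := tr3 g₀
    rw [hb] at h3 h4
    linear_combination h3 + h4)
  have hx1 : X 0 1 = 0 := by
    have h3 := tr2 k₀
    rw [hx2, zero_mul, add_zero, hc] at h3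
    exact (IsUnit.mul_left_eq_zero (Units.isUnit _)).1 h3
  ext i j
  fin_cases i <;> fin_cases j
  · exact hx0
  · exact hx1
  · exact hx2
  · exact hx3

end

end Fermat.Agent.OrdH
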