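import Fermat.Agent.OrdH.Chi

/-!
# Ordinariness at `p` of the trace ring representation, `p ∥ N`
-/

set_option autoImplicit false
set_option linter.unusedSectionVars false
set_option linter.style.haveILetI false

open Matrix.SpecialLinearGroup Filter
open scoped MatrixGroups TensorProduct
open IsLocalRing
open Fermat.Agent.TW Fermat.Agent.GalRep Fermat.Agent.Places Fermat.Agent.Ord

namespace Fermat.Agent.OrdH

noncomputable section

section good

variable {O T Y : Type} [CommRing O] [IsLocalRing O] [IsNoetherianRing O]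
  [IsAdicComplete (maximalIdeal O) O] [CommRing T] [Algebra O T] [AddCommGroup Y] [Module O Y]
  [Module.Finite O Y] [Module.Free O Y] [Nontrivial Y] {p : ℕ} [hp : Fact p.Prime]
  {hpO : (p : O) ∈ maximalIdeal O} {S : Set ℕ} {t : GQ → ResidueField O}
  {ψ : T →ₐ[O] Module.End O Y} {θ : T →ₐ[O] ResidueField O} {ρ : GQ →* Module.End O Y}
  (h : HG hpO S t ψ θ ρ)

include h in
/-- the pseudo-representation of the trace ring is good -/
theorem isGood {b : ℕ → h.TT} (hb : ∀ l : ℕ, l.Prime → l ∉ S →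
      ∀ A : ValuationSubring (AlgebraicClosure ℚ), A.LiesOverPrime l → ∀ τ : GQ,
        A.IsFrobeniusAt τ l → h.tt τ = b l) :
    IsGoodPseudoRep (maximalIdeal h.TT) b S p ∅ h.tt h.DD where
  isPseudoRep := h.isPseudoRep
  cont n := by
    obtain ⟨L, hL, h1⟩ := h.tt_cont n
    refine ⟨L, hL, fun σ hσ g => ?_⟩
    rw [Ideal.Quotient.eq]
    have h2 := h1 σ hσ g
    exact (Ideal.span_singleton_le_iff_mem _).2 (Ideal.pow_mem_pow h.p_mem n) h2
  D_eq n g := by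
    obtain ⟨z, hz⟩ := cycO_spec (O := O) hpO g n
    rw [h.DD_apply, hz, map_add, map_natCast, map_mul, map_pow, map_natCast, map_add, map_natCast]
    have h1 : Ideal.Quotient.mk (maximalIdeal h.TT ^ n)
        ((p : h.TT) ^ n * algebraMap O h.TT z) = 0 := by
      rw [Ideal.Quotient.eq_zero_iff_mem]
      exact Ideal.mul_mem_right _ _ (Ideal.pow_mem_pow h.p_mem n)
    rw [h1, add_zero]
  frobenius l hl hlS A hA τ hτ := by
    refine ⟨hb l hl hlS A hA τ hτ, ?_⟩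
    rw [h.DD_apply, (h.frob l hl hlS A hA τ hτ).1, map_natCast]
  inertia σ hσ := absurd hσ (Set.notMem_empty σ)
  complexConj := by rw [h.DD_apply, cycO_conj, map_neg, map_one]

include h in
/-- **ordinariness at `p`**, in terms of traces -/
theorem ord_trace_of_chi [Finite (ResidueField O)] {M' : ℕ} [NeZero M'] (hpM : ¬ p ∣ M')
    (hp2 : p ≠ 2) (hpS : p ∈ S) (hNS' : ∀ l, l.Prime → l ∣ p * M' → l ∈ S)
    (ι : AlgebraicClosure ℚ →+* ℂ) (χ : CuspForm.heckeAlgebra (p * M') 2 S →+* h.TT)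
    (hχ : ∀ (l : ℕ) (hl : l.Prime) (hlN' : ¬ l ∣ p * M') (hlS : l ∉ S)
        (A : ValuationSubring (AlgebraicClosure ℚ)), A.LiesOverPrime l → ∀ τ : GQ,
        A.IsFrobeniusAt τ l → χ (CuspForm.heckeAlgebra.T hl hlN' hlS) = h.tt τ)
    {A : ValuationSubring (AlgebraicClosure ℚ)} (hA : A.LiesOverPrime p)
    (hres : ∀ σ ∈ A.inertiaSubgroupIn ℚ, ∀ τ ∈ A.inertiaSubgroupIn ℚ, ∀ g,
      t (σ * τ * g) - t (σ * g) - residue O (cycO hpO σ) * t (τ * g) +
        residue O (cycO hpO σ) * t g = 0)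
    {g₀ k₀ : GQ} (hgk : HG.IrrAt t g₀ k₀) {σ τ : GQ} (hσ : σ ∈ A.inertiaSubgroupIn ℚ)
    (hτ : τ ∈ A.inertiaSubgroupIn ℚ) (g : GQ) :
    h.tt (σ * τ * g) - h.tt (σ * g) - h.DD σ * h.tt (τ * g) + h.DD σ * h.tt g = 0 := by
  classical
  have hgood : IsGoodPseudoRep (maximalIdeal h.TT)
      (fun l => χ (heckeFun (p * M') S l)) S p ∅ h.tt h.DD := isGood h (fun l hl hlS A hA τ hτ => by
    have hlN : ¬ l ∣ p * M' := fun h => hlS (hNS' l hl h)
    rw [heckeFun_eq hl hlN hlS, hχ l hl hlN hlS A hA τ hτ])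
  have htheta : ∀ {a : h.TT}, a ∈ maximalIdeal h.TT ↔ h.theta a = 0 := h.theta_eq_zero.symm
  have hu : h.tt (g₀ * k₀) + h.tt (complexConjugation * g₀ * k₀) -
      h.tt (g₀ * complexConjugation * k₀) -
      h.tt (complexConjugation * g₀ * complexConjugation * k₀) ∉ maximalIdeal h.TT := by
    rw [htheta, map_sub, map_sub, map_add, h.theta_tt, h.theta_tt, h.theta_tt, h.theta_tt]
    intro h1
    apply hgk
    rw [← h1]
    simp only [mul_assoc]
    ring
  have hres' : ∀ σ ∈ A.inertiaSubgroupIn ℚ, ∀ τ ∈ A.inertiaSubgroupIn ℚ, ∀ g,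
      h.tt (σ * τ * g) - h.tt (σ * g) - h.DD σ * h.tt (τ * g) + h.DD σ * h.tt g ∈
        maximalIdeal h.TT := by
    intro σ hσ τ hτ g
    have h1 : h.theta (h.DD σ) = residue O (cycO hpO σ) := by
      rw [h.DD_apply, AlgHom.commutes]; rfl
    rw [htheta, map_add, map_sub, map_sub, map_mul, map_mul, h.theta_tt, h.theta_tt, h.theta_tt,
      h.theta_tt, h1]
    exact hres σ hσ τ hτ g
  have h𝔫 : (Ideal.comap χ (maximalIdeal h.TT)).IsMaximal := by
    haveI : (Ideal.comap χ (maximalIdeal h.TT)).IsPrime := Ideal.comap_isPrime _ _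
    haveI : Finite (h.TT ⧸ maximalIdeal h.TT) := by
      refine Finite.of_injective (Ideal.Quotient.lift (maximalIdeal h.TT) h.theta.toRingHom
        (fun a ha => htheta.1 ha)) ?_
      rw [injective_iff_map_eq_zero]
      intro a ha
      obtain ⟨a, rfl⟩ := Ideal.Quotient.mk_surjective a
      rw [Ideal.Quotient.lift_mk] at ha
      exact Ideal.Quotient.eq_zero_iff_mem.2 (htheta.2 ha)
    haveI : Finite (CuspForm.heckeAlgebra (p * M') 2 S ⧸ Ideal.comap χ (maximalIdeal h.TT)) :=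
      Finite.of_injective _ (Ideal.quotientMap_injective (f := χ) (I := maximalIdeal h.TT))
    exact Ideal.Quotient.maximal_of_isField _ (Finite.isField_of_domain _)
  have hp𝔫 : (p : CuspForm.heckeAlgebra (p * M') 2 S) ∈
      Ideal.comap χ (maximalIdeal h.TT) := by
    rw [Ideal.mem_comap, map_natCast]
    exact h.p_mem
  obtain ⟨ℓ, hℓ, hℓS, hTℓ⟩ := exists_ell h.p_mem h.fin hpS hgood
    complexConjugation_mul_self hu
  have hℓN : ¬ ℓ ∣ p * M' := fun h => hℓS (hNS' ℓ hℓ h)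
  have hT : CuspForm.heckeAlgebra.T hℓ hℓN hℓS -
      ((ℓ + 1 : ℕ) : CuspForm.heckeAlgebra (p * M') 2 S) ∉
      Ideal.comap χ (maximalIdeal h.TT) := by
    rw [Ideal.mem_comap, map_sub, map_natCast, ← heckeFun_eq hℓ hℓN hℓS]
    exact hTℓ
  obtain ⟨c, hc⟩ := isHG_rhoS (N := p * M') hpS hNS' ι
  have hX : ∀ n, ∃ (X : Type) (i₁ : AddCommGroup X)
      (i₂ : Module (CuspForm.heckeAlgebra (p * M') 2 S) X)
      (ρ : GQ →* Module.End (CuspForm.heckeAlgebra (p * M') 2 S) X),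
      IsHG (heckeFun (p * M') S) S p n ρ ∧
      QC p (A.inertiaSubgroupIn ℚ) (Ideal.comap χ (maximalIdeal h.TT)) X i₁ i₂ ρ := fun n => by
    haveI : NeZero (p ^ (n + 1 + c)) := ⟨pow_ne_zero _ hp.out.ne_zero⟩
    letI := modXS (p * M') (p ^ (n + 1 + c)) S
    exact ⟨Kum.XL (p * M') (p ^ (n + 1 + c)), inferInstance, modXS (p * M') (p ^ (n + 1 + c)) S,
      rhoS hNS' ι (p ^ (n + 1 + c)), IsHG.weaken (hc (n + 1) _ rfl),
      qc_rhoS hpM hA hp2 ι hNS' (n + c) (by rw [add_right_comm, pow_succ]) h𝔫 hp𝔫 hℓ hℓN hℓS hT⟩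
  obtain ⟨τ₀, hτ₀, hcτ₀⟩ := exists_tau hA hp2
  exact rel_zero h.p_mem χ h.fin hpS hgood hX hres' complexConjugation_mul_self hu hτ₀
    (tau_unit h.p_mem hgood hcτ₀) hσ hτ g

include h in
theorem R_rel_of_trace [Invertible (2 : O)] {g₀ k₀ : GQ} (hgk : HG.IrrAt t g₀ k₀) {σ τ : GQ}
    (h1 : ∀ g, h.tt (σ * τ * g) - h.tt (σ * g) - h.DD σ * h.tt (τ * g) + h.DD σ * h.tt g = 0) :
    (h.R hgk σ - algebraMap O h.TT (cycO hpO σ) • (1 : Matrix (Fin 2) (Fin 2) h.TT)) *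
        (h.R hgk τ - 1) = 0 := by
  refine eq_zero_of_tr h hgk fun g => ?_
  have h2 : (h.R hgk σ - algebraMap O h.TT (cycO hpO σ) • (1 : Matrix (Fin 2) (Fin 2) h.TT)) *
      (h.R hgk τ - 1) * h.R hgk g = h.R hgk (σ * τ * g) - h.R hgk (σ * g) -
      algebraMap O h.TT (cycO hpO σ) • h.R hgk (τ * g) +
      algebraMap O h.TT (cycO hpO σ) • h.R hgk g := by
    rw [map_mul, map_mul, map_mul, map_mul]
    simp only [sub_mul, mul_sub, smul_mul_assoc, one_mul, mul_one, mul_assoc]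
    abel
  rw [h2, Matrix.trace_add, Matrix.trace_sub, Matrix.trace_sub, Matrix.trace_smul,
    Matrix.trace_smul, h.R_trace, h.R_trace, h.R_trace, h.R_trace, smul_eq_mul, smul_eq_mul]
  exact h1 g


end good

variable {M N N' : ℕ} [NeZero N] [NeZero N'] {L : List ℕ} {H : Subgroup (ZMod N)ˣ}
  [hH : Fact ((-1 : (ZMod N)ˣ) ∈ H)] (V : TwL' M N N' L H)
  {O : Type} [CommRing O] {S : Set ℕ}
  {hNS : ∀ l, l.Prime → l ∣ N → l ∈ S} {e : TS O S} [IsLocalRing O] [IsNoetherianRing O]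
  [IsAdicComplete (maximalIdeal O) O] {p : ℕ} [hp : Fact p.Prime]
  {hpO : (p : O) ∈ maximalIdeal O} {ι : AlgebraicClosure ℚ →+* ℂ}
  {t : GQ → ResidueField O} [Module.Free O (YH H hNS e)] [Nontrivial (YH H hNS e)]
  {θ : TD O S N →ₐ[O] ResidueField O}
  (h : HG hpO S t (psiY H hNS e) θ (rhoY hpO ι H hNS e))

include V in
/-- **(O1)** ordinariness at `p` -/
theorem ord_R [Finite (ResidueField O)] [Invertible (2 : O)] {M' : ℕ} (hN' : N' = p * M')
    (hpM : ¬ p ∣ M') (hp2 : p ≠ 2) (hodd : Odd (Fintype.card (DG N H))) (hpS : p ∈ S)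
    {A : ValuationSubring (AlgebraicClosure ℚ)} (hA : A.LiesOverPrime p)
    (hres : ∀ σ ∈ A.inertiaSubgroupIn ℚ, ∀ τ ∈ A.inertiaSubgroupIn ℚ, ∀ g,
      t (σ * τ * g) - t (σ * g) - residue O (cycO hpO σ) * t (τ * g) +
        residue O (cycO hpO σ) * t g = 0)
    {g₀ k₀ : GQ} (hgk : HG.IrrAt t g₀ k₀) {σ τ : GQ} (hσ : σ ∈ A.inertiaSubgroupIn ℚ)
    (hτ : τ ∈ A.inertiaSubgroupIn ℚ) :
    (h.R hgk σ - algebraMap O h.TT (cycO hpO σ) • (1 : Matrix (Fin 2) (Fin 2) h.TT)) *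
        (h.R hgk τ - 1) = 0 := by
  obtain ⟨χ, hχ, -⟩ := exists_chi V h hodd hpS
  haveI : NeZero M' := ⟨fun h0 => NeZero.ne N' (by rw [hN', h0, mul_zero])⟩
  have hNS' : ∀ l, l.Prime → l ∣ p * M' → l ∈ S := fun l hl hlN =>
    hNS l hl ((V.prime_dvd hl).2 (hN' ▸ hlN))
  subst hN'
  exact R_rel_of_trace h hgk (ord_trace_of_chi h hpM hp2 hpS hNS' ι χ hχ hA hres hgk hσ hτ)

end

end Fermat.Agent.OrdH
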