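import Fermat.Agent.OrdH.O1
import Fermat.Agent.TW.NoOcc
import Fermat.Agent.ZG.P

/-!
# Ordinariness at `p` at the Taylor–Wiles levels
-/

set_option autoImplicit false
set_option linter.unusedSectionVars false
set_option linter.style.haveILetI false

open Matrix IsLocalRing
open Fermat.Agent.TW Fermat.Agent.GalRep Fermat.Agent.Places Fermat.Agent.Ord
open Fermat.Agent.LC (OrdB RO)
open Fermat.Agent.Sel

namespace Fermat.Agent.OrdH

noncomputable section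

local notation "Ω" => AlgebraicClosure ℚ

/-- Taylor–Wiles levels -/
theorem twL_of {p N₀ r N : ℕ} {v m c : Fin r → ℕ} [NeZero N] (hw : TWN p N₀ v N m c)
    (hvN : ∀ i, v i ∣ N) :
    TwL' N₀ N (N * (List.ofFn v).prod) (List.ofFn v) (HQ hvN c) := by
  have hN : N = N₀ * (List.ofFn v).prod := by rw [hw.eq, List.prod_ofFn]
  refine ⟨⟨fun u hu => ?_, List.nodup_ofFn.2 hw.inj, fun u hu => ?_, ?_⟩, hN, by rw [← hN],
    fun u hu => ?_⟩
  · obtain ⟨i, rfl⟩ := (List.mem_ofFn' v u).1 hu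
    exact hw.prime i
  · obtain ⟨i, rfl⟩ := (List.mem_ofFn' v u).1 hu
    exact hw.ndvd i
  · rintro rfl
    exact NeZero.ne N (by rw [hN, zero_mul])
  · refine mem_HQ_of hvN c fun i => ?_
    refine Units.ext ?_
    exact hu (v i) ((List.mem_ofFn' v _).2 ⟨i, rfl⟩) (hvN i)

theorem lvl_p {p N₀ r N : ℕ} {v m c : Fin r → ℕ} (hp : p.Prime) (hw : TWN p N₀ v N m c)
    (hpN : p ∣ N₀) (hsq : ¬ p * p ∣ N₀) :
    ∃ M', N * (List.ofFn v).prod = p * M' ∧ ¬ p ∣ M' := by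
  obtain ⟨M₀, rfl⟩ := hpN
  have hM₀ : ¬ p ∣ M₀ := fun h => hsq (mul_dvd_mul_left p h)
  have hv : ¬ p ∣ ∏ i, v i := by
    rw [hp.prime.dvd_finset_prod_iff]
    rintro ⟨i, -, hi⟩
    have := (Nat.prime_dvd_prime_iff_eq hp (hw.prime i)).1 hi
    exact hw.ndvd i (this ▸ dvd_mul_right p M₀)
  refine ⟨M₀ * (∏ i, v i) * (List.ofFn v).prod, by rw [hw.eq]; ring, ?_⟩
  rw [List.prod_ofFn, hp.dvd_mul, hp.dvd_mul]
  rintro ((h | h) | h)
  · exact hM₀ h
  · exact hv h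
  · exact hv h

section res

variable {k : Type} [Field k] {p : ℕ} [Fact p.Prime] [Algebra (ZMod p) k] {ρ : GQ →* M2 k}

/-- residual relation from an adapted basis -/
theorem rel_of_ordB {A : ValuationSubring Ω} {Q Qi : M2 k} (h : OrdB ρ p A Q Qi) {σ τ : GQ}
    (hσ : σ ∈ A.inertiaSubgroupIn ℚ) (hτ : τ ∈ A.inertiaSubgroupIn ℚ) :
    (ρ σ - algebraMap (ZMod p) k (cyc p σ) • (1 : M2 k)) * (ρ τ - 1) = 0 := by
  have hI : ∀ {σ}, σ ∈ A.inertiaSubgroupIn ℚ → σ ∈ A.decompositionSubgroup ℚ := fun hσ => by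
    obtain ⟨s, -, rfl⟩ := hσ
    exact s.2
  have hQ : Qi * Q = 1 := by rw [mul_eq_one_comm]; exact h.inv
  have h1 : ∀ σ ∈ A.inertiaSubgroupIn ℚ, ∃ b, Qi * ρ σ * Q =
      !![algebraMap (ZMod p) k (cyc p σ), b; 0, 1] := fun σ hσ => by
    refine ⟨(Qi * ρ σ * Q) 0 1, ?_⟩
    have e1 := h.low σ (hI hσ)
    have e2 := h.ine σ hσ
    have e3 := h.diag σ (hI hσ)
    rw [e2, mul_one] at e3
    ext i j
    fin_cases i <;> fin_cases j
    · exact e3
    · rfl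
    · exact e1
    · exact e2
  obtain ⟨b, hb⟩ := h1 σ hσ
  obtain ⟨b', hb'⟩ := h1 τ hτ
  have e1 : ∀ X : M2 k, X = Q * (Qi * X * Q) * Qi := fun X => by
    calc X = (Q * Qi) * X * (Q * Qi) := by rw [h.inv, one_mul, mul_one]
      _ = _ := by simp only [mul_assoc]
  have e2 : Qi * (ρ σ - algebraMap (ZMod p) k (cyc p σ) • (1 : M2 k)) * Q =
      !![0, b; 0, 1 - algebraMap (ZMod p) k (cyc p σ)] := by
    rw [mul_sub, sub_mul, hb, mul_smul_comm, mul_one, smul_mul_assoc, hQ]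
    ext i j
    fin_cases i <;> fin_cases j <;> simp [Algebra.algebraMap_eq_smul_one]
  have e3 : Qi * (ρ τ - 1) * Q = !![algebraMap (ZMod p) k (cyc p τ) - 1, b'; 0, 0] := by
    rw [mul_sub, sub_mul, hb', mul_one, hQ]
    ext i j
    fin_cases i <;> fin_cases j <;> simp
  rw [e1 (ρ σ - _), e1 (ρ τ - 1), e2, e3]
  have e4 : ∀ X Y : M2 k, Q * X * Qi * (Q * Y * Qi) = Q * (X * Y) * Qi := fun X Y => by
    calc Q * X * Qi * (Q * Y * Qi) = Q * X * (Qi * Q) * Y * Qi := by simp only [mul_assoc]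
      _ = _ := by rw [hQ, mul_one]; simp only [mul_assoc]
  rw [e4]
  have e5 : (!![0, b; 0, 1 - algebraMap (ZMod p) k (cyc p σ)] : M2 k) *
      !![algebraMap (ZMod p) k (cyc p τ) - 1, b'; 0, 0] = 0 := by
    ext i j
    fin_cases i <;> fin_cases j <;> simp
  rw [e5, mul_zero, zero_mul]

end res

variable {N₀ r N : ℕ} {v m c : Fin r → ℕ} [NeZero N] {hvN : ∀ i, v i ∣ N}
  [hH : Fact ((-1 : (ZMod N)ˣ) ∈ HQ hvN c)]
  {O : Type} [CommRing O] {S : Set ℕ}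
  {hNS : ∀ l, l.Prime → l ∣ N → l ∈ S} {e : TS O S} [IsLocalRing O] [IsNoetherianRing O]
  [IsAdicComplete (maximalIdeal O) O] [Invertible (2 : O)] [Finite (ResidueField O)]
  {p : ℕ} [hp : Fact p.Prime] [Algebra (ZMod p) (ResidueField O)]
  {hpO : (p : O) ∈ maximalIdeal O} {ι : AlgebraicClosure ℚ →+* ℂ}
  {ρb : GQ →* M2 (ResidueField O)} [Module.Free O (YH (HQ hvN c) hNS e)]
  [Nontrivial (YH (HQ hvN c) hNS e)]
  {θ : TD O S N →ₐ[O] ResidueField O}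
  (h : HG hpO S (fun g => (ρb g).trace) (psiY (HQ hvN c) hNS e) θ
    (rhoY hpO ι (HQ hvN c) hNS e)) {g₀ k₀ : GQ}
  (hgk : HG.IrrAt (fun g => (ρb g).trace) g₀ k₀)

include h in
/-- **(O1)** ordinariness at `p` at the Taylor–Wiles levels, `p ∥ N₀` -/
theorem hord (hw : TWN p N₀ v N m c) (hpN : p ∣ N₀) (hsq : ¬ p * p ∣ N₀) (hpS : p ∈ S)
    {A : ValuationSubring Ω} (hA : A.LiesOverPrime p) {Q Qi : M2 (ResidueField O)}
    (hO : OrdB ρb p A Q Qi) :
    ∀ σ ∈ A.inertiaSubgroupIn ℚ, ∀ τ ∈ A.inertiaSubgroupIn ℚ,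
      (h.R hgk τ - algebraMap O h.TT (cycO hpO τ) • (1 : Matrix (Fin 2) (Fin 2) h.TT)) *
        (h.R hgk σ - 1) = 0 := by
  intro σ hσ τ hτ
  obtain ⟨M', hM', hpM'⟩ := lvl_p hp.out hw hpN hsq
  have hlN : (List.ofFn v).prod ≠ 0 := (twL_of hw hvN).ld.prod_ne
  haveI : NeZero (N * (List.ofFn v).prod) := ⟨mul_ne_zero (NeZero.ne N) hlN⟩
  have hodd : Odd (Fintype.card (DG N (HQ hvN c))) := by
    have h1 := hw.isPGroup
    exact odd_card hw.p2 h1
  refine ord_R (twL_of hw hvN) h hM' hpM' hw.p2 hodd hpS hA (fun σ hσ τ hτ g => ?_) hgk hτ hσ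
  have h1 := congrArg (fun X : M2 (ResidueField O) => (X * ρb g).trace) (rel_of_ordB hO hσ hτ)
  rw [zero_mul, Matrix.trace_zero, ← ZG.residue_cycO hpO σ] at h1
  have h2 : ∀ (X Y Z : M2 (ResidueField O)) (a : ResidueField O),
      ((X - a • (1 : M2 (ResidueField O))) * (Y - 1) * Z).trace =
      (X * Y * Z).trace - (X * Z).trace - a * (Y * Z).trace + a * Z.trace := by
    intro X Y Z a
    have e1 : (X - a • (1 : M2 (ResidueField O))) * (Y - 1) * Z =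
        X * Y * Z - X * Z - a • (Y * Z) + a • Z := by
      simp only [sub_mul, mul_sub, smul_mul_assoc, one_mul, mul_one, mul_assoc]
      abel
    rw [e1, Matrix.trace_add, Matrix.trace_sub, Matrix.trace_sub, Matrix.trace_smul,
      Matrix.trace_smul, smul_eq_mul, smul_eq_mul]
  rw [h2] at h1
  rw [← h1, map_mul, map_mul, map_mul, map_mul]

end

end Fermat.Agent.OrdH
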