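import Fermat.Agent.Twi.Lift2

/-!
# Twisting with a general nebentypus
-/

set_option autoImplicit false
set_option linter.unusedSectionVars false
set_option linter.style.haveILetI false

open Matrix.SpecialLinearGroup Filter
open scoped MatrixGroups TensorProduct
open Fermat.Agent.AL Fermat.Agent.ALCoh Fermat.Agent.TW Fermat.Agent.Twi
open ModularCurve ModularCurve.Period

namespace Fermat.Agent.OrdH

noncomputable section

variable {O : Type*} [CommRing O] {M v : ℕ} [hv : Fact v.Prime] {ψ : MulChar (ZMod v) O}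
  {w : ℤ → O} {X : SL(2, ℤ) → O}

/-- nebentypus `w` -/
structure DatW (N : ℕ) (w : ℤ → O) (X : SL(2, ℤ) → O) : Prop where
  dia : ∀ a b c d : ℤ, a * d - b * ((N : ℤ) * c) = 1 →
    act X !![a, b; (N : ℤ) * c, d] =ᶠ[deep] fun γ => w d * X γ

/-- the condition on a character -/
structure Per (M : ℕ) (w : ℤ → O) : Prop where
  one : w 1 = 1
  per : ∀ d k : ℤ, w (d + M * k) = w d

variable (M v ψ w X) in
/-- nebentypus `ψ² w` -/
structure DT : Prop where
  D : DatW (M * v) (fun d => ψ (d : ZMod v) ^ 2 * w d) X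
  P : Per M w

theorem DT.left (h : DT M v ψ w X) {a b c d : ℤ} (hdet : a * d - b * ((M * v : ℕ) * c) = 1)
    {B₁ B₂ : M2} {k k' : ℤ} (hk : k ≠ 0) (hk' : k' ≠ 0) (hB₂ : B₂.det ≠ 0)
    (e : k • B₁ = k' • (!![a, b; (M * v : ℕ) * c, d] * B₂)) :
    act X B₁ =ᶠ[deep] fun γ => ψ (d : ZMod v) ^ 2 * w d * act X B₂ γ := by
  have hg : (!![a, b; (M * v : ℕ) * c, d] : M2).det ≠ 0 := by
    rw [Matrix.det_fin_two_of, hdet]; exact one_ne_zero
  rw [← act_smul hk X B₁, e, act_smul hk']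
  refine (act_mul X hg hB₂).trans ?_
  exact (act_congr (h.D.dia a b c d hdet) hB₂)

theorem DT.left_one (h : DT M v ψ w X) {a b c d : ℤ} (hdet : a * d - b * ((M * v : ℕ) * c) = 1)
    (hd : d = 1)
    {B₁ B₂ : M2} {k k' : ℤ} (hk : k ≠ 0) (hk' : k' ≠ 0) (hB₂ : B₂.det ≠ 0)
    (e : k • B₁ = k' • (!![a, b; (M * v : ℕ) * c, d] * B₂)) :
    act X B₁ =ᶠ[deep] act X B₂ := by
  refine (h.left hdet hk hk' hB₂ e).trans (Eventually.of_forall fun γ => ?_)
  change ψ (d : ZMod v) ^ 2 * w d * act X B₂ γ = _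
  rw [hd, Int.cast_one, map_one, one_pow, h.P.one, one_mul, one_mul]

/-- dependence on the residue class -/
theorem DT.al_congr (h : DT M v ψ w X) {u z : ℤ} (huz : (u : ZMod v) = z) {B : M2}
    (hB : B.det ≠ 0) : act X (al v u * B) =ᶠ[deep] act X (al v z * B) := by
  rw [← sub_eq_zero, ← Int.cast_sub, ZMod.intCast_zmod_eq_zero_iff_dvd] at huz
  obtain ⟨k, hk⟩ := huz
  refine h.left_one (a := 1) (b := k) (c := 0) (d := 1) (by ring) rfl one_ne_zero one_ne_zero
    (B₂ := al v z * B) (by rw [Matrix.det_mul]; exact mul_ne_zero (det_al_ne z) hB) ?_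
  rw [one_smul, one_smul, ← Matrix.mul_assoc]
  congr 1
  have hu : u = z + v * k := by linear_combination hk
  rw [al, al, Matrix.mul_fin_two, hu]
  congr 1
  ring_nf

theorem DT.al_congr' (h : DT M v ψ w X) {u z : ℤ} (huz : (u : ZMod v) = z) :
    act X (al v u) =ᶠ[deep] act X (al v z) := by
  have := h.al_congr huz (B := 1) (by rw [Matrix.det_one]; exact one_ne_zero)
  rwa [Matrix.mul_one, Matrix.mul_one] at this

theorem DT.G_eq (h : DT M v ψ w X) (u : ℤ) : act X (al v u) =ᶠ[deep] G v X (u : ZMod v) := by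
  haveI : NeZero v := ⟨hv.out.ne_zero⟩
  refine h.al_congr' ?_
  push_cast
  rw [ZMod.natCast_zmod_val]

theorem DT.act_Rm (h : DT M v ψ w X) (c : ℤ) : act X (Rm M v c) =ᶠ[deep] X := by
  refine (h.D.dia 1 0 c 1 (by ring)).trans (Eventually.of_forall fun γ => ?_)
  change ψ ((1 : ℤ) : ZMod v) ^ 2 * w 1 * X γ = X γ
  rw [Int.cast_one, map_one, one_pow, h.P.one, one_mul, one_mul]

/-- **invariance of the twist** -/
theorem DT.Y_inv (h : DT M v ψ w X) : DatW (M * v * v) w (Y v ψ X) := by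
  refine ⟨fun a b c d hdet => ?_⟩
  haveI := neZero_v (v := v)
  push_cast at hdet ⊢
  have hg : (!![a, b; M * v * v * c, d] : M2).det ≠ 0 := by
    rw [Matrix.det_fin_two_of, hdet]; exact one_ne_zero
  refine (act_Y hg).trans ?_
  have hd : (a : ZMod v) * d = 1 := by
    have e1 := congrArg (Int.cast : ℤ → ZMod v) hdet
    push_cast at e1
    rw [ZMod.natCast_self v] at e1
    linear_combination e1
  have hd0 : (d : ZMod v) ≠ 0 := fun h0 => by rw [h0, mul_zero] at hd; exact zero_ne_one hd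
  have h1 : ∀ᶠ γ in deep, ∀ u : ZMod v,
      act X (al v (u.val : ℤ) * !![a, b; M * v * v * c, d]) γ =
        ψ (d : ZMod v) ^ 2 * w d * G v X (u * (d : ZMod v) ^ 2) γ := by
    rw [Filter.eventually_all]
    intro u
    set U : ℤ := (u.val : ℤ) with hU
    have hUu : (U : ZMod v) = u := by rw [hU]; push_cast; exact ZMod.natCast_zmod_val u
    have h2 := h.left (a := a + U * M * v * c) (b := b - U ^ 2 * d ^ 2 * M * c - U * d * b * M * v * c)
      (c := v * c) (d := d - U * d ^ 2 * M * v * c) (B₁ := al v U * !![a, b; M * v * v * c, d])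
      (B₂ := al v (U * d ^ 2)) (k := 1) (k' := 1) ?_ one_ne_zero one_ne_zero (det_al_ne _) ?_
    · filter_upwards [h2, h.G_eq (U * d ^ 2)] with γ e1 e2
      rw [e1, e2]
      have e3 : w (d - U * d ^ 2 * M * v * c) = w d := by
        rw [← h.P.per d (-(U * d ^ 2 * v * c))]
        congr 1
        ring
      rw [e3]
      push_cast
      rw [hUu, ZMod.natCast_self v]
      congr 4
      ring
    · push_cast
      linear_combination (1 - U * d * M * v * c) * hdet
    · rw [one_smul, one_smul, al, al, Matrix.mul_fin_two, Matrix.mul_fin_two]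
      refine m2_ext ?_ ?_ ?_ ?_
      · ring
      · linear_combination -(U * d) * hdet
      · push_cast; ring
      · push_cast; ring
  filter_upwards [h1] with γ e
  simp only [e]
  rw [Y]
  have hd2 : (d : ZMod v) ^ 2 ≠ 0 := pow_ne_zero 2 hd0
  rw [← Equiv.sum_comp (Equiv.mulRight₀ ((d : ZMod v) ^ 2) hd2) (fun u => ψ u * G v X u γ),
    Finset.mul_sum]
  refine Finset.sum_congr rfl fun u _ => ?_
  rw [Equiv.mulRight₀_apply, map_mul, map_pow]
  ring

/-- Hecke-type operators on germs -/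
def hk (l : ℕ) (e : O) (X : SL(2, ℤ) → O) : SL(2, ℤ) → O := fun γ =>
  ∑ j : Fin l, act X !![1, ((j : ℕ) : ℤ); 0, (l : ℤ)] γ + e * act X !![(l : ℤ), 0; 0, 1] γ

/-- **Hecke operators on the twist** -/
theorem DT.Y_hk (h : DT M v ψ w X) {l : ℕ} (hl : l.Prime) (hlv : l ≠ v) {e : O}
    {X' : SL(2, ℤ) → O} (h' : DT M v ψ w X')
    (hX : X' =ᶠ[deep] hk l (ψ (l : ZMod v) ^ 2 * e) X) :
    Y v ψ X' =ᶠ[deep] fun γ => ψ (l : ZMod v) * hk l e (Y v ψ X) γ := by
  haveI := neZero_v (v := v)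
  have hl0 : (l : ℤ) ≠ 0 := by exact_mod_cast hl.ne_zero
  have hdj : ∀ j : Fin l, (!![1, ((j : ℕ) : ℤ); 0, (l : ℤ)] : M2).det ≠ 0 := fun j => by
    rw [Matrix.det_fin_two_of]; simpa using hl0
  have hdl : (!![(l : ℤ), 0; 0, 1] : M2).det ≠ 0 := by
    rw [Matrix.det_fin_two_of]; simpa using hl0
  have hlv' : (l : ZMod v) ≠ 0 := fun h0 => by
    rw [ZMod.natCast_eq_zero_iff] at h0
    exact hlv ((Nat.prime_dvd_prime_iff_eq hv.out hl).1 h0).symm
  -- translate of the relation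
  have h1 : ∀ᶠ γ in deep, ∀ u : ZMod v,
      ∑ j : Fin l, act (act X !![1, ((j : ℕ) : ℤ); 0, (l : ℤ)]) (al v (l * (u.val : ℤ))) γ +
      ψ (l : ZMod v) ^ 2 * e * act (act X !![(l : ℤ), 0; 0, 1]) (al v (l * (u.val : ℤ))) γ =
        G v X' (l * u) γ := by
    rw [Filter.eventually_all]
    intro u
    have h2 := (tendsto_cj (det_al_ne (v := v) (l * (u.val : ℤ)))).eventually hX
    filter_upwards [h2, h'.G_eq (l * (u.val : ℤ))] with γ e1 e2
    rw [act_apply] at e2
    have e3 : G v X' (((l * (u.val : ℤ) : ℤ)) : ZMod v) γ = G v X' (l * u) γ := by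
      push_cast
      rw [ZMod.natCast_zmod_val]
    rw [← e3, ← e2, e1]
    rfl
  have h3 : ∀ᶠ γ in deep, ∀ (j : Fin l) (u : ZMod v),
      act X (al v (u.val : ℤ) * !![1, ((j : ℕ) : ℤ); 0, (l : ℤ)]) γ =
        act (act X !![1, ((j : ℕ) : ℤ); 0, (l : ℤ)]) (al v (l * (u.val : ℤ))) γ := by
    rw [Filter.eventually_all]
    intro j
    rw [Filter.eventually_all]
    intro u
    have e : al v (u.val : ℤ) * !![1, ((j : ℕ) : ℤ); 0, (l : ℤ)] =
        !![1, ((j : ℕ) : ℤ); 0, (l : ℤ)] * al v (l * (u.val : ℤ)) := by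
      rw [al, al, Matrix.mul_fin_two, Matrix.mul_fin_two]
      exact m2_ext (by ring) (by ring) (by ring) (by ring)
    rw [e]
    exact act_mul X (hdj j) (det_al_ne _)
  have h4 : ∀ᶠ γ in deep, ∀ u : ZMod v,
      act X (al v (((l : ZMod v) ^ 2 * u).val : ℤ) * !![(l : ℤ), 0; 0, 1]) γ =
        act (act X !![(l : ℤ), 0; 0, 1]) (al v (l * (u.val : ℤ))) γ := by
    rw [Filter.eventually_all]
    intro u
    have e : al v (l ^ 2 * (u.val : ℤ)) * !![(l : ℤ), 0; 0, 1] =
        !![(l : ℤ), 0; 0, 1] * al v (l * (u.val : ℤ)) := by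
      rw [al, al, Matrix.mul_fin_two, Matrix.mul_fin_two]
      exact m2_ext (by ring) (by ring) (by ring) (by ring)
    refine (h.al_congr (z := l ^ 2 * (u.val : ℤ)) ?_ hdl).trans ?_
    · push_cast
      rw [ZMod.natCast_zmod_val, ZMod.natCast_zmod_val]
    · rw [e]
      exact act_mul X hdl (det_al_ne _)
  have h5 : ∀ᶠ γ in deep, ∀ j : Fin l, act (Y v ψ X) !![1, ((j : ℕ) : ℤ); 0, (l : ℤ)] γ =
      ∑ u : ZMod v, ψ u * act X (al v (u.val : ℤ) * !![1, ((j : ℕ) : ℤ); 0, (l : ℤ)]) γ := by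
    rw [Filter.eventually_all]
    exact fun j => act_Y (hdj j)
  have h6 := act_Y (v := v) (ψ := ψ) (X := X) hdl
  filter_upwards [h1, h3, h4, h5, h6] with γ e1 e3 e4 e5 e6
  simp only [hk, e5, e6, e3]
  have hl2 : (l : ZMod v) ^ 2 ≠ 0 := pow_ne_zero 2 hlv'
  rw [← Equiv.sum_comp (Equiv.mulLeft₀ ((l : ZMod v) ^ 2) hl2) (fun u => ψ u *
    act X (al v (u.val : ℤ) * !![(l : ℤ), 0; 0, 1]) γ)]
  simp only [Equiv.mulLeft₀_apply, e4]
  rw [Finset.sum_comm, Finset.mul_sum, ← Finset.sum_add_distrib, Y, Finset.mul_sum,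
    ← Equiv.sum_comp (Equiv.mulLeft₀ (l : ZMod v) hlv') (fun u => ψ u * G v X' u γ)]
  refine Finset.sum_congr rfl fun u _ => ?_
  rw [Equiv.mulLeft₀_apply, map_mul, map_mul, map_pow, ← Finset.mul_sum, ← e1 u]
  ring

section inj

variable [IsDomain O] [CharZero O]

/-- if the twist vanishes, then all translates are equal -/
theorem DT.G_eq_of_Y (h : DT M v ψ w X) (hψ : ψ ≠ 1) (hY : Y v ψ X =ᶠ[deep] 0) (u : ℤ) :
    act X (al v u) =ᶠ[deep] X := by
  haveI : NeZero v := ⟨hv.out.ne_zero⟩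
  have h1 : ∀ᶠ γ in deep, ∀ b : ZMod v, ∑ u : ZMod v, ψ u * G v X (u + b) γ = 0 := by
    rw [Filter.eventually_all]
    intro b
    have h2 : act (Y v ψ X) (al v (b.val : ℤ)) =ᶠ[deep] act 0 (al v (b.val : ℤ)) :=
      act_congr hY (det_al_ne (v := v) _)
    have h3 : ∀ᶠ γ in deep, ∀ u : ZMod v, act X (al v (u.val : ℤ) * al v (b.val : ℤ)) γ =
        G v X (u + b) γ := by
      rw [Filter.eventually_all]
      intro u
      rw [al_mul, act_smul (by exact_mod_cast hv.out.ne_zero)]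
      refine (h.G_eq _).trans (Eventually.of_forall fun γ => ?_)
      push_cast
      rw [ZMod.natCast_zmod_val, ZMod.natCast_zmod_val]
    filter_upwards [h2, h3, act_Y (ψ := ψ) (X := X) (v := v) (det_al_ne (v := v) (b.val : ℤ))] with γ e1 e2 e3
    rw [e3] at e1
    simp only [e2] at e1
    exact e1
  refine (h.G_eq u).trans ?_
  filter_upwards [h1] with γ e
  have hc := const_of_conv hψ (fun u => G v X u γ) e
  have h4 : (v : O) * G v X (u : ZMod v) γ = (v : O) * G v X 0 γ := by rw [hc, hc]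
  have h5 := mul_left_cancel₀ (Nat.cast_ne_zero.2 hv.out.ne_zero) h4
  rw [h5, G, ZMod.val_zero, Nat.cast_zero, act_al_zero]

/-- **injectivity of the twist** -/
theorem DT.eq_zero (h : DT M v ψ w X) (hψ : ψ ≠ 1) (hM : ¬ v ∣ M) {t : ZMod v}
    (ht : ψ t ^ 2 ≠ 1) (ht0 : t ≠ 0) (hY : Y v ψ X =ᶠ[deep] 0) : X =ᶠ[deep] 0 := by
  haveI : NeZero v := ⟨hv.out.ne_zero⟩
  have hMv : (M : ZMod v) ≠ 0 := fun h0 => hM ((ZMod.natCast_eq_zero_iff M v).1 h0)
  have hG := fun u => h.G_eq_of_Y hψ hY u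
  set T : ℤ := (t.val : ℤ) with hT
  have hTt : (T : ZMod v) = t := by rw [hT]; push_cast; exact ZMod.natCast_zmod_val t
  obtain ⟨c, hc⟩ : ∃ c : ℤ, ((1 + T * M * c : ℤ) : ZMod v) = ((0 : ℤ) : ZMod v) := by
    refine ⟨((-(t * M)⁻¹ : ZMod v).val : ℤ), ?_⟩
    push_cast
    rw [ZMod.natCast_zmod_val, hTt]
    field_simp
    ring
  obtain ⟨c', hc'⟩ : ∃ c' : ℤ, ((M * c' : ℤ) : ZMod v) = ((1 : ℤ) : ZMod v) := by
    refine ⟨(((M : ZMod v)⁻¹).val : ℤ), ?_⟩
    push_cast
    rw [ZMod.natCast_zmod_val, mul_inv_cancel₀ hMv]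
  obtain ⟨k, hk⟩ := exists_eq_mul hc
  obtain ⟨k', hk'⟩ := exists_eq_mul hc'
  have h1 : act X (al v T * (Rm M v c * (al v (T - 1) * (Rm M v c' * al v (-1))))) =ᶠ[deep] X := by
    have d1 := det_al_ne (v := v)
    have d2 := det_Rm_ne (M := M) (v := v)
    have d3 : ∀ {A B : M2}, A.det ≠ 0 → B.det ≠ 0 → (A * B).det ≠ 0 := fun hA hB => by
      rw [Matrix.det_mul]; exact mul_ne_zero hA hB
    refine (inv_mul (d1 _) (d3 (d2 _) (d3 (d1 _) (d3 (d2 _) (d1 _)))) (hG _)).trans ?_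
    refine (inv_mul (d2 _) (d3 (d1 _) (d3 (d2 _) (d1 _))) (h.act_Rm _)).trans ?_
    refine (inv_mul (d1 _) (d3 (d2 _) (d1 _)) (hG _)).trans ?_
    exact (inv_mul (d2 _) (d1 _) (h.act_Rm _)).trans (hG _)
  set d : ℤ := M * c * (T - 1) + 1 - (M * c + (M * c * (T - 1) + 1) * (M * c')) with hd
  have hwd : w d = 1 := by
    rw [← h.P.one, ← h.P.per 1 (c * (T - 1) - (c + (M * c * (T - 1) + 1) * c')), hd]
    congr 1
    ring
  have hq : (v : ℤ) * (-k - (v * k * (T - 1) + T) * k') =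
      -(1 + T * (M * c)) - ((1 + T * (M * c)) * (T - 1) + T) * (M * c' - 1) := by
    have ek : (v : ℤ) * k = 1 + T * (M * c) := by linear_combination -hk
    have ek' : (v : ℤ) * k' = M * c' - 1 := by linear_combination -hk'
    calc (v : ℤ) * (-k - (v * k * (T - 1) + T) * k')
        = -(v * k) - (v * k * (T - 1) + T) * (v * k') := by ring
      _ = _ := by rw [ek, ek']
  have h2 := h.left (a := 1 + T * (M * c) + ((1 + T * (M * c)) * (T - 1) + T) * (M * c'))
    (b := -k - (v * k * (T - 1) + T) * k') (c := c + (M * c * (T - 1) + 1) * c') (d := d)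
    (B₁ := al v T * (Rm M v c * (al v (T - 1) * (Rm M v c' * al v (-1))))) (B₂ := 1)
    (k := 1) (k' := v ^ 3) ?_ one_ne_zero (pow_ne_zero 3 (by exact_mod_cast hv.out.ne_zero))
    (by rw [Matrix.det_one]; exact one_ne_zero) ?_
  · rw [act_one, hwd] at h2
    have hdt : (d : ZMod v) * t = 1 := by
      have e1 := congrArg (Int.cast : ℤ → ZMod v) hk
      have e2 := congrArg (Int.cast : ℤ → ZMod v) hk'
      rw [hd]
      push_cast [hTt] at e1 e2 ⊢
      have e3 : (v : ZMod v) = 0 := ZMod.natCast_self v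
      rw [e3, zero_mul] at e1 e2
      have e4 : (M : ZMod v) * c' = 1 := by linear_combination e2
      have e5 : t * M * c = -1 := by linear_combination e1
      rw [e4]
      linear_combination -e5
    filter_upwards [h1, h2] with γ e1 e2
    rw [e1, mul_one] at e2
    have e3 : ψ t * ψ (d : ZMod v) = 1 := by rw [← map_mul, mul_comm t, hdt, map_one]
    have e4 : (ψ t ^ 2 - 1) * X γ = 0 := by
      have e5 : ψ t ^ 2 * X γ = (ψ t * ψ (d : ZMod v)) ^ 2 * X γ := by
        conv_lhs => rw [e2]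
        ring
      rw [sub_mul, one_mul, e5, e3, one_pow, one_mul, sub_self]
    exact (mul_eq_zero.1 e4).resolve_left (sub_ne_zero.2 ht)
  · rw [hd]
    push_cast
    linear_combination -(M * (c + (M * c * (T - 1) + 1) * c') : ℤ) * hq
  · rw [one_smul, Matrix.mul_one, al, al, al, Rm, Rm, Matrix.mul_fin_two, Matrix.mul_fin_two,
      Matrix.mul_fin_two, Matrix.mul_fin_two, Matrix.smul_of]
    simp only [Matrix.smul_cons, Matrix.smul_empty, smul_eq_mul]
    refine m2_ext ?_ ?_ ?_ ?_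
    · push_cast; ring
    · push_cast; linear_combination -(v : ℤ) ^ 2 * hq
    · push_cast; ring
    · rw [hd]; push_cast; ring

end inj

end

end Fermat.Agent.OrdH
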