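import Fermat.Agent.OrdH.Tw1

/-!
# Twisting by a character of squarefree conductor
-/

set_option autoImplicit false
set_option linter.unusedSectionVars false
set_option linter.style.haveILetI false

open Matrix.SpecialLinearGroup Filter
open scoped MatrixGroups TensorProduct
open Fermat.Agent.AL Fermat.Agent.ALCoh Fermat.Agent.TW Fermat.Agent.Twi Fermat.Agent.KumG
open ModularCurve ModularCurve.Period

namespace Fermat.Agent.OrdH

noncomputable section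

variable {E : Type*} [CommRing E]

/-! ### lattices -/

/-- functions coming from a lattice of level `Γ_{±1}(N)` -/
def LatG (N : ℕ) (X : SL(2, ℤ) → E) : Prop :=
  ∃ y : E ⊗[ℤ] KumG.LZ (GH N (Subgroup.zpowers (-1))), til _ y =ᶠ[deep] X

theorem LatG.congr {N : ℕ} {X X' : SL(2, ℤ) → E} (h : LatG N X) (hX : X =ᶠ[deep] X') :
    LatG N X' := by
  obtain ⟨y, hy⟩ := h
  exact ⟨y, hy.trans hX⟩

/-- restriction to smaller subgroups -/
theorem til_sub {Γ Γ' : Subgroup SL(2, ℤ)} (h : Γ' ≤ Γ) (hΓ' : ∀ᶠ γ in deep, γ ∈ Γ')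
    (x : E ⊗[ℤ] KumG.LZ Γ) : til Γ' ((opLL (famSub h)).baseChange E x) =ᶠ[deep] til Γ x := by
  have hΓ : ∀ᶠ γ : SL(2, ℤ) in deep, γ ∈ Γ := hΓ'.mono fun γ hγ => h hγ
  filter_upwards [til_op (famSub h) hΓ hΓ' x] with γ e
  rw [e, sum_unit_act, act_one]

theorem GH_anti {N N' : ℕ} (hN : N ∣ N') {H : Subgroup (ZMod N)ˣ} (hH : (-1 : (ZMod N)ˣ) ∈ H) :
    GH N' (Subgroup.zpowers (-1)) ≤ GH N H := by
  rintro γ ⟨hγ, w, hw, hwγ⟩
  refine ⟨?_, ?_⟩
  · rw [mem_Gamma0_iff] at hγ ⊢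
    exact (Int.natCast_dvd_natCast.2 hN).trans hγ
  · have h1 : ((γ 1 1 : ℤ) : ZMod N) = ZMod.castHom hN (ZMod N) ((γ 1 1 : ℤ) : ZMod N') := by
      rw [map_intCast]
    rcases mem_zpowers_neg_one hw with h | h
    · refine ⟨1, one_mem _, ?_⟩
      rw [h] at hwγ
      rw [h1, ← hwγ, Units.val_one, Units.val_one, map_one]
    · refine ⟨-1, hH, ?_⟩
      rw [h] at hwγ
      rw [h1, ← hwγ, Units.val_neg, Units.val_neg, Units.val_one, Units.val_one, map_neg, map_one]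

theorem LatG.res {N N' : ℕ} {X : SL(2, ℤ) → E} (h : LatG N X) (hN : N ∣ N') (hN' : N' ≠ 0) :
    LatG N' X := by
  obtain ⟨y, hy⟩ := h
  exact ⟨_, (til_sub (GH_anti hN (Subgroup.mem_zpowers _)) (deep_GH hN' _) y).trans hy⟩

theorem latG_til {N : ℕ} (hN : N ≠ 0) {H : Subgroup (ZMod N)ˣ} (hH : (-1 : (ZMod N)ˣ) ∈ H)
    (x : E ⊗[ℤ] KumG.LZ (GH N H)) : LatG N (til _ x) :=
  ⟨_, til_sub (GH_anti dvd_rfl hH) (deep_GH hN _) x⟩

instance factZp (N : ℕ) : Fact ((-1 : (ZMod N)ˣ) ∈ (Subgroup.zpowers (-1) : Subgroup (ZMod N)ˣ)) :=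
  ⟨Subgroup.mem_zpowers _⟩

theorem Y_congr {v : ℕ} [hv : Fact v.Prime] {ψ : MulChar (ZMod v) E} {X X' : SL(2, ℤ) → E}
    (h : X =ᶠ[deep] X') : Y v ψ X =ᶠ[deep] Y v ψ X' := by
  haveI := neZero_v (v := v)
  have h1 : ∀ᶠ γ in deep, ∀ u : ZMod v, act X (al v (u.val : ℤ)) γ =
      act X' (al v (u.val : ℤ)) γ := by
    rw [Filter.eventually_all]
    exact fun u => act_congr h (det_al_ne _)
  filter_upwards [h1] with γ e
  simp only [Y, G, e]

theorem LatG.Y {M v : ℕ} [hv : Fact v.Prime] [NeZero (M * v)] (ψ : MulChar (ZMod v) E)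
    {X : SL(2, ℤ) → E} (h : LatG (M * v) X) : LatG (M * v * v) (Twi.Y v ψ X) := by
  obtain ⟨y, hy⟩ := h
  exact ⟨_, (til_R (ψ := ψ) y).trans (Y_congr hy)⟩

theorem DatW.smul {N : ℕ} {w : ℤ → E} {X : SL(2, ℤ) → E} (h : DatW N w X) (a : E) :
    DatW N w (a • X) := by
  refine ⟨fun a' b c d hdet => ?_⟩
  filter_upwards [h.dia a' b c d hdet] with γ e
  change a * act X _ γ = w d * (a * X γ)
  rw [e]
  ring

theorem DatW.congr {N : ℕ} {w : ℤ → E} {X X' : SL(2, ℤ) → E} (h : DatW N w X)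
    (hX : X =ᶠ[deep] X') : DatW N w X' := by
  refine ⟨fun a b c d hdet => ?_⟩
  have hg : (!![a, b; (N : ℤ) * c, d] : M2).det ≠ 0 := by
    rw [Matrix.det_fin_two_of, hdet]; exact one_ne_zero
  filter_upwards [h.dia a b c d hdet, hX, act_congr hX hg] with γ e1 e2 e3
  rw [← e3, e1, e2]

theorem hk_smul (l : ℕ) (e a : E) (X : SL(2, ℤ) → E) : hk l e (a • X) = a • hk l e X := by
  funext γ
  simp only [hk, act_apply, Pi.smul_apply, smul_eq_mul]
  rw [mul_add, Finset.mul_sum]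
  ring

/-! ### one prime -/

open Classical in
/-- the twist at one prime -/
def Tw (v : ℕ) (ψ : MulChar (ZMod v) E) (X : SL(2, ℤ) → E) : SL(2, ℤ) → E :=
  if h : v.Prime ∧ ψ ≠ 1 then haveI := Fact.mk h.1; Y v ψ X else X

variable {v : ℕ} {ψ : MulChar (ZMod v) E}

theorem Tw_of [hv : Fact v.Prime] (hψ : ψ ≠ 1) (X : SL(2, ℤ) → E) : Tw v ψ X = Y v ψ X := by
  rw [Tw, dif_pos ⟨hv.out, hψ⟩]

theorem Tw_one (X : SL(2, ℤ) → E) : Tw v (1 : MulChar (ZMod v) E) X = X := by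
  rw [Tw, dif_neg (fun h => h.2 rfl)]

theorem Tw_congr {X X' : SL(2, ℤ) → E} (h : X =ᶠ[deep] X') :
    Tw v ψ X =ᶠ[deep] Tw v ψ X' := by
  by_cases h0 : v.Prime ∧ ψ ≠ 1
  · haveI := Fact.mk h0.1
    rw [Tw_of h0.2, Tw_of h0.2]
    exact Y_congr h
  · rw [Tw, dif_neg h0, Tw, dif_neg h0]
    exact h

theorem Tw_add (X X' : SL(2, ℤ) → E) : Tw v ψ (X + X') = Tw v ψ X + Tw v ψ X' := by
  by_cases h0 : v.Prime ∧ ψ ≠ 1
  · haveI := Fact.mk h0.1
    rw [Tw_of h0.2, Tw_of h0.2, Tw_of h0.2]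
    funext γ
    simp only [Y, G, act_apply, Pi.add_apply]
    rw [← Finset.sum_add_distrib]
    exact Finset.sum_congr rfl fun _ _ => by ring
  · rw [Tw, dif_neg h0, Tw, dif_neg h0, Tw, dif_neg h0]

theorem Tw_smul (a : E) (X : SL(2, ℤ) → E) : Tw v ψ (a • X) = a • Tw v ψ X := by
  by_cases h0 : v.Prime ∧ ψ ≠ 1
  · haveI := Fact.mk h0.1
    rw [Tw_of h0.2, Tw_of h0.2]
    funext γ
    simp only [Y, G, act_apply, Pi.smul_apply, smul_eq_mul]
    rw [Finset.mul_sum]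
    exact Finset.sum_congr rfl fun _ _ => by ring
  · rw [Tw, dif_neg h0, Tw, dif_neg h0]

theorem psi_sq {v : ℕ} (hv : v.Prime) {ψ : MulChar (ZMod v) E} {d : ℤ}
    (hd : IsCoprime d (v : ℤ)) (h : ψ = 1) : ψ (d : ZMod v) = 1 := by
  haveI := Fact.mk hv
  rw [h, MulChar.one_apply]
  rw [ZMod.coe_int_isUnit_iff_isCoprime]
  exact hd.symm

/-- the data at one prime (allowing the trivial character) -/
theorem tw_datW {M v : ℕ} (hv : v.Prime) {ψ : MulChar (ZMod v) E} {w : ℤ → E}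
    {X : SL(2, ℤ) → E}
    (hX : DatW (M * v) (fun d => ψ (d : ZMod v) ^ 2 * w d) X) (hw : Per M w) :
    DatW (M * v * v) w (Tw v ψ X) := by
  haveI := Fact.mk hv
  by_cases hψ : ψ = 1
  · rw [hψ, Tw_one]
    refine ⟨fun a b c d hdet => ?_⟩
    have h1 := hX.dia a b (v * c) d (by rw [← hdet]; push_cast; ring)
    have hd : IsCoprime d (v : ℤ) := ⟨a, -(b * (M * v * c)), by push_cast at hdet; linear_combination hdet⟩
    have e : (!![a, b; ((M * v : ℕ) : ℤ) * (v * c), d] : M2) =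
        !![a, b; ((M * v * v : ℕ) : ℤ) * c, d] := m2_ext rfl rfl (by push_cast; ring) rfl
    rw [e] at h1
    filter_upwards [h1] with γ h1
    rw [h1]
    change ψ (d : ZMod v) ^ 2 * w d * X γ = w d * X γ
    rw [psi_sq hv hd hψ, one_pow, one_mul]
  · rw [Tw_of hψ]
    exact DT.Y_inv ⟨hX, hw⟩

theorem tw_lat {M v : ℕ} (hv : v.Prime) (hM : M ≠ 0) {ψ : MulChar (ZMod v) E}
    {X : SL(2, ℤ) → E} (h : LatG (M * v) X) : LatG (M * v * v) (Tw v ψ X) := by
  haveI := Fact.mk hv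
  haveI : NeZero (M * v) := ⟨mul_ne_zero hM hv.ne_zero⟩
  by_cases hψ : ψ = 1
  · rw [hψ, Tw_one]
    exact h.res (dvd_mul_right _ _) (mul_ne_zero (mul_ne_zero hM hv.ne_zero) hv.ne_zero)
  · rw [Tw_of hψ]
    exact h.Y ψ

theorem isCoprime_of_prime {l v : ℕ} (hl : l.Prime) (hv : v.Prime) (hlv : l ≠ v) :
    IsCoprime (l : ℤ) (v : ℤ) := Nat.isCoprime_iff_coprime.2 ((Nat.coprime_primes hl hv).2 hlv)

theorem tw_hk {M v : ℕ} (hv : v.Prime) {ψ : MulChar (ZMod v) E} {w : ℤ → E}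
    {X X' : SL(2, ℤ) → E} (hw : Per M w)
    (hX : DatW (M * v) (fun d => ψ (d : ZMod v) ^ 2 * w d) X)
    (hX' : DatW (M * v) (fun d => ψ (d : ZMod v) ^ 2 * w d) X')
    {l : ℕ} (hl : l.Prime) (hlv : l ≠ v) {e : E}
    (h : X' =ᶠ[deep] hk l (ψ (l : ZMod v) ^ 2 * e) X) :
    Tw v ψ X' =ᶠ[deep] fun γ => ψ (l : ZMod v) * hk l e (Tw v ψ X) γ := by
  haveI := Fact.mk hv
  by_cases hψ : ψ = 1
  · have h1 := psi_sq hv (isCoprime_of_prime hl hv hlv) hψ
    rw [Int.cast_natCast] at h1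
    rw [h1, one_pow, one_mul] at h
    rw [h1]
    rw [hψ, Tw_one, Tw_one]
    filter_upwards [h] with γ e
    rw [e, one_mul]
  · rw [Tw_of hψ, Tw_of hψ]
    exact DT.Y_hk ⟨hX, hw⟩ hl hlv ⟨hX', hw⟩ h

theorem tw_eq_zero [IsDomain E] [CharZero E] {M v : ℕ} (hv : v.Prime) (hM : ¬ v ∣ M)
    {ψ : MulChar (ZMod v) E} {w : ℤ → E}
    {X : SL(2, ℤ) → E} (hw : Per M w)
    (hX : DatW (M * v) (fun d => ψ (d : ZMod v) ^ 2 * w d) X)
    (hψ : ψ ≠ 1 → ∃ t : ZMod v, t ≠ 0 ∧ ψ t ^ 2 ≠ 1) (h : Tw v ψ X =ᶠ[deep] 0) :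
    X =ᶠ[deep] 0 := by
  haveI := Fact.mk hv
  by_cases hψ1 : ψ = 1
  · rwa [hψ1, Tw_one] at h
  · obtain ⟨t, ht, ht'⟩ := hψ hψ1
    rw [Tw_of hψ1] at h
    exact DT.eq_zero ⟨hX, hw⟩ hψ1 hM ht' ht h

/-! ### several primes -/

variable (ψ : ∀ v : ℕ, MulChar (ZMod v) E)

/-- the nebentypus -/
def wL (L : List ℕ) (d : ℤ) : E := (L.map fun v => ψ v (d : ZMod v) ^ 2).prod

/-- its square root -/
def wS (L : List ℕ) (d : ℤ) : E := (L.map fun v => ψ v (d : ZMod v)).prod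

theorem wL_cons (v : ℕ) (L : List ℕ) : wL ψ (v :: L) = fun d : ℤ => ψ v (d : ZMod v) ^ 2 * wL ψ L d := by
  funext d
  rw [wL, List.map_cons, List.prod_cons]; rfl

theorem wL_nil : wL ψ [] = fun _ => 1 := rfl

theorem wS_cons (v : ℕ) (L : List ℕ) (d : ℤ) : wS ψ (v :: L) d = ψ v (d : ZMod v) * wS ψ L d := by
  rw [wS, List.map_cons, List.prod_cons]; rfl

theorem wS_sq (L : List ℕ) (d : ℤ) : wS ψ L d ^ 2 = wL ψ L d := by
  induction L with
  | nil => simp [wS, wL]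
  | cons v L ih => rw [wS_cons, mul_pow, ih, wL_cons]

theorem per_wL {L : List ℕ} {M : ℕ} (h : ∀ v ∈ L, v ∣ M) : Per M (wL ψ L) := by
  induction L with
  | nil => exact ⟨rfl, fun _ _ => rfl⟩
  | cons v L ih =>
    have h1 := ih fun u hu => h u (List.mem_cons_of_mem v hu)
    rw [wL_cons]
    refine ⟨?_, fun d k => ?_⟩
    · rw [Int.cast_one, map_one, one_pow, one_mul, h1.one]
    · obtain ⟨c, rfl⟩ := h v List.mem_cons_self
      have h2 : ((d + ((v * c : ℕ) : ℤ) * k : ℤ) : ZMod v) = (d : ZMod v) := by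
        push_cast
        rw [ZMod.natCast_self]
        ring
      rw [h2, h1.per]

/-- the twist -/
def TwL : List ℕ → (SL(2, ℤ) → E) → (SL(2, ℤ) → E)
  | [], X => X
  | v :: L, X => TwL L (Tw v (ψ v) X)

theorem TwL_congr (L : List ℕ) {X X' : SL(2, ℤ) → E} (h : X =ᶠ[deep] X') :
    TwL ψ L X =ᶠ[deep] TwL ψ L X' := by
  induction L generalizing X X' with
  | nil => exact h
  | cons v L ih => exact ih (Tw_congr h)

theorem TwL_add (L : List ℕ) (X X' : SL(2, ℤ) → E) :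
    TwL ψ L (X + X') = TwL ψ L X + TwL ψ L X' := by
  induction L generalizing X X' with
  | nil => rfl
  | cons v L ih => rw [TwL, Tw_add, ih]; rfl

theorem TwL_smul (L : List ℕ) (a : E) (X : SL(2, ℤ) → E) :
    TwL ψ L (a • X) = a • TwL ψ L X := by
  induction L generalizing X with
  | nil => rfl
  | cons v L ih => rw [TwL, Tw_smul, ih]; rfl

variable {ψ}

/-- induction data -/
structure LD (M : ℕ) (L : List ℕ) : Prop where
  pr : ∀ v ∈ L, v.Prime
  nd : L.Nodup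
  co : ∀ v ∈ L, ¬ v ∣ M
  ne : M ≠ 0

theorem LD.prod_ne {M : ℕ} {L : List ℕ} (h : LD M L) : L.prod ≠ 0 := by
  rw [Ne, List.prod_eq_zero_iff]
  exact fun h0 => (h.pr 0 h0).ne_zero rfl

theorem LD.tail {M v : ℕ} {L : List ℕ} (h : LD M (v :: L)) : LD (M * v * v) L := by
  have hv := h.pr v List.mem_cons_self
  have hnd := List.nodup_cons.1 h.nd
  refine ⟨fun u hu => h.pr u (List.mem_cons_of_mem v hu), hnd.2, fun u hu => ?_,
    mul_ne_zero (mul_ne_zero h.ne hv.ne_zero) hv.ne_zero⟩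
  have hu' := h.pr u (List.mem_cons_of_mem v hu)
  have huv : ¬ u ∣ v := fun h1 => by
    have := (Nat.prime_dvd_prime_iff_eq hu' hv).1 h1
    exact hnd.1 (this ▸ hu)
  rw [hu'.dvd_mul, hu'.dvd_mul]
  rintro ((h1 | h1) | h1)
  · exact h.co u (List.mem_cons_of_mem v hu) h1
  · exact huv h1
  · exact huv h1

theorem LD.not_dvd {M v : ℕ} {L : List ℕ} (h : LD M (v :: L)) : ¬ v ∣ M * L.prod := by
  have hv := h.pr v List.mem_cons_self
  have hnd := List.nodup_cons.1 h.nd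
  rw [hv.dvd_mul, hv.prime.dvd_prod_iff]
  rintro (h1 | ⟨u, hu, h1⟩)
  · exact h.co v List.mem_cons_self h1
  · have := (Nat.prime_dvd_prime_iff_eq hv (h.pr u (List.mem_cons_of_mem v hu))).1 h1
    exact hnd.1 (this ▸ hu)

theorem lvl1 (M v P : ℕ) : M * (v * P) = (M * P) * v := by ring

theorem lvl2 (M v P : ℕ) : M * P * v * v = (M * v * v) * P := by ring

theorem lvl3 (M v P : ℕ) : M * (v * P) * (v * P) = (M * v * v) * P * P := by ring

theorem LD.per {M v : ℕ} {L : List ℕ} (_ : LD M (v :: L)) : Per (M * L.prod) (wL ψ L) :=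
  per_wL ψ fun _ hu => (List.dvd_prod hu).mul_left M

theorem LD.datW_tail {M v : ℕ} {L : List ℕ} (h : LD M (v :: L)) {X : SL(2, ℤ) → E}
    (hX : DatW (M * (v :: L).prod) (wL ψ (v :: L)) X) :
    DatW (M * v * v * L.prod) (wL ψ L) (Tw v (ψ v) X) := by
  rw [List.prod_cons, lvl1, wL_cons] at hX
  have := tw_datW (h.pr v List.mem_cons_self) hX h.per
  rwa [lvl2] at this

theorem TwL_datW {L : List ℕ} {M : ℕ} (h : LD M L) {X : SL(2, ℤ) → E}
    (hX : DatW (M * L.prod) (wL ψ L) X) :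
    DatW (M * L.prod * L.prod) (fun _ => 1) (TwL ψ L X) := by
  induction L generalizing M X with
  | nil =>
    rw [List.prod_nil, mul_one] at hX
    rw [List.prod_nil, mul_one, mul_one]
    exact hX
  | cons v L ih =>
    have h1 := ih h.tail (h.datW_tail hX)
    rw [List.prod_cons, lvl3]
    exact h1

theorem TwL_lat {L : List ℕ} {M : ℕ} (h : LD M L) {X : SL(2, ℤ) → E}
    (hX : LatG (M * L.prod) X) : LatG (M * L.prod * L.prod) (TwL ψ L X) := by
  induction L generalizing M X with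
  | nil =>
    rw [List.prod_nil, mul_one] at hX
    rw [List.prod_nil, mul_one, mul_one]
    exact hX
  | cons v L ih =>
    rw [List.prod_cons, lvl1] at hX
    have h1 := tw_lat (ψ := ψ v) (h.pr v List.mem_cons_self)
      (mul_ne_zero h.ne (fun h0 => h.prod_ne (by rw [List.prod_cons, h0, mul_zero]))) hX
    rw [lvl2] at h1
    have h2 := ih h.tail h1
    rw [List.prod_cons, lvl3]
    exact h2

theorem TwL_hk {L : List ℕ} {M : ℕ} (h : LD M L) {X X' : SL(2, ℤ) → E}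
    (hX : DatW (M * L.prod) (wL ψ L) X) (hX' : DatW (M * L.prod) (wL ψ L) X')
    {l : ℕ} (hl : l.Prime) (hlL : l ∉ L) {e : E}
    (hk' : X' =ᶠ[deep] hk l (wL ψ L l * e) X) :
    TwL ψ L X' =ᶠ[deep] wS ψ L l • hk l e (TwL ψ L X) := by
  induction L generalizing M X X' with
  | nil =>
    refine hk'.trans (Eventually.of_forall fun γ => ?_)
    rw [Pi.smul_apply, smul_eq_mul]
    simp [wL, wS, TwL]
  | cons v L ih =>
    rw [List.mem_cons, not_or] at hlL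
    have e1 : wL ψ (v :: L) l * e = ψ v (l : ZMod v) ^ 2 * (wL ψ L l * e) := by
      rw [wL_cons, mul_assoc, Int.cast_natCast]
    rw [e1] at hk'
    have hXt := h.datW_tail hX
    have hXt' := h.datW_tail hX'
    have hX1 := hX
    have hX1' := hX'
    rw [List.prod_cons, lvl1, wL_cons] at hX1 hX1'
    have h1 := tw_hk (h.pr v List.mem_cons_self) h.per hX1 hX1' hl hlL.1 hk'
    have h2 := ih h.tail (hXt.smul (ψ v (l : ZMod v))) hXt' hlL.2 (h1.trans
      (Eventually.of_forall fun γ => by rw [hk_smul]; rfl))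
    refine h2.trans (Eventually.of_forall fun γ => ?_)
    rw [TwL_smul, hk_smul, Pi.smul_apply, Pi.smul_apply, Pi.smul_apply, smul_eq_mul, smul_eq_mul,
      smul_eq_mul, wS_cons, Int.cast_natCast]
    change _ = _ * hk l e (TwL ψ L (Tw v (ψ v) X)) γ
    ring

theorem TwL_eq_zero [IsDomain E] [CharZero E] {L : List ℕ} {M : ℕ} (h : LD M L)
    {X : SL(2, ℤ) → E} (hX : DatW (M * L.prod) (wL ψ L) X)
    (hψ : ∀ v ∈ L, ψ v ≠ 1 → ∃ t : ZMod v, t ≠ 0 ∧ ψ v t ^ 2 ≠ 1)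
    (h0 : TwL ψ L X =ᶠ[deep] 0) : X =ᶠ[deep] 0 := by
  induction L generalizing M X with
  | nil => exact h0
  | cons v L ih =>
    have hXt := h.datW_tail hX
    have h1 := ih h.tail hXt (fun u hu => hψ u (List.mem_cons_of_mem v hu)) h0
    have hX1 := hX
    rw [List.prod_cons, lvl1, wL_cons] at hX1
    exact tw_eq_zero (h.pr v List.mem_cons_self) h.not_dvd h.per hX1
      (hψ v List.mem_cons_self) h1

end

end Fermat.Agent.OrdH
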