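import Fermat.Agent.OrdH.Tw2
import Fermat.Agent.TW.HL2

/-!
# Germs of elements of the lattices
-/

set_option autoImplicit false
set_option linter.unusedSectionVars false
set_option linter.style.haveILetI false

open Matrix.SpecialLinearGroup Filter
open scoped MatrixGroups TensorProduct
open Fermat.Agent.AL Fermat.Agent.ALCoh Fermat.Agent.TW Fermat.Agent.Twi Fermat.Agent.KumG
open ModularCurve ModularCurve.Period

namespace Fermat.Agent.OrdH

noncomputable section

section basic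

variable {E : Type*} [CommRing E] {N : ℕ} [NeZero N] {H : Subgroup (ZMod N)ˣ}
  [hH : Fact ((-1 : (ZMod N)ˣ) ∈ H)] {w : ℤ → E}

/-- elements of nebentypus `w` -/
def EigW (H : Subgroup (ZMod N)ˣ) [hH : Fact ((-1 : (ZMod N)ˣ) ∈ H)] (w : ℤ → E)
    (x : E ⊗[ℤ] KumG.LZ (GH N H)) : Prop :=
  ∀ u : (ZMod N)ˣ, (DH N H u).baseChange E x = w ((u : ZMod N).val : ℤ) • x

theorem Per.congr (hw : Per N w) {d d' : ℤ} (h : (d : ZMod N) = d') : w d = w d' := by
  rw [← sub_eq_zero, ← Int.cast_sub, ZMod.intCast_zmod_eq_zero_iff_dvd] at h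
  obtain ⟨k, hk⟩ := h
  have : d = d' + N * k := by linear_combination hk
  rw [this, hw.per]

theorem EigW.eq (hw : Per N w) {x : E ⊗[ℤ] KumG.LZ (GH N H)} (h : EigW H w x) {u : (ZMod N)ˣ}
    {d : ℤ} (hd : (u : ZMod N) = d) : (DH N H u).baseChange E x = w d • x := by
  rw [h u]
  congr 1
  refine hw.congr ?_
  rw [← hd]
  push_cast
  rw [ZMod.natCast_zmod_val]

theorem EigW.datW (hw : Per N w) {x : E ⊗[ℤ] KumG.LZ (GH N H)} (h : EigW H w x) :
    DatW N w (til (GH N H) x) := by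
  refine ⟨fun a b c d hdet => ?_⟩
  have hN : N ≠ 0 := NeZero.ne _
  let g : SL(2, ℤ) := ⟨!![a, b; (N : ℤ) * c, d], by rw [Matrix.det_fin_two_of]; exact hdet⟩
  have hg : g ∈ GG N := by
    rw [mem_Gamma0_iff]
    exact dvd_mul_right _ _
  obtain ⟨u, hu⟩ := isUnit_dd hg
  have h1 := h.eq hw (u := u) (d := d) hu
  rw [DH_eq hg hu.symm] at h1
  have h2 := til_op (O := E) (fam_diaH H hg) (deep_GH hN H) (deep_GH hN H) x
  change til (GH N H) ((opL (fam_diaH H hg)).baseChange E x) =ᶠ[deep] _ at h2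
  rw [h1] at h2
  filter_upwards [h2] with γ e
  rw [sum_unit_act, map_smul, Pi.smul_apply, smul_eq_mul] at e
  change act (til (GH N H) x) (g : M2) γ = _
  rw [← e]

/-- Hecke operators -/
theorem EigW.til_TH (hw : Per N w) {x : E ⊗[ℤ] KumG.LZ (GH N H)} (h : EigW H w x) {l : ℕ}
    (hl : l.Prime) (hlN : ¬ l ∣ N) :
    til (GH N H) ((TH N H hl hlN).baseChange E x) =ᶠ[deep] hk l (w l) (til (GH N H) x) := by
  have hN : N ≠ 0 := NeZero.ne _
  have hD := h.datW hw
  obtain ⟨g, hg⟩ := exists_adp hl hlN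
  rw [TH_eq hl hlN hg]
  have h2 := til_op (O := E) (fam_rT H hl hlN hg) (deep_GH hN H) (deep_GH hN H) x
  change til (GH N H) ((opL (fam_rT H hl hlN hg)).baseChange E x) =ᶠ[deep] _ at h2
  obtain ⟨c, hc⟩ := dvd_of_mem hg.mem
  have hl0 : (l : ℤ) ≠ 0 := by exact_mod_cast hl.ne_zero
  have hdl : (!![(l : ℤ), 0; 0, 1] : M2).det ≠ 0 := by
    rw [Matrix.det_fin_two_of]; simpa using hl0
  have hdet := g.det_coe
  rw [Matrix.det_fin_two, hc] at hdet
  have hgd : (!![g 0 0, g 0 1; (N : ℤ) * c, g 1 1] : M2).det ≠ 0 := by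
    rw [Matrix.det_fin_two_of, hdet]; exact one_ne_zero
  have h3 : act (til (GH N H) x) (rT l g none) =ᶠ[deep]
      fun γ => w (g 1 1) * act (til (GH N H) x) !![(l : ℤ), 0; 0, 1] γ := by
    have e1 : rT l g none = !![g 0 0, g 0 1; (N : ℤ) * c, g 1 1] * !![(l : ℤ), 0; 0, 1] := by
      rw [rT_none, ← hc]
      congr 1
      exact Matrix.eta_fin_two _
    rw [e1]
    exact (act_mul _ hgd hdl).trans (act_congr (hD.dia _ _ _ _ hdet) hdl)
  have hwl : w (g 1 1) = w l := hw.congr (by rw [Int.cast_natCast]; exact hg.dd)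
  filter_upwards [h2, h3] with γ e e'
  rw [e, Fintype.sum_option, e', hwl, add_comm, hk]
  congr 1
  refine Finset.sum_congr rfl fun j _ => ?_
  rw [rT_some]
  rfl

/-- Hecke operators -/
theorem til_TG (y : E ⊗[ℤ] KumG.LZ (GG N)) {l : ℕ} (hl : l.Prime) (hlN : ¬ l ∣ N) :
    til (GG N) ((TG hl hlN).baseChange E y) =ᶠ[deep] hk l 1 (til (GG N) y) := by
  have hN : N ≠ 0 := NeZero.ne _
  have h2 := til_op (O := E) (famT (N := N) hl hlN) (deep_GG hN) (deep_GG hN) y
  change til (GG N) ((TG hl hlN).baseChange E y) =ᶠ[deep] _ at h2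
  filter_upwards [h2] with γ e
  rw [e, Fintype.sum_option, add_comm, hk, one_mul]
  rfl

theorem til_resH (y : E ⊗[ℤ] KumG.LZ (GG N)) :
    til (GH N H) ((resH N H).baseChange E y) =ᶠ[deep] til (GG N) y :=
  til_sub (GH_le N H) (deep_GH (NeZero.ne _) _) y

/-- invariant functions come from level `Γ₀(N)` -/
theorem LatG.exists_GG {X : SL(2, ℤ) → E} (h : LatG N X) (hX : DatW N (fun _ => 1) X) :
    ∃ y : E ⊗[ℤ] KumG.LZ (GG N), til (GG N) y =ᶠ[deep]
      (Fintype.card (DG N (Subgroup.zpowers (-1))) : E) • X := by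
  obtain ⟨x, hx⟩ := h
  refine ⟨(trH N (Subgroup.zpowers (-1))).baseChange E x, ?_⟩
  have h1 : ∀ᶠ γ in deep, ∀ δ : DG N (Subgroup.zpowers (-1)),
      act (til _ x) (rD δ : M2) γ = X γ := by
    rw [Filter.eventually_all]
    intro δ
    have hdet : ((rD δ : SL(2, ℤ)) : M2).det ≠ 0 := by
      rw [(rD δ).det_coe]; exact one_ne_zero
    refine (act_congr hx hdet).trans ?_
    obtain ⟨c, hc⟩ := dvd_of_mem (rD_mem δ)
    have h2 := (rD δ).det_coe
    rw [Matrix.det_fin_two, hc] at h2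
    have h3 := hX.dia ((rD δ : M2) 0 0) ((rD δ : M2) 0 1) c ((rD δ : M2) 1 1) h2
    rw [← hc] at h3
    rw [← Matrix.eta_fin_two ((rD δ : SL(2, ℤ)) : M2)] at h3
    refine h3.trans (Eventually.of_forall fun γ => ?_)
    simp
  filter_upwards [h1, til_op (O := E) (famTrH (N := N) (H := Subgroup.zpowers (-1)))
    (deep_GH (NeZero.ne _) _) (deep_GG (NeZero.ne _)) x] with γ e1 e2
  change til _ ((trH N (Subgroup.zpowers (-1))).baseChange E x) γ = _ at e2
  rw [e2, Finset.sum_congr rfl fun δ _ => e1 δ, Finset.sum_const, Finset.card_univ, nsmul_eq_mul]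
  rfl

end basic

/-! ### the twisting relation -/

theorem wS_pow {E : Type*} [CommRing E] {L : List ℕ} {m : ℕ} {ψ : ∀ v : ℕ, MulChar (ZMod v) E}
    {d : ℤ} (hd : ∀ v ∈ L, IsUnit (d : ZMod v)) (h : ∀ v ∈ L, ψ v ^ m = 1) :
    wS ψ L d ^ m = 1 := by
  induction L with
  | nil => rw [wS, List.map_nil, List.prod_nil, one_pow]
  | cons v L ih =>
    rw [wS_cons, mul_pow, ih (fun u hu => hd u (List.mem_cons_of_mem v hu))
      (fun u hu => h u (List.mem_cons_of_mem v hu)), mul_one]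
    obtain ⟨a, ha⟩ := hd v List.mem_cons_self
    rw [← ha, ← MulChar.pow_apply_coe, h v List.mem_cons_self, MulChar.one_apply_coe]

section rel

variable {E : Type*} [Field E] [CharZero E] {M N N' : ℕ} {L : List ℕ}
  [NeZero N] [NeZero N'] {H : Subgroup (ZMod N)ˣ} [hH : Fact ((-1 : (ZMod N)ˣ) ∈ H)]

variable (E M L N N') in
/-- admissible characters -/
structure Adm (m : ℕ) (ψ : ∀ v : ℕ, MulChar (ZMod v) E) : Prop where
  ld : LD M L
  eN : N = M * L.prod
  eN' : N' = M * L.prod * L.prod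
  odd : Odd m
  pow : ∀ v ∈ L, ψ v ^ m = 1

variable {m : ℕ} {ψ : ∀ v : ℕ, MulChar (ZMod v) E}

theorem Adm.per (h : Adm E M N N' L m ψ) : Per N (wL ψ L) :=
  per_wL ψ fun _ hu => h.eN ▸ (List.dvd_prod hu).mul_left M

theorem DatW.cast {N N' : ℕ} (e : N = N') {w : ℤ → E} {X : SL(2, ℤ) → E} (h : DatW N w X) :
    DatW N' w X := e ▸ h

theorem LatG.cast {N N' : ℕ} (e : N = N') {X : SL(2, ℤ) → E} (h : LatG N X) :
    LatG N' X := e ▸ h

theorem Adm.datW (h : Adm E M N N' L m ψ) {x : E ⊗[ℤ] KumG.LZ (GH N H)}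
    (hx : EigW H (wL ψ L) x) : DatW (M * L.prod) (wL ψ L) (til _ x) :=
  (hx.datW h.per).cast h.eN

theorem Adm.ex (h : Adm E M N N' L m ψ) {v : ℕ} (hv : v ∈ L) (h1 : ψ v ≠ 1) :
    ∃ t : ZMod v, t ≠ 0 ∧ ψ v t ^ 2 ≠ 1 := by
  by_contra hcon
  push Not at hcon
  apply h1
  haveI := Fact.mk (h.ld.pr v hv)
  have h2 : ψ v ^ 2 = 1 := by
    refine MulChar.ext fun t => ?_
    rw [MulChar.pow_apply_coe, MulChar.one_apply_coe]
    exact hcon t t.ne_zero
  obtain ⟨k, hk⟩ := h.odd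
  have h3 := h.pow v hv
  rwa [hk, pow_succ, pow_mul, h2, one_pow, one_mul] at h3

variable (M N' L H) in
/-- the ring of pairs of operators compatible with twisting -/
def Rl (E : Type*) [Field E] [CharZero E] (m : ℕ) :
    Subring (Module.End ℤ (KumG.LZ (GG N')) ×
      Module.End ℤ (KumG.LZ (GH N H))) where
  carrier := {z | ∀ ψ : ∀ v : ℕ, MulChar (ZMod v) E, Adm E M N N' L m ψ →
    ∀ (x : E ⊗[ℤ] KumG.LZ (GH N H)) (y : E ⊗[ℤ] KumG.LZ (GG N')),
    EigW H (wL ψ L) x → til _ y =ᶠ[deep] TwL ψ L (til _ x) →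
    EigW H (wL ψ L) (z.2.baseChange E x) ∧
      til _ (z.1.baseChange E y) =ᶠ[deep] TwL ψ L (til _ (z.2.baseChange E x))}
  mul_mem' := by
    rintro a b ha hb ψ hψ x y hx hxy
    obtain ⟨h1, h2⟩ := hb ψ hψ x y hx hxy
    obtain ⟨h3, h4⟩ := ha ψ hψ _ _ h1 h2
    have e1 : (a * b).2.baseChange E x = a.2.baseChange E (b.2.baseChange E x) :=
      LinearMap.congr_fun (LinearMap.baseChange_comp (A := E) b.2 a.2) x
    have e2 : (a * b).1.baseChange E y = a.1.baseChange E (b.1.baseChange E y) :=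
      LinearMap.congr_fun (LinearMap.baseChange_comp (A := E) b.1 a.1) y
    rw [e1, e2]
    exact ⟨h3, h4⟩
  one_mem' := by
    rintro ψ hψ x y hx hxy
    have e1 : (1 : Module.End ℤ (KumG.LZ (GG N')) ×
      Module.End ℤ (KumG.LZ (GH N H))).2.baseChange E x = x :=
      LinearMap.congr_fun (LinearMap.baseChange_id (A := E)) x
    have e2 : (1 : Module.End ℤ (KumG.LZ (GG N')) ×
      Module.End ℤ (KumG.LZ (GH N H))).1.baseChange E y = y :=
      LinearMap.congr_fun (LinearMap.baseChange_id (A := E)) y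
    rw [e1, e2]
    exact ⟨hx, hxy⟩
  add_mem' := by
    rintro a b ha hb ψ hψ x y hx hxy
    obtain ⟨h1, h2⟩ := hb ψ hψ x y hx hxy
    obtain ⟨h3, h4⟩ := ha ψ hψ x y hx hxy
    have e1 : (a + b).2.baseChange E x = a.2.baseChange E x + b.2.baseChange E x := by
      rw [Prod.snd_add, LinearMap.baseChange_add]; rfl
    have e2 : (a + b).1.baseChange E y = a.1.baseChange E y + b.1.baseChange E y := by
      rw [Prod.fst_add, LinearMap.baseChange_add]; rfl
    rw [e1, e2]
    refine ⟨fun u => ?_, ?_⟩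
    · rw [map_add, h1 u, h3 u, smul_add]
    · rw [map_add, map_add, TwL_add]
      exact h4.add h2
  zero_mem' := by
    rintro ψ hψ x y hx hxy
    have e1 : (0 : Module.End ℤ (KumG.LZ (GG N')) ×
      Module.End ℤ (KumG.LZ (GH N H))).2.baseChange E x = 0 := by
      rw [Prod.snd_zero, LinearMap.baseChange_zero]; rfl
    have e2 : (0 : Module.End ℤ (KumG.LZ (GG N')) ×
      Module.End ℤ (KumG.LZ (GH N H))).1.baseChange E y = 0 := by
      rw [Prod.fst_zero, LinearMap.baseChange_zero]; rfl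
    rw [e1, e2]
    refine ⟨fun u => ?_, ?_⟩
    · rw [map_zero, smul_zero]
    · rw [map_zero, map_zero]
      have := TwL_smul ψ L (0 : E) 0
      rw [zero_smul, zero_smul] at this
      rw [this]
  neg_mem' := by
    rintro a ha ψ hψ x y hx hxy
    obtain ⟨h3, h4⟩ := ha ψ hψ x y hx hxy
    have e1 : (-a).2.baseChange E x = (-1 : E) • a.2.baseChange E x := by
      rw [Prod.snd_neg, LinearMap.baseChange_neg, LinearMap.neg_apply]
      exact (neg_one_smul E _).symm
    have e2 : (-a).1.baseChange E y = (-1 : E) • a.1.baseChange E y := by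
      rw [Prod.fst_neg, LinearMap.baseChange_neg, LinearMap.neg_apply]
      exact (neg_one_smul E _).symm
    rw [e1, e2]
    refine ⟨fun u => ?_, ?_⟩
    · rw [map_smul, h3 u, smul_comm]
    · rw [map_smul, map_smul, TwL_smul]
      filter_upwards [h4] with γ e
      rw [Pi.smul_apply, Pi.smul_apply, e]

/-- Hecke operators are compatible with twisting -/
theorem mem_Rl_T {m k : ℕ} (hm : m = 2 * k + 1) {l : ℕ} (hl : l.Prime)
    (hlN : ¬ l ∣ N) (hlN' : ¬ l ∣ N') {u : (ZMod N)ˣ}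
    (hu : (u : ZMod N) = l) :
    ((TG hl hlN', DH N H (u ^ k) * TH N H hl hlN) :
      Module.End ℤ (KumG.LZ (GG N')) ×
      Module.End ℤ (KumG.LZ (GH N H))) ∈ Rl M N' L H E m := by
  rintro ψ hψ x y hx hxy
  have hper := hψ.per
  have hlL : l ∉ L := fun h => hlN (hψ.eN ▸ (List.dvd_prod h).mul_left M)
  have hT : EigW H (wL ψ L) ((TH N H hl hlN).baseChange E x) := by
    intro d
    have h1 : (DH N H d).baseChange E ((TH N H hl hlN).baseChange E x) =
        (TH N H hl hlN).baseChange E ((DH N H d).baseChange E x) := by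
      have e1 := LinearMap.baseChange_comp (A := E) (TH N H hl hlN) (DH N H d)
      have e2 := LinearMap.baseChange_comp (A := E) (DH N H d) (TH N H hl hlN)
      have e3 : DH N H d ∘ₗ TH N H hl hlN =
          TH N H hl hlN ∘ₗ DH N H d := DH_TH_comm d hl hlN
      rw [e3, e2] at e1
      exact LinearMap.congr_fun e1.symm x
    rw [h1, hx d, map_smul]
  have hc : ∀ v ∈ L, IsUnit ((l : ℤ) : ZMod v) := fun v hv => by
    rw [ZMod.coe_int_isUnit_iff_isCoprime]
    exact (isCoprime_of_prime hl (hψ.ld.pr v hv) (fun h => hlL (h ▸ hv))).symm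
  have hDw : ∀ z, EigW H (wL ψ L) z → (DH N H (u ^ k)).baseChange E z =
      wL ψ L ((l : ℤ) ^ k) • z := fun z hz => hz.eq hper (by push_cast; rw [hu])
  have hwk : wL ψ L ((l : ℤ) ^ k) * wS ψ L l = 1 := by
    have e1 : ∀ (L : List ℕ) (d : ℤ), wL ψ L (d ^ k) = wS ψ L d ^ (2 * k) := by
      intro L d
      induction L with
      | nil => simp [wL, wS]
      | cons v L ih =>
        rw [wL_cons, wS_cons, mul_pow]
        simp only
        rw [ih]
        push_cast
        rw [map_pow, ← pow_mul, mul_comm k 2]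
    rw [e1, ← pow_succ, ← hm]
    exact wS_pow hc hψ.pow
  have e1 : ((TG hl hlN', DH N H (u ^ k) * TH N H hl hlN) :
      Module.End ℤ (KumG.LZ (GG N')) ×
      Module.End ℤ (KumG.LZ (GH N H))).2.baseChange E x =
      wL ψ L ((l : ℤ) ^ k) • (TH N H hl hlN).baseChange E x := by
    rw [← hDw _ hT]
    exact LinearMap.congr_fun (LinearMap.baseChange_comp (A := E) _ _) x
  rw [e1]
  refine ⟨fun d => ?_, ?_⟩
  · rw [map_smul, hT d, smul_comm]
  · have h2 := TwL_hk (ψ := ψ) hψ.ld (hψ.datW hx) (hψ.datW hT) hl hlL (e := 1)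
      ((hx.til_TH hper hl hlN).trans (Eventually.of_forall fun γ => by rw [mul_one]))
    have h3 : hk l 1 (til _ y) =ᶠ[deep] hk l 1 (TwL ψ L (til _ x)) := by
      have hl0 : (l : ℤ) ≠ 0 := by exact_mod_cast hl.ne_zero
      have hdj : ∀ j : Fin l, (!![1, ((j : ℕ) : ℤ); 0, (l : ℤ)] : M2).det ≠ 0 := fun j => by
        rw [Matrix.det_fin_two_of]; simpa using hl0
      have hdl : (!![(l : ℤ), 0; 0, 1] : M2).det ≠ 0 := by
        rw [Matrix.det_fin_two_of]; simpa using hl0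
      have h4 : ∀ᶠ γ in deep, ∀ j : Fin l, act (til _ y) !![1, ((j : ℕ) : ℤ); 0, (l : ℤ)] γ =
          act (TwL ψ L (til _ x)) !![1, ((j : ℕ) : ℤ); 0, (l : ℤ)] γ := by
        rw [Filter.eventually_all]
        exact fun j => act_congr hxy (hdj j)
      filter_upwards [h4, act_congr hxy hdl] with γ e2 e3
      simp only [hk, e2, e3]
    rw [map_smul, TwL_smul]
    filter_upwards [til_TG y hl hlN', h2, h3] with γ e2 e3 e4
    rw [e2, e4, Pi.smul_apply, e3, Pi.smul_apply, smul_smul, hwk, one_smul]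

end rel

end

end Fermat.Agent.OrdH
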