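import Fermat.Agent.OrdH.Tw3
import Mathlib.LinearAlgebra.Eigenspace.Pi
import Mathlib.LinearAlgebra.Eigenspace.Semisimple

/-!
# The twist theorem
-/

set_option autoImplicit false
set_option linter.unusedSectionVars false
set_option linter.style.haveILetI false

open Matrix.SpecialLinearGroup Filter
open scoped MatrixGroups TensorProduct
open Fermat.Agent.AL Fermat.Agent.ALCoh Fermat.Agent.TW Fermat.Agent.Twi Fermat.Agent.KumG
open ModularCurve ModularCurve.Period

namespace Fermat.Agent.OrdH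

noncomputable section

/-! ### splitting units -/

section split

variable {v n : ℕ} [NeZero v]

/-- the splitting -/
def sV (e : ZMod n) (he : e * e = e) (hv : (v : ZMod n) * e = 0) :
    ZMod v →* ZMod n where
  toFun a := 1 + e * ((a.val : ZMod n) - 1)
  map_one' := by
    have h1 : (v : ZMod n) * e = 0 := hv
    have h2 : e * (((1 : ZMod v).val : ZMod n) - 1) = 0 := by
      rcases eq_or_ne v 1 with h | h
      · subst h
        rw [Nat.cast_one, one_mul] at h1
        rw [h1, zero_mul]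
      · haveI : Fact (1 < v) := ⟨by have := NeZero.ne v; omega⟩
        rw [ZMod.val_one, Nat.cast_one, sub_self, mul_zero]
    rw [h2, add_zero]
  map_mul' a b := by
    obtain ⟨k, hk⟩ : ∃ k, a.val * b.val = (a * b).val + v * k := by
      refine ⟨a.val * b.val / v, ?_⟩
      rw [ZMod.val_mul]
      exact (Nat.mod_add_div _ _).symm
    have h1 : (a.val : ZMod n) * (b.val : ZMod n) = ((a * b).val : ZMod n) + v * k := by
      exact_mod_cast congrArg (Nat.cast : ℕ → ZMod n) hk
    linear_combination (-(e : ZMod n)) * h1 - (k : ZMod n) * hv -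
      ((a.val : ZMod n) - 1) * ((b.val : ZMod n) - 1) * he

theorem sV_apply (e : ZMod n) (he : e * e = e) (hv : (v : ZMod n) * e = 0) (a : ZMod v) :
    sV e he hv a = 1 + e * ((a.val : ZMod n) - 1) := rfl

theorem sV_cast {u : ℕ} {hun : u ∣ n} (e : ZMod n) (he : e * e = e) (hv : (v : ZMod n) * e = 0)
    (h : ZMod.castHom hun (ZMod u) e = 0) (a : ZMod v) :
    ZMod.castHom hun (ZMod u) (sV e he hv a) = 1 := by
  rw [sV_apply, map_add, map_mul, h, zero_mul, add_zero, map_one]

theorem sV_cast_self {hvn : v ∣ n} (e : ZMod n) (he : e * e = e) (hv : (v : ZMod n) * e = 0)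
    (h : ZMod.castHom hvn (ZMod v) e = 1) (a : ZMod v) :
    ZMod.castHom hvn (ZMod v) (sV e he hv a) = a := by
  rw [sV_apply, map_add, map_mul, h, map_sub, map_one, map_natCast, one_mul, ZMod.natCast_zmod_val]
  ring

/-- idempotents -/
theorem exists_idem {v c : ℕ} (h : v.Coprime c) : ∃ e : ZMod (v * c),
    e * e = e ∧ (v : ZMod (v * c)) * e = 0 ∧
    ZMod.castHom (dvd_mul_right v c) (ZMod v) e = 1 ∧
    ∀ (u : ℕ) (hu : u ∣ v * c), u ∣ c → ZMod.castHom hu (ZMod u) e = 0 := by
  obtain ⟨a, b, hab⟩ := Nat.isCoprime_iff_coprime.2 h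
  refine ⟨((b * c : ℤ) : ZMod (v * c)), ?_, ?_, ?_, ?_⟩
  · rw [← sub_eq_zero, ← Int.cast_mul, ← Int.cast_sub, ZMod.intCast_zmod_eq_zero_iff_dvd]
    refine ⟨-(a * b), ?_⟩
    push_cast
    linear_combination (b * c : ℤ) * hab
  · rw [← Int.cast_natCast (R := ZMod (v * c)) v, ← Int.cast_mul, ZMod.intCast_zmod_eq_zero_iff_dvd]
    exact ⟨b, by push_cast; ring⟩
  · rw [map_intCast, ← Int.cast_one, ← sub_eq_zero, ← Int.cast_sub,
      ZMod.intCast_zmod_eq_zero_iff_dvd]
    exact ⟨-a, by linear_combination hab⟩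
  · intro u hu huc
    rw [map_intCast, ZMod.intCast_zmod_eq_zero_iff_dvd]
    exact (Int.natCast_dvd_natCast.2 huc).mul_left b

theorem exists_sV {v n : ℕ} (hvp : v.Prime) (hn : v ∣ n) (hcop : ∀ c, n = v * c → v.Coprime c) :
    ∃ s : (ZMod v)ˣ →* (ZMod n)ˣ,
      (∀ (h : v ∣ n) (a : (ZMod v)ˣ), ZMod.castHom h (ZMod v) (s a : ZMod n) = a) ∧
      ∀ u : ℕ, u.Coprime v → ∀ (hu : u ∣ n) (a : (ZMod v)ˣ),
        ZMod.castHom hu (ZMod u) (s a : ZMod n) = 1 := by
  haveI : NeZero v := ⟨hvp.ne_zero⟩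
  obtain ⟨c, rfl⟩ := hn
  obtain ⟨e, he, hve, h2, h3⟩ := exists_idem (hcop c rfl)
  refine ⟨Units.map (sV e he hve), fun _ a => ?_, fun u huv hun a => ?_⟩
  · exact sV_cast_self e he hve h2 a
  · exact sV_cast e he hve (h3 u hun (huv.dvd_of_dvd_mul_left hun)) a

end split

/-! ### characters -/

section chars

variable {E : Type*} [Field E] {M : ℕ} {L : List ℕ}

/-- square roots of characters of conductor dividing `∏ L` -/
theorem exists_psi (hL : LD M L) {k : ℕ} (χ : (ZMod (M * L.prod))ˣ →* Eˣ)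
    (hχ : ∀ u : (ZMod (M * L.prod))ˣ, (∀ v ∈ L, ∀ hv : v ∣ M * L.prod, ZMod.castHom hv (ZMod v) (u : ZMod (M * L.prod)) = 1) →
      χ u = 1) (hk : ∀ u, χ u ^ (2 * k + 1) = 1) :
    ∃ ψ : ∀ v : ℕ, MulChar (ZMod v) E, (∀ v, ψ v ^ (2 * k + 1) = 1) ∧
      ∀ u : (ZMod (M * L.prod))ˣ, wL ψ L ((u : ZMod (M * L.prod)).val : ℤ) = χ u := by
  classical
  haveI hN : NeZero (M * L.prod) := ⟨mul_ne_zero hL.ne hL.prod_ne⟩
  have hdvd : ∀ v ∈ L, v ∣ M * L.prod := fun v hv => (List.dvd_prod hv).mul_left M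
  -- the local homomorphisms
  have h1 : ∀ v : ℕ, ∃ s : (ZMod v)ˣ →* (ZMod (M * L.prod))ˣ, ∀ h : v ∈ L,
      (∀ a, ZMod.castHom (hdvd v h) (ZMod v) (s a : ZMod (M * L.prod)) = a) ∧
      ∀ u ∈ L, u ≠ v → ∀ hu : u ∣ M * L.prod, ∀ a,
        ZMod.castHom hu (ZMod u) (s a : ZMod (M * L.prod)) = 1 := by
    intro v
    by_cases hv : v ∈ L
    · have hvp := hL.pr v hv
      obtain ⟨s, hs1, hs2⟩ := exists_sV hvp (hdvd v hv) (fun c hc => by
        rw [hvp.coprime_iff_not_dvd]
        intro hvc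
        have h2 : v * v ∣ M * L.prod := by rw [hc]; exact mul_dvd_mul_left v hvc
        have h3 : v * v ∣ L.prod := by
          have h4 : (v * v).Coprime M := by
            have := (hvp.coprime_iff_not_dvd).2 (hL.co v hv)
            exact Nat.Coprime.mul_left this this
          exact h4.dvd_of_dvd_mul_left h2
        have h5 : (v :: L.erase v).Perm L := (List.perm_cons_erase hv).symm
        rw [← h5.prod_eq, List.prod_cons] at h3
        have h6 := Nat.dvd_of_mul_dvd_mul_left hvp.pos h3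
        obtain ⟨u, hu, h7⟩ := (hvp.prime.dvd_prod_iff).1 h6
        have huL := List.mem_of_mem_erase hu
        have := (Nat.prime_dvd_prime_iff_eq hvp (hL.pr u huL)).1 h7
        subst this
        exact (List.Nodup.not_mem_erase hL.nd) hu)
      exact ⟨s, fun _ => ⟨hs1 _, fun u hu huv hun a =>
        hs2 u ((Nat.coprime_primes (hL.pr u hu) hvp).2 huv) hun a⟩⟩
    · exact ⟨1, fun h => absurd h hv⟩
  choose s hs using h1
  -- the product formula
  have h2 : ∀ (u : (ZMod (M * L.prod))ˣ),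
      χ u = (L.map fun v => if hv : v ∣ M * L.prod then χ (s v (ZMod.unitsMap hv u)) else 1).prod := by
    intro u
    have h3 : χ u = χ (L.map fun v => if hv : v ∣ M * L.prod then
        s v (ZMod.unitsMap hv u) else 1).prod := by
      rw [← mul_inv_eq_one, ← map_inv, ← map_mul]
      refine hχ _ fun v hv hvN => ?_
      have h4 : ZMod.unitsMap hvN (L.map fun v => if hv : v ∣ M * L.prod then
          s v (ZMod.unitsMap hv u) else 1).prod = ZMod.unitsMap hvN u := by
        rw [map_list_prod, List.map_map]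
        have h5 : ∀ w ∈ L, (⇑(ZMod.unitsMap hvN) ∘ fun v => if hv : v ∣ M * L.prod then
          s v (ZMod.unitsMap hv u) else 1) w = if w = v then ZMod.unitsMap hvN u else 1 := by
          intro w hw
          simp only [Function.comp_apply, dif_pos (hdvd w hw)]
          split_ifs with h6
          · subst h6
            refine Units.ext ?_
            exact (hs w hw).1 _
          · refine Units.ext ?_
            rw [Units.val_one]
            exact (hs w hw).2 v hv (fun h => h6 h.symm) hvN _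
        rw [List.map_congr_left h5]
        rw [List.prod_map_ite_eq, hL.nd.count, if_pos hv, pow_one, List.prod_map_one]
        simp
      have h6 : ZMod.unitsMap hvN (u * (L.map fun v => if hv : v ∣ M * L.prod then
          s v (ZMod.unitsMap hv u) else 1).prod⁻¹) = 1 := by
        rw [map_mul, map_inv, h4, mul_inv_cancel]
      exact congrArg Units.val h6
    rw [h3, map_list_prod, List.map_map]
    congr 1
    refine List.map_congr_left fun v hv => ?_
    simp only [Function.comp_apply, dif_pos (hdvd v hv)]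
  refine ⟨fun v => MulChar.ofUnitHom ((χ.comp (s v)) ^ (k + 1)), fun v => ?_, fun u => ?_⟩
  · refine MulChar.ext fun t => ?_
    rw [MulChar.pow_apply_coe, MulChar.ofUnitHom_coe, MulChar.one_apply_coe, MonoidHom.pow_apply,
      MonoidHom.comp_apply, ← Units.val_pow_eq_pow_val, ← pow_mul, mul_comm (k + 1), pow_mul, hk,
      one_pow, Units.val_one]
  · rw [h2 u, wL]
    have h3 : ((L.map fun v => if hv : v ∣ M * L.prod then
        χ (s v (ZMod.unitsMap hv u)) else 1).prod : E) =
        (L.map fun v => ((if hv : v ∣ M * L.prod then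
        χ (s v (ZMod.unitsMap hv u)) else 1 : Eˣ) : E)).prod := by
      rw [← Units.coeHom_apply, map_list_prod, List.map_map]; rfl
    rw [h3]
    congr 1
    refine List.map_congr_left fun v hv => ?_
    rw [dif_pos (hdvd v hv)]
    have h4 : ((((u : ZMod (M * L.prod)).val : ℤ)) : ZMod v) =
        (ZMod.unitsMap (hdvd v hv) u : (ZMod v)ˣ) := by
      change _ = ZMod.castHom (hdvd v hv) (ZMod v) (u : ZMod (M * L.prod))
      conv_rhs => rw [← ZMod.natCast_zmod_val (u : ZMod (M * L.prod)), map_natCast]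
      push_cast
      rfl
    rw [h4, MulChar.ofUnitHom_coe, MonoidHom.pow_apply, MonoidHom.comp_apply,
      ← Units.val_pow_eq_pow_val, ← pow_mul]
    congr 1
    have h5 : (k + 1) * 2 = (2 * k + 1) + 1 := by ring
    rw [h5, pow_succ, hk, one_mul]

end chars

/-! ### the twist theorem -/

section main

variable {E : Type*} [Field E] [CharZero E] [IsAlgClosed E] {M N N' : ℕ} {L : List ℕ}
  [NeZero N] [NeZero N'] {H : Subgroup (ZMod N)ˣ} [hH : Fact ((-1 : (ZMod N)ˣ) ∈ H)]

instance finE : FiniteDimensional E (E ⊗[ℤ] KumG.LZ (GH N H)) := by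
  haveI : (GH N H).FiniteIndex := inferInstance
  haveI : Module.Finite ℤ (KumG.LZ (GH N H)) := inferInstance
  infer_instance

theorem DH_bc_mul {N : ℕ} [NeZero N] {H : Subgroup (ZMod N)ˣ} [hH : Fact ((-1 : (ZMod N)ˣ) ∈ H)]
    (a b : (ZMod N)ˣ) : (DH N H (a * b)).baseChange E =
      (DH N H a).baseChange E * (DH N H b).baseChange E := by
  rw [DH_mul]
  exact LinearMap.baseChange_comp _ _

theorem DH_bc_one {N : ℕ} [NeZero N] {H : Subgroup (ZMod N)ˣ} [hH : Fact ((-1 : (ZMod N)ˣ) ∈ H)] :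
    (DH N H 1).baseChange E = 1 := by
  rw [DH_one]
  exact LinearMap.baseChange_id

theorem DH_bc_pow {N : ℕ} [NeZero N] {H : Subgroup (ZMod N)ˣ} [hH : Fact ((-1 : (ZMod N)ˣ) ∈ H)]
    (a : (ZMod N)ˣ) (n : ℕ) : (DH N H (a ^ n)).baseChange E = (DH N H a).baseChange E ^ n := by
  induction n with
  | zero => rw [pow_zero, pow_zero, DH_bc_one]
  | succ n ih => rw [pow_succ, pow_succ, DH_bc_mul, ih]

theorem iSup_eig : ⨆ χ : (ZMod N)ˣ → E, ⨅ u,
    Module.End.eigenspace ((DH N H u).baseChange E) (χ u) = ⊤ := by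
  have h1 : ∀ u, Module.End.IsSemisimple ((DH N H u).baseChange E) := by
    intro u
    have h2 : (DH N H u).baseChange E ^ Fintype.card (ZMod N)ˣ = 1 := by
      rw [← DH_bc_pow, pow_card_eq_one, DH_bc_one]
    refine Module.End.isSemisimple_of_squarefree_aeval_eq_zero
      (p := Polynomial.X ^ Fintype.card (ZMod N)ˣ - 1) ?_ ?_
    · refine Polynomial.Separable.squarefree ?_
      rw [Polynomial.X_pow_sub_one_separable_iff]
      exact Nat.cast_ne_zero.2 Fintype.card_ne_zero
    · rw [map_sub, map_pow, Polynomial.aeval_X, h2, map_one, sub_self]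
  have h3 := Module.End.iSup_iInf_maxGenEigenspace_eq_top_of_iSup_maxGenEigenspace_eq_top_of_commute
    (fun u : (ZMod N)ˣ => (DH N H u).baseChange E) (fun a b _ => by
      change _ * _ = _ * _
      rw [← DH_bc_mul, ← DH_bc_mul, mul_comm a b])
    (fun u => Module.End.iSup_maxGenEigenspace_eq_top _)
  rw [← h3]
  refine iSup_congr fun χ => iInf_congr fun u => ?_
  exact ((h1 u).isFinitelySemisimple.maxGenEigenspace_eq_eigenspace _).symm

theorem tmul_injective {Γ : Subgroup SL(2, ℤ)} {φ : KumG.LZ Γ}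
    (h : (1 : E) ⊗ₜ[ℤ] φ = 0) : φ = 0 := by
  apply Subtype.ext
  refine AddMonoidHom.ext fun γ => ?_
  obtain ⟨γ, rfl⟩ := Additive.ofMul.surjective γ
  have h1 := til_tmul (Γ := Γ) (1 : E) φ γ
  rw [h, map_zero, Pi.zero_apply, one_mul, ext0_of_mem _ γ.2, eq_comm, Int.cast_eq_zero] at h1
  exact h1

/-- elements of admissible nebentypus -/
theorem eig_zero {m : ℕ} {B : Module.End ℤ (KumG.LZ (GH N H))}
    (hB : ((0, B) : Module.End ℤ (KumG.LZ (GG N')) ×
      Module.End ℤ (KumG.LZ (GH N H))) ∈ Rl M N' L H E m)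
    {ψ : ∀ v : ℕ, MulChar (ZMod v) E} (hψ : Adm E M N N' L m ψ)
    {x : E ⊗[ℤ] KumG.LZ (GH N H)} (hx : EigW H (wL ψ L) x) :
    B.baseChange E x = 0 := by
  have hD := hψ.datW hx
  obtain ⟨y, hy⟩ := ((TwL_lat hψ.ld ((latG_til (NeZero.ne _) hH.out x).cast hψ.eN)).cast
    hψ.eN'.symm).exists_GG ((TwL_datW hψ.ld hD).cast hψ.eN'.symm)
  set c : E := (Fintype.card (DG N' (Subgroup.zpowers (-1))) : E) with hc
  have hc0 : c ≠ 0 := Nat.cast_ne_zero.2 Fintype.card_ne_zero
  have hx' : EigW H (wL ψ L) (c • x) := fun u => by rw [map_smul, hx u, smul_comm]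
  have hy' : til _ y =ᶠ[deep] TwL ψ L (til _ (c • x)) := by
    rw [map_smul, TwL_smul]
    exact hy
  obtain ⟨h1, h2⟩ := hB ψ hψ (c • x) y hx' hy'
  have e1 : ((0, B) : Module.End ℤ (KumG.LZ (GG N')) ×
      Module.End ℤ (KumG.LZ (GH N H))).1.baseChange E y = 0 := by
    change (0 : Module.End ℤ (KumG.LZ (GG N'))).baseChange E y = 0
    rw [LinearMap.baseChange_zero]; rfl
  rw [e1, map_zero] at h2
  have h3 := TwL_eq_zero hψ.ld (hψ.datW h1) (fun v hv h => hψ.ex hv h) h2.symm
  have h4 := eq_zero_of_til h3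
  change B.baseChange E (c • x) = 0 at h4
  rw [map_smul, smul_eq_zero] at h4
  exact h4.resolve_left hc0

/-- **the twist theorem** -/
theorem eq_zero_of_Rl (hL : LD M L) (eN : N = M * L.prod) (eN' : N' = M * L.prod * L.prod)
    (hker : ∀ u : (ZMod N)ˣ, (∀ v ∈ L, ∀ hv : v ∣ N,
      ZMod.castHom hv (ZMod v) (u : ZMod N) = 1) → u ∈ H) {k : ℕ}
    (hk : Fintype.card (DG N H) = 2 * k + 1)
    {B : Module.End ℤ (KumG.LZ (GH N H))}
    (hB : ((0, B) : Module.End ℤ (KumG.LZ (GG N')) ×
      Module.End ℤ (KumG.LZ (GH N H))) ∈ Rl M N' L H E (2 * k + 1)) : B = 0 := by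
  have key : B.baseChange E = 0 := by
    subst eN
    rw [← LinearMap.ker_eq_top, ← top_le_iff, ← iSup_eig (E := E) (H := H), iSup_le_iff]
    intro χ x hx
    rw [LinearMap.mem_ker]
    rcases eq_or_ne x 0 with h0 | h0
    · rw [h0, map_zero]
    have hx1 : ∀ u, (DH _ H u).baseChange E x = χ u • x := fun u => by
      have := (Submodule.mem_iInf _).1 hx u
      exact Module.End.mem_eigenspace_iff.1 this
    have hinj : ∀ {a b : E}, a • x = b • x → a = b := fun h => smul_left_injective E h0 h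
    have hχm : ∀ a b, χ (a * b) = χ a * χ b := fun a b => hinj (by
      rw [← hx1, DH_bc_mul, Module.End.mul_apply, hx1, map_smul, hx1, smul_smul, mul_comm (χ b)])
    have hχH : ∀ a ∈ H, χ a = 1 := fun a ha => hinj (by
      rw [← hx1, DH_of_mem ha, one_smul]
      exact LinearMap.congr_fun LinearMap.baseChange_id x)
    have hχ1 : χ 1 = 1 := hχH 1 (one_mem _)
    let χ' : (ZMod (M * L.prod))ˣ →* Eˣ := MonoidHom.toHomUnits
      { toFun := χ, map_one' := hχ1, map_mul' := hχm }
    have hχ' : ∀ u, (χ' u : E) = χ u := fun u => rfl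
    obtain ⟨ψ, hψ, hψ'⟩ := exists_psi hL (k := k) χ' (fun u hu => by
      apply Units.ext
      rw [hχ', hχH u (hker u hu), Units.val_one]) (fun u => by
      rw [← map_pow]
      apply Units.ext
      rw [hχ', hχH, Units.val_one]
      have h1 : (QuotientGroup.mk (u ^ (2 * k + 1)) : DG (M * L.prod) H) = 1 := by
        rw [QuotientGroup.mk_pow, ← hk, pow_card_eq_one]
      exact (QuotientGroup.eq_one_iff _).1 h1)
    refine eig_zero hB (ψ := ψ) ⟨hL, rfl, eN', ⟨k, rfl⟩, fun v _ => hψ v⟩ (fun u => ?_)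
    rw [hx1, hψ', hχ']
  refine LinearMap.ext fun φ => tmul_injective (E := E) ?_
  rw [← LinearMap.baseChange_tmul, key]
  rfl

end main

end

end Fermat.Agent.OrdH
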