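import Fermat.Agent.OrdH.UDef

/-!
# The operator `U_q` is compatible with twisting
-/

set_option autoImplicit false
set_option linter.unusedSectionVars false
set_option linter.style.haveILetI false

open Matrix.SpecialLinearGroup Filter
open scoped MatrixGroups TensorProduct
open Fermat.Agent.AL Fermat.Agent.ALCoh Fermat.Agent.TW Fermat.Agent.Twi Fermat.Agent.KumG
open Fermat.Agent.Cov Fermat.Agent.GamH Fermat.Agent.SSH Fermat.Agent.S59e
open ModularCurve ModularCurve.Period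

namespace Fermat.Agent.OrdH

noncomputable section

section UG

variable {E : Type*} [CommRing E] {N q : ℕ} [NeZero N]

/-- the operator `U_q` on the lattice of level `Γ₀(N)` -/
def UG (hq : q.Prime) (hqN : q ∣ N) : Module.End ℤ (KumG.LZ (GG N)) := opLL (famU hq hqN)

theorem til_UG (y : E ⊗[ℤ] KumG.LZ (GG N)) (hq : q.Prime) (hqN : q ∣ N) :
    til (GG N) ((UG hq hqN).baseChange E y) =ᶠ[deep] hk q 0 (til (GG N) y) := by
  have hN : N ≠ 0 := NeZero.ne _
  have h2 := til_op (O := E) (famU (N := N) hq hqN) (deep_GG hN) (deep_GG hN) y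
  change til (GG N) ((UG hq hqN).baseChange E y) =ᶠ[deep] _ at h2
  filter_upwards [h2] with γ e
  rw [e, hk, zero_mul, add_zero]
  rfl

/-- `hk` and eventual equality -/
theorem hk_congr {l : ℕ} (hl : l ≠ 0) (e : E) {X X' : SL(2, ℤ) → E} (h : X =ᶠ[deep] X') :
    hk l e X =ᶠ[deep] hk l e X' := by
  have hl0 : (l : ℤ) ≠ 0 := by exact_mod_cast hl
  have hdj : ∀ j : Fin l, (!![1, ((j : ℕ) : ℤ); 0, (l : ℤ)] : M2).det ≠ 0 := fun j => by
    rw [Matrix.det_fin_two_of]; simpa using hl0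
  have hdl : (!![(l : ℤ), 0; 0, 1] : M2).det ≠ 0 := by
    rw [Matrix.det_fin_two_of]; simpa using hl0
  have h4 : ∀ᶠ γ in deep, ∀ j : Fin l, act X !![1, ((j : ℕ) : ℤ); 0, (l : ℤ)] γ =
      act X' !![1, ((j : ℕ) : ℤ); 0, (l : ℤ)] γ := by
    rw [Filter.eventually_all]
    exact fun j => act_congr h (hdj j)
  filter_upwards [h4, act_congr h hdl] with γ e2 e3
  simp only [hk, e2, e3]

end UG

section UHs

variable {E : Type*} [CommRing E] {q M : ℕ} [hq : Fact q.Prime] [NeZero M]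
  {H : Subgroup (ZMod M)ˣ} [hH : Fact ((-1 : (ZMod M)ˣ) ∈ H)]

theorem UH_DH (D : WData q M H) (hqM : ¬ q ∣ M) (d : (ZMod (q * M))ˣ)
    (x : KumG.LZ (GH (q * M) (HM (dvd_mul_left M q) H))) :
    UH D (DH (q * M) (HM (dvd_mul_left M q) H) d x) =
      DH (q * M) (HM (dvd_mul_left M q) H) d (UH D x) := by
  change resQ q M H (SSH.trL (WH D _)) - WH D _ = DH _ _ d (resQ q M H (SSH.trL (WH D x)) - WH D x)
  rw [map_sub, WH_DH, trL_DH hqM D, resQ_DH]

theorem sQ_mul_s2 (D : WData q M H) : sQ D.h * s2 D = gQ D.h := by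
  have h1 : ((sQ D.h * s2 D : SL(2, ℤ)) : M2) = (gQ D.h : M2) := by
    rw [Matrix.SpecialLinearGroup.coe_mul]
    change !![D.x, D.y; (M : ℤ), q * D.v] * !![q * D.x, D.y; (M : ℤ), D.v] =
      !![q * D.x ^ 2 + D.y * M, D.y * (D.x + D.v); q * M * (D.x + D.v), M * D.y + q * D.v ^ 2]
    rw [Matrix.mul_fin_two]
    refine m2_ext ?_ ?_ ?_ ?_ <;> ring
  exact Subtype.ext h1

theorem trL_eq_opLL (D : WData q M H) (hqM : ¬ q ∣ M) :
    (SSH.trL : KumG.LZ (Gq q M H) →ₗ[ℤ] KumG.LZ (GH M H)) =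
      opLL (famTrG (isRepsG_rQ (H := H) D.h hqM (inv_mem (exists_γ0 D).choose_spec.1)
        γ0_inv_mul)) := by
  refine LinearMap.ext fun φ => Subtype.ext ?_
  rw [SSH.trL_coe, opLL_coe, trG_eq Gq_le (isRepsG_rQ (H := H) D.h hqM
    (inv_mem (exists_γ0 D).choose_spec.1) γ0_inv_mul)]

/-- the matrix comparing the Atkin-Lehner involution with `U_q` -/
theorem exists_C (D : WData q M H) : ∃ C ∈ GG (q * M),
    (∃ u ∈ H, dd M C = ((u : (ZMod M)ˣ) : ZMod M) * (D.v : ZMod M)) ∧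
    ∀ b : Fin q, D.W * (rQ (q := q) D.h (exists_γ0 D).choose⁻¹ (some b) : M2) =
      (C : M2) * dl q (some b) := by
  have hg := inv_mem (exists_γ0 D).choose_spec.1
  set g := (exists_γ0 D).choose⁻¹ with hgdef
  have hgs : g * sQ D.h ∈ GH M H := γ0_inv_mul
  have hsM : sQ D.h ∈ GG M := sQ_mem D.h
  have hgM : g ∈ GG M := Gamma0_le (dvd_mul_left M q) hg
  obtain ⟨δ, hδ, h2, h3⟩ := WQ_conj hq.out.ne_zero D.h hg
  have hδM : δ ∈ GG M := Gamma0_le (dvd_mul_left M q) hδ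
  refine ⟨δ * gQ D.h, mul_mem hδ (gQ_mem0 D.h), ?_, fun b => ?_⟩
  · have h4 : dd M (g * sQ D.h) = dd M g * dd M (sQ D.h) := dd_mul hgM hsM
    obtain ⟨u, hu, hu'⟩ := (mem_GH_dd (mul_mem hgM hsM)).1 hgs
    refine ⟨u, hu, ?_⟩
    rw [dd_mul hδM (Gamma0_le (dvd_mul_left M q) (gQ_mem0 D.h)), h3, dd_gQ, ← hu', h4, dd_sQ]
    push_cast
    ring
  · change D.W * ((g * sQ D.h * ModularGroup.T ^ (b : ℕ) : SL(2, ℤ)) : M2) = _
    rw [← sQ_mul_s2, mul_assoc, Matrix.SpecialLinearGroup.coe_mul g, ← Matrix.mul_assoc, h2,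
      Matrix.mul_assoc, ← sQ_mul_dg D.h]
    change (δ : M2) * ((sQ D.h : M2) * dl q none *
      ((sQ D.h * ModularGroup.T ^ (b : ℕ) : SL(2, ℤ)) : M2)) = _
    rw [Matrix.mul_assoc, dl_mul_sQ, Matrix.SpecialLinearGroup.coe_mul,
      Matrix.SpecialLinearGroup.coe_mul, Matrix.mul_assoc, Matrix.mul_assoc]

/-- germs of `U_q` at the level `Γ_H` -/
theorem til_UH (D : WData q M H) (hqM : ¬ q ∣ M) : ∃ C ∈ GG (q * M),
    (∃ u ∈ H, dd M C = ((u : (ZMod M)ˣ) : ZMod M) * (D.v : ZMod M)) ∧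
    ∀ x : E ⊗[ℤ] KumG.LZ (Gq q M H),
      til (Gq q M H) ((UH D).baseChange E x) =ᶠ[deep]
        hk q 0 (act (til (Gq q M H) x) (C : M2)) := by
  obtain ⟨C, hC, hCu, hCb⟩ := exists_C D
  refine ⟨C, hC, hCu, fun x => ?_⟩
  have hr := isRepsG_rQ (H := H) D.h hqM (inv_mem (exists_γ0 D).choose_spec.1) γ0_inv_mul
  have hq0 : q ≠ 0 := hq.out.ne_zero
  have hN0 : q * M ≠ 0 := mul_ne_zero hq0 (NeZero.ne M)
  have hdG : ∀ᶠ γ in deep, γ ∈ Gq q M H := deep_GH hN0 _
  have hdM : ∀ᶠ γ in deep, γ ∈ GH M H := deep_GH (NeZero.ne M) _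
  set z := (WH D).baseChange E x with hz
  have e0 : (UH D).baseChange E x =
      (resQ q M H).baseChange E ((SSH.trL (H := H)).baseChange E z) - z := by
    rw [hz, UH, LinearMap.baseChange_sub, LinearMap.baseChange_comp, LinearMap.baseChange_comp]
    rfl
  have h1 : til (Gq q M H) ((resQ q M H).baseChange E ((SSH.trL (H := H)).baseChange E z)) =ᶠ[deep]
      til (GH M H) ((SSH.trL (H := H)).baseChange E z) := til_sub Gq_le hdG _
  have h2 := til_op (O := E) (famTrG hr) hdG hdM z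
  rw [← trL_eq_opLL D hqM] at h2
  have h3 := til_op (O := E) D.ad.fam hdG hdG x
  change til (Gq q M H) z =ᶠ[deep] _ at h3
  have h3' : til (Gq q M H) z =ᶠ[deep] act (til (Gq q M H) x) D.W := by
    filter_upwards [h3] with γ e
    rw [e, sum_unit_act]
  have hW : D.W.det ≠ 0 := by
    rw [det_WQ D.h]; exact_mod_cast hq0
  have h4 : ∀ᶠ γ in deep, ∀ b : Fin q,
      act (til (Gq q M H) z) (rQ (q := q) D.h (exists_γ0 D).choose⁻¹ (some b) : M2) γ =
      act (act (til (Gq q M H) x) (C : M2)) (dl q (some b)) γ := by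
    rw [Filter.eventually_all]
    intro b
    have hdet : ((rQ (q := q) D.h (exists_γ0 D).choose⁻¹ (some b) : SL(2, ℤ)) : M2).det ≠ 0 := by
      rw [Matrix.SpecialLinearGroup.det_coe]; exact one_ne_zero
    have hdC : ((C : SL(2, ℤ)) : M2).det ≠ 0 := by
      rw [Matrix.SpecialLinearGroup.det_coe]; exact one_ne_zero
    have e1 := act_mul (til (Gq q M H) x) hW hdet
    rw [hCb b] at e1
    have e2 := act_mul (til (Gq q M H) x) hdC (det_dl_ne hq0 (some b))
    exact (act_congr h3' hdet).trans (e1.symm.trans e2)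
  rw [e0, map_sub]
  filter_upwards [h1, h2, h4] with γ a1 a2 a4
  rw [Pi.sub_apply, a1, a2, Fintype.sum_option, Finset.sum_congr rfl fun b _ => a4 b, hk, zero_mul,
    add_zero]
  have e5 : act (til (Gq q M H) z) (rQ (q := q) D.h (exists_γ0 D).choose⁻¹ none : M2) γ =
      til (Gq q M H) z γ := by
    change act (til (Gq q M H) z) ((1 : SL(2, ℤ)) : M2) γ = _
    rw [Matrix.SpecialLinearGroup.coe_one, act_one]
  rw [e5, add_sub_cancel_left]
  rfl

end UHs

/-! ### the characters -/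

section chars

variable {E : Type*} [CommRing E] {L : List ℕ} {ψ : ∀ v : ℕ, MulChar (ZMod v) E}

theorem wL_mul (a b : ℤ) : wL ψ L (a * b) = wL ψ L a * wL ψ L b := by
  induction L with
  | nil => simp [wL]
  | cons v L ih =>
    rw [wL_cons]
    simp only
    rw [ih]
    push_cast
    rw [map_mul]
    ring

/-- elements of `H` act trivially -/
theorem EigW.wL_H {q M : ℕ} [hq : Fact q.Prime] [NeZero M]
    {H : Subgroup (ZMod M)ˣ} [hH : Fact ((-1 : (ZMod M)ˣ) ∈ H)]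
    (hper : Per M (wL ψ L)) {x : E ⊗[ℤ] KumG.LZ (Gq q M H)}
    (hx : EigW (HM (dvd_mul_left M q) H) (wL ψ L) x) {u : (ZMod M)ˣ} (hu : u ∈ H) {d : ℤ}
    (hd : (u : ZMod M) = d) : wL ψ L d • x = x := by
  obtain ⟨u', hu'⟩ := ZMod.unitsMap_surjective (dvd_mul_left M q) u
  have hmem : u' ∈ HM (dvd_mul_left M q) H := by
    rw [HM, Subgroup.mem_comap, hu']
    exact hu
  have h1 := hx u'
  rw [DH_of_mem hmem] at h1
  have h2 : (1 : Module.End ℤ (KumG.LZ (Gq q M H))).baseChange E x = x :=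
    LinearMap.congr_fun (LinearMap.baseChange_id (A := E)) x
  rw [h2] at h1
  have h3 : wL ψ L d = wL ψ L ((u' : ZMod (q * M)).val : ℤ) := by
    refine hper.congr ?_
    rw [← hd, ← hu']
    have e1 : ((ZMod.unitsMap (dvd_mul_left M q) u' : (ZMod M)ˣ) : ZMod M) =
        ZMod.castHom (dvd_mul_left M q) (ZMod M) (u' : ZMod (q * M)) := rfl
    have e2 : (u' : ZMod (q * M)) = (((u' : ZMod (q * M)).val : ℕ) : ZMod (q * M)) := by
      rw [ZMod.natCast_zmod_val]
    rw [e1]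
    conv_lhs => rw [e2]
    rw [map_natCast]
    push_cast
    rfl
  rw [h3, ← h1]

end chars

section rel

variable {E : Type*} [Field E] [CharZero E] {M N' : ℕ} {L : List ℕ} [NeZero N']
  {q M' : ℕ} [hq : Fact q.Prime] [NeZero M']
  {H : Subgroup (ZMod M')ˣ} [hH : Fact ((-1 : (ZMod M')ˣ) ∈ H)]

/-- **`U_q` is compatible with twisting** -/
theorem mem_Rl_U {m k : ℕ} (hm : m = 2 * k + 1) (D : SSH.WData q M' H) (hqM' : ¬ q ∣ M')
    (hqL : q ∉ L) (hqN' : q ∣ N') :
    ((UG hq.out hqN', UH D) :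
      Module.End ℤ (KumG.LZ (GG N')) ×
      Module.End ℤ (KumG.LZ (GH (q * M') (HM (dvd_mul_left M' q) H)))) ∈
      Rl M N' L (HM (dvd_mul_left M' q) H) E m := by
  rintro ψ hψ x y hx hxy
  have hper := hψ.per
  have hq0 : q ≠ 0 := hq.out.ne_zero
  have hLM : ∀ v ∈ L, v ∣ M' := by
    intro v hv
    have h1 : v ∣ q * M' := hψ.eN ▸ (List.dvd_prod hv).mul_left M
    have hvp := hψ.ld.pr v hv
    rcases (hvp.dvd_mul).1 h1 with h2 | h2
    · exact absurd ((Nat.prime_dvd_prime_iff_eq hvp hq.out).1 h2) (fun h => hqL (h ▸ hv))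
    · exact h2
  have hperM : Per M' (wL ψ L) := per_wL ψ hLM
  -- nebentypus
  have hT : EigW (HM (dvd_mul_left M' q) H) (wL ψ L) ((UH D).baseChange E x) := by
    intro d
    have h1 : (DH (q * M') (HM (dvd_mul_left M' q) H) d).baseChange E ((UH D).baseChange E x) =
        (UH D).baseChange E ((DH (q * M') (HM (dvd_mul_left M' q) H) d).baseChange E x) := by
      have e1 := LinearMap.baseChange_comp (A := E) (UH D)
        (DH (q * M') (HM (dvd_mul_left M' q) H) d)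
      have e2 := LinearMap.baseChange_comp (A := E)
        (DH (q * M') (HM (dvd_mul_left M' q) H) d) (UH D)
      have e3 : DH (q * M') (HM (dvd_mul_left M' q) H) d ∘ₗ UH D =
          UH D ∘ₗ DH (q * M') (HM (dvd_mul_left M' q) H) d :=
        LinearMap.ext fun z => (UH_DH D hqM' d z).symm
      rw [e3, e2] at e1
      exact LinearMap.congr_fun e1.symm x
    rw [h1, hx d, map_smul]
  refine ⟨hT, ?_⟩
  obtain ⟨C, hC, ⟨u, hu, hCu⟩, hU⟩ := til_UH (E := E) D hqM'
  set c : ℤ := C 1 1 with hc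
  -- the germ of `C`
  have h1 : act (til (Gq q M' H) x) (C : M2) =ᶠ[deep] til (Gq q M' H) (wL ψ L c • x) := by
    obtain ⟨e, he⟩ := dvd_of_mem hC
    have h2 := C.det_coe
    rw [Matrix.det_fin_two, he] at h2
    have h3 := (hx.datW hper).dia ((C : M2) 0 0) ((C : M2) 0 1) e ((C : M2) 1 1) h2
    rw [← he, ← Matrix.eta_fin_two ((C : SL(2, ℤ)) : M2)] at h3
    refine h3.trans (Eventually.of_forall fun γ => ?_)
    rw [map_smul]
    rfl
  have h2 : til (Gq q M' H) ((UH D).baseChange E x) =ᶠ[deep]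
      hk q 0 (til (Gq q M' H) (wL ψ L c • x)) := (hU x).trans (hk_congr hq0 0 h1)
  have hx' : EigW (HM (dvd_mul_left M' q) H) (wL ψ L) (wL ψ L c • x) := fun d => by
    rw [map_smul, hx d, smul_comm]
  have h3 := TwL_hk (ψ := ψ) hψ.ld (hψ.datW hx') (hψ.datW hT) hq.out hqL (e := 0)
    (by rw [mul_zero]; exact h2)
  -- the scalar
  set a : E := wS ψ L q * wL ψ L c with ha
  have hcq : ∀ v ∈ L, IsUnit ((q : ℤ) : ZMod v) := fun v hv => by
    rw [ZMod.coe_int_isUnit_iff_isCoprime]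
    exact (isCoprime_of_prime hq.out (hψ.ld.pr v hv) (fun h => hqL (h ▸ hv))).symm
  have hcc : ∀ v ∈ L, IsUnit ((c : ℤ) : ZMod v) := fun v hv => by
    obtain ⟨e, he⟩ := dvd_of_mem hC
    have h2 := C.det_coe
    rw [Matrix.det_fin_two, he] at h2
    rw [ZMod.coe_int_isUnit_iff_isCoprime]
    obtain ⟨f, hf⟩ := hLM v hv
    refine ⟨-((C : M2) 0 1 * (q * f * e)), (C : M2) 0 0, ?_⟩
    have hf' : ((q * M' : ℕ) : ℤ) = q * (v * f) := by rw [hf]; push_cast; ring
    rw [hf'] at h2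
    linear_combination h2
  have ham : a ^ m = 1 := by
    rw [ha, mul_pow, wS_pow hcq hψ.pow, one_mul, ← wS_sq, ← pow_mul, mul_comm 2 m, pow_mul,
      wS_pow hcc hψ.pow, one_pow]
  have ha2 : a ^ 2 = wL ψ L (q * (c * c)) := by
    rw [ha, mul_pow, wS_sq, wL_mul, wL_mul]
    ring
  have ha2x : a ^ 2 • x = x := by
    obtain ⟨w, hw, hw'⟩ := D.sq
    rw [ha2]
    refine hx.wL_H hperM (u := u * u * w) (mul_mem (mul_mem hu hu) hw) ?_
    have e1 : ((c : ℤ) : ZMod M') = dd M' C := rfl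
    push_cast
    rw [e1, hCu, ← hw']
    ring
  have hax : a • x = x := by
    have h4 : (a ^ 2 - 1) • x = 0 := by rw [sub_smul, ha2x, one_smul, sub_self]
    rcases smul_eq_zero.1 h4 with h5 | h5
    · have h6 : a = 1 := by
        have h7 : a ^ 2 = 1 := by linear_combination h5
        rw [hm, pow_succ, pow_mul, h7, one_pow, one_mul] at ham
        exact ham
      rw [h6, one_smul]
    · rw [h5, smul_zero]
  have h5 : hk q 0 (TwL ψ L (til (Gq q M' H) x)) =
      wS ψ L q • hk q 0 (TwL ψ L (til (Gq q M' H) (wL ψ L c • x))) := by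
    conv_lhs => rw [← hax, ha, mul_smul, map_smul, TwL_smul, hk_smul]
  rw [← h5] at h3
  filter_upwards [til_UG y hq.out hqN', h3, hk_congr hq0 0 hxy] with γ e1 e2 e3
  rw [e1, e3]
  exact e2.symm

end rel

end

end Fermat.Agent.OrdH
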