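import Fermat.Agent.Ord.NmF
import Fermat.Agent.Ord.KK
import Fermat.Agent.Flat.Tame

/-!
# The geometry of `U_p`: components and classes
-/

set_option autoImplicit false
set_option linter.unusedSectionVars false
set_option linter.style.haveILetI false

noncomputable section

namespace Fermat.Agent.OrdH

open ModularCurve Polynomial IntermediateField Fermat.Agent.ModPoly Fermat.Agent.Red
  Fermat.Agent.RedMod Fermat.Agent.Cusp Fermat.Agent.SemiSt AlgebraicCurve Fermat.Agent.Curve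
  Fermat.Agent.RR Fermat.Agent.Nod Fermat.Agent.Flat Fermat.Agent.FlatRam Fermat.Agent.Places
  Fermat.Agent.PRem Fermat.Agent.Ord

local notation "Ω" => AlgebraicClosure ℚ

section Gen

variable {K : Type*} [Field K] [IsAlgClosed K] [CharZero K] {p M : ℕ} [hp : Fact p.Prime]
  [NeZero M] (hco : p.Coprime M)

/-- the multiplicative operator `U_p` -/
def Uf (f : FF K (p * M)) : FF K (p * M) :=
  incl K (dvd_mul_left M p) (Nm K p M (w K hco f)) * (w K hco f)⁻¹

theorem w_ne {f : FF K (p * M)} (hf : f ≠ 0) : w K hco f ≠ 0 := (_root_.map_ne_zero _).2 hf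

theorem qExpand_Uf {ζ : Kˣ} (hζ : IsPrimitiveRoot ζ p) {f : FF K (p * M)} (hf : f ≠ 0) :
    qExpand K p (Uf hco f : LaurentSeries K) =
      ∏ b : Fin p, twist (ζ ^ (b : ℕ)) (f : LaurentSeries K) := by
  have h1 := qExpand_Nm hco hζ (w K hco f)
  rw [w_w] at h1
  have h2 : (Uf hco f : LaurentSeries K) = (Nm K p M (w K hco f) : LaurentSeries K) *
      ((w K hco f : FF K (p * M)) : LaurentSeries K)⁻¹ := rfl
  have h3 : qExpand K p ((w K hco f : FF K (p * M)) : LaurentSeries K) ≠ 0 :=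
    (_root_.map_ne_zero _).2 fun h => w_ne hco hf (Subtype.ext h)
  rw [h2, map_mul, map_inv₀, h1, mul_comm (qExpand K p _), mul_assoc, mul_inv_cancel₀ h3, mul_one]

/-- the `q`-expansion of `U_p f` -/
theorem coe_Uf {ζ : Kˣ} (hζ : IsPrimitiveRoot ζ p) {f : FF K (p * M)} (hf : f ≠ 0) :
    (Uf hco f : LaurentSeries K) = HeckeProd.NN p ζ (f : LaurentSeries K) := by
  apply qExpand_injective p
  rw [qExpand_Uf hco hζ hf, HeckeProd.qExpand_NN hζ, HeckeProd.PP,
    prod_zmod (fun i => twist (ζ ^ i) (f : LaurentSeries K))]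

end Gen

section Cls

variable {K : Type*} [Field K] [Algebra ℚ K] [IsAlgClosed K] [CharZero K] {ι : K →+* ℂ}
  {N m : ℕ} [NeZero N] [NeZero m]

/-- Hecke operators `U_q` -/
theorem cls_NN {x y : FF K N} {ξ : Kum.XL N m} (h : HasCls ι m x ξ) {S : Set ℕ} {ℓ : ℕ}
    [NeZero ℓ] (hℓ : ℓ.Prime) (hℓN : ℓ ∣ N) (hℓS : ℓ ∉ S) {ζ : Kˣ} (hζ : IsPrimitiveRoot ζ ℓ)
    (hy : (y : LaurentSeries K) = HeckeProd.NN ℓ ζ (x : LaurentSeries K)) :
    HasCls ι m y (Kum.actX N m S (CuspForm.heckeAlgebra.U hℓ hℓN hℓS) ξ) := by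
  obtain ⟨Φ, rfl, h⟩ := h
  refine ⟨HeckeHom.actL N S (CuspForm.heckeAlgebra.U hℓ hℓN hℓS) Φ, (Kum.actX_mkX _ _).symm, ?_⟩
  have h1 : Kum.redI m (HeckeHom.actL N S (CuspForm.heckeAlgebra.U hℓ hℓN hℓS) Φ) =
      (ALCoh.famU hℓ hℓN).op (ZMod m) (Kum.redI m Φ) := by
    rw [Kum.redI, HeckeHom.actL_U, HeckeHom.comp_opU, ALCoh.opU_eq hℓ hℓN]
    rfl
  rw [h1, hy, HeckeProd.coeffMap_NN]
  exact ALCoh.rep_NN hℓ hℓN (hζ.map_of_injective (f := Units.map (ι : K →* ℂ))
    (Units.map_injective ι.injective)) h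

end Cls

section Red

variable {A K k : Type*} [CommRing A] [IsDomain A] [ValuationRing A]
  [Field K] [IsAlgClosed K] [CharZero K] [Algebra A K] [IsFractionRing A K] [Field k]
  [IsAlgClosed k] [Algebra A k]
  {q M : ℕ} [hq : Fact q.Prime] [NeZero M] (hco : q.Coprime M) [CharP k q]
  (hk : Function.Surjective (algebraMap A k)) (hM : (M : k) ≠ 0)

include hk hM in
/-- the reduction of a norm -/
theorem rd_Nm {x : FF K (q * M)} {a b : LaurentSeries k} (h1 : Rd A (x : LaurentSeries K) a)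
    (h2 : Rd A (w K hco x : LaurentSeries K) b) :
    Rd A (Nm K q M x : LaurentSeries K) (a * HeckeProd.Fr q b) := by
  obtain ⟨ζ, hζ⟩ := exists_zeta (k := K) (N := q) (natCast_ne_zero_K K q)
  have h3 := qExpand_Nm hco hζ x
  have hroot : ∀ b : Fin q, (ζ ^ (b : ℕ)) ^ q = 1 := fun b => by
    rw [← pow_mul, mul_comm, pow_mul, hζ.pow_eq_one, one_pow]
  have h4 : ∀ s : Finset (Fin q), Rd A (∏ c ∈ s, twist (ζ ^ (c : ℕ))
      (w K hco x : LaurentSeries K)) (b ^ s.card) := by
    classical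
    intro s
    induction s using Finset.induction_on with
    | empty => simpa using Rd.one
    | insert i s hi ih =>
      rw [Finset.prod_insert hi, Finset.card_insert_of_notMem hi, pow_succ, mul_comm (b ^ _)]
      exact (rd_twist (hroot i) h2).mul ih
  have h5 := h4 Finset.univ
  rw [Finset.card_univ, Fintype.card_fin, HeckeProd.pow_eq_qExpand] at h5
  have h6 := (rd_qExpand (q := q) h1).mul h5
  rw [← h3, ← map_mul] at h6
  have h7 := mem_WL_of_qExpand (A := A) hk hM (Nm K q M x) h6.choose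
  have h8 : Rd A (Nm K q M x : LaurentSeries K) (πL A K k ⟨_, h7⟩) := ⟨h7, rfl⟩
  have h9 := (rd_qExpand (q := q) h8).uniq h6
  rw [qExpand_injective q h9] at h8
  exact h8

include hk hM in
/-- the reduction of `U_p f`, first component -/
theorem rd_Uf {f : FF K (q * M)} {a b : LaurentSeries k} (h1 : Rd A (f : LaurentSeries K) a)
    (h2 : Rd A (w K hco f : LaurentSeries K) b) (hb : b ≠ 0) :
    Rd A (Uf hco f : LaurentSeries K) (HeckeProd.Fr q a) := by
  have h3 := rd_Nm hco hk hM h2 (by rw [w_w]; exact h1)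
  have h4 := h3.mul (h2.inv hb)
  rw [mul_comm b, mul_assoc, mul_inv_cancel₀ hb, mul_one] at h4
  exact h4

include hk hM in
/-- the reduction of `U_p f`, second component -/
theorem rd_w_Uf {f : FF K (q * M)} {a b : LaurentSeries k} (h1 : Rd A (f : LaurentSeries K) a)
    (h2 : Rd A (w K hco f : LaurentSeries K) b) (ha : a ≠ 0) :
    Rd A (w K hco (Uf hco f) : LaurentSeries K) (qExpand k q b * a ^ q * a⁻¹) := by
  have h3 := rd_qExpand (q := q) (rd_Nm hco hk hM h2 (by rw [w_w]; exact h1))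
  rw [map_mul, ← HeckeProd.pow_eq_qExpand] at h3
  have h4 := h3.mul (h1.inv ha)
  have h5 : (w K hco (Uf hco f) : LaurentSeries K) =
      qExpand K q (Nm K q M (w K hco f) : LaurentSeries K) * (f : LaurentSeries K)⁻¹ := by
    rw [Uf, map_mul, map_inv₀, w_w, w_incl, MulMemClass.coe_mul, coe_qe, IntermediateField.coe_inv]
  rw [h5]
  exact h4

end Red

end Fermat.Agent.OrdH
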