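import Fermat.Agent.Ord.ThmC

/-!
# The trace form of relations; the algebra of the `U`-relation
-/

set_option autoImplicit false
set_option linter.unusedSectionVars false
set_option linter.style.haveILetI false

namespace Fermat.Agent.OrdH

open Fermat.Agent.Ord

variable {R X G : Type*} [CommRing R] [AddCommGroup X] [Module R X] [Group G] [Finite X]
  {ρ : G →* Module.End R X} {χ t : G → R}
  (hχ : ∀ g h (x : X), χ (g * h) • x = (χ g * χ h) • x) (hχ1 : ∀ x : X, χ 1 • x = x)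
  (hrel : ∀ g (x : X), ρ g x + χ g • ρ g⁻¹ x = t g • x) {𝔫 : Ideal R} [h𝔫 : 𝔫.IsMaximal]
  {c g₀ k₀ : G} (hc : c * c = 1)
  (hu : t (g₀ * k₀) + t (c * g₀ * k₀) - t (g₀ * c * k₀) - t (c * g₀ * c * k₀) ∉ 𝔫)

include hχ hχ1 hrel hc in
/-- the commutator trace kills vectors on which the action is commutative -/
theorem u_zero_of_comm {y : X} (hy : ∀ g h a, ρ g (ρ h (ρ a y)) = ρ h (ρ g (ρ a y))) :
    (t (g₀ * k₀) + t (c * g₀ * k₀) - t (g₀ * c * k₀) - t (c * g₀ * c * k₀)) • y = 0 := by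
  have hcc : c⁻¹ = c := inv_eq_of_mul_eq_one_left hc
  have hcy : ∀ a, ρ c (ρ c (ρ a y)) = ρ a y := fun a => by
    rw [← mul_act, hc, map_one]; rfl
  have hy1 : ∀ g h, ρ g (ρ h y) = ρ h (ρ g y) := fun g h => by
    have := hy g h 1
    rw [map_one] at this
    exact this
  have e1 : ρ (c * g₀ * k₀) y = ρ (g₀ * c * k₀) y := by
    rw [mul_act, mul_act, mul_act, mul_act, hy]
  have e2 : ρ (c * g₀ * c * k₀) y = ρ (g₀ * k₀) y := by
    rw [mul_act, mul_act, mul_act, mul_act, hy g₀ c k₀, ← mul_act c c, hc, map_one]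
    rfl
  have e3 : ρ (c * g₀ * k₀)⁻¹ y = ρ (g₀ * c * k₀)⁻¹ y := by
    rw [mul_inv_rev, mul_inv_rev, mul_inv_rev, mul_inv_rev, hcc, mul_act, mul_act, mul_act,
      mul_act, hy1 g₀⁻¹ c]
  have e4 : ρ (c * g₀ * c * k₀)⁻¹ y = ρ (g₀ * k₀)⁻¹ y := by
    rw [mul_inv_rev, mul_inv_rev, mul_inv_rev, mul_inv_rev, hcc, mul_act, mul_act, mul_act,
      mul_act, hy1 g₀⁻¹ c]
    have h2 : ρ c (ρ c (ρ g₀⁻¹ y)) = ρ g₀⁻¹ y := hcy _
    rw [h2]
  have h3 : ∀ a b d (x : X), χ (a * b * d) • x = (χ a * χ b * χ d) • x := fun a b d x => by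
    rw [hχ, mul_smul, hχ, ← mul_smul]
  have f1 : ∀ x : X, χ (c * g₀ * k₀) • x = χ (g₀ * c * k₀) • x := fun x => by
    rw [h3, h3, mul_comm (χ c)]
  have f2 : ∀ x : X, χ (c * g₀ * c * k₀) • x = χ (g₀ * k₀) • x := fun x => by
    have h4 : ∀ z : X, (χ c * χ c) • z = z := fun z => by rw [← hχ, hc, hχ1]
    rw [hχ (c * g₀ * c) k₀, mul_smul, h3, hχ g₀ k₀, mul_smul (χ g₀), ← h4 (χ g₀ • χ k₀ • x),
      smul_smul (χ c * χ c)]
    congr 1
    ring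
  rw [sub_smul, sub_smul, add_smul, ← hrel, ← hrel, ← hrel, ← hrel, e1, e2, e3, e4, f1, f2]
  abel

include hχ hχ1 hrel hc hu in
/-- **from relations to trace relations** -/
theorem trace_form {ι : Type*} [Fintype ι] (u : ι → Module.End R X)
    (hu' : ∀ i g x, u i (ρ g x) = ρ g (u i x)) (γ : ι → G) {k : ℕ}
    (hE : ∀ x ∈ tors X (𝔫 ^ k), ∑ i, u i (ρ (γ i) x) = 0) {x : X} (hx : x ∈ tors X (𝔫 ^ k)) :
    ∑ i, u i (t (γ i) • x) = 0 := by
  classical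
  -- the twisted operators
  have h1 : ∀ h, ∀ x ∈ tors X (𝔫 ^ k), ∑ i, u i (t (γ i * h) • x) =
      χ h • ρ h⁻¹ (∑ i, u i (χ (γ i) • ρ (γ i)⁻¹ x)) := by
    intro h x hx
    have h2 := hE (ρ h x) (map_tors (ρ h) hx)
    have h3 : ∑ i, u i (t (γ i * h) • x) = ∑ i, u i (ρ (γ i) (ρ h x)) +
        ∑ i, u i (χ (γ i * h) • ρ (γ i * h)⁻¹ x) := by
      rw [← Finset.sum_add_distrib]
      refine Finset.sum_congr rfl fun i _ => ?_
      rw [← hrel, map_add, mul_act]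
    rw [h3, h2, zero_add, map_sum, Finset.smul_sum]
    refine Finset.sum_congr rfl fun i _ => ?_
    rw [hχ, mul_inv_rev, mul_act, mul_comm (χ (γ i)), mul_smul, map_smul (u i) (χ h),
      map_smul (u i) (χ (γ i)), map_smul (u i) (χ (γ i)), map_smul (ρ h⁻¹), hu']
  have h2 : ∀ x ∈ tors X (𝔫 ^ k), ∑ i, u i (χ (γ i) • ρ (γ i)⁻¹ x) =
      ∑ i, u i (t (γ i) • x) := by
    intro x hx
    have h3 := h1 1 x hx
    simp only [mul_one] at h3
    rw [h3, hχ1, inv_one, map_one]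
    rfl
  have h3 : ∀ h, ∀ x ∈ tors X (𝔫 ^ k), ∑ i, u i (t (γ i * h) • x) =
      χ h • ρ h⁻¹ (∑ i, u i (t (γ i) • x)) := fun h x hx => by rw [h1 h x hx, h2 x hx]
  -- they commute with the group
  have h4 : ∀ (r : ι → R) g (x : X), ∑ i, u i (r i • ρ g x) = ρ g (∑ i, u i (r i • x)) := by
    intro r g x
    rw [map_sum]
    refine Finset.sum_congr rfl fun i _ => ?_
    rw [← hu', map_smul (ρ g)]
  have hcan : ∀ (h : G) (y : X), χ h • y = 0 → y = 0 := fun h y h0 => by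
    have := hχ h⁻¹ h y
    rw [inv_mul_cancel, hχ1, mul_smul, h0, smul_zero] at this
    exact this
  have h5 : ∀ g h, ∀ x ∈ tors X (𝔫 ^ k), ρ g (ρ h (∑ i, u i (t (γ i) • x))) =
      ρ h (ρ g (∑ i, u i (t (γ i) • x))) := by
    intro g h x hx
    have h6 := h3 h⁻¹ (ρ g x) (map_tors (ρ g) hx)
    rw [h4, h3 h⁻¹ x hx, h4, map_smul, inv_inv] at h6
    have h7 := hcan h⁻¹ (ρ g (ρ h (∑ i, u i (t (γ i) • x))) -
      ρ h (ρ g (∑ i, u i (t (γ i) • x)))) (by rw [smul_sub, h6, sub_self])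
    exact sub_eq_zero.1 h7
  have h6 := u_zero_of_comm hχ hχ1 hrel (g₀ := g₀) (k₀ := k₀) hc
    (y := ∑ i, u i (t (γ i) • x)) (fun g h a => by
      rw [← h4 (fun i => t (γ i)) a x]
      exact h5 g h _ (map_tors (ρ a) hx))
  refine eq_zero_of_smul hu (k := k) ?_ h6
  exact sum_mem fun i _ => map_tors (u i) (Submodule.smul_mem _ _ hx)

variable {I : Subgroup G} {K : Submodule R X} (hK : ∀ τ ∈ I, ∀ x, ρ τ x - x ∈ K)
  (hres : ∀ σ ∈ I, ∀ τ ∈ I, ∀ g,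
    t (σ * τ * g) - t (σ * g) - χ σ * t (τ * g) + χ σ * t g ∈ 𝔫)
  {τ₀ : G} (hτ₀ : τ₀ ∈ I) (hχτ : χ τ₀ - 1 ∉ 𝔫)
  (hA2 : ∀ v ∈ K, v ∈ tors X 𝔫 → ρ τ₀ v = v → v = 0)

include hχ hχ1 hrel hK hres hc hu hτ₀ hχτ hA2 in
/-- **the `U`-relation on torsion modules** -/
theorem thmU (U : Module.End R X) (hU : ∀ g x, U (ρ g x) = ρ g (U x)) (p : R) {Φ : G}
    (hcong : ∀ x, U (ρ Φ (U x - ρ Φ x)) - p • (U x - ρ Φ x) ∈ K) :
    ∃ s : R, s ∉ 𝔫 ∧ ∀ τ ∈ I, ∀ x : X,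
      s • ((t (τ * Φ) - χ τ * t Φ) • U (U x) -
        ((t (τ * Φ * Φ) - χ τ * t (Φ * Φ)) + p * (t τ - χ τ * t 1)) • U x +
        (p * (t (τ * Φ) - χ τ * t Φ)) • x) = 0 := by
  obtain ⟨k, s, hs, hsX⟩ := exists_stable X 𝔫
  refine ⟨s, fun h => ?_, fun τ hτ x => ?_⟩
  · have : (1 : R) ∈ 𝔫 := by
      have := 𝔫.sub_mem h hs
      rwa [sub_sub_cancel] at this
    exact h𝔫.ne_top ((Ideal.eq_top_iff_one _).2 this)
  have key := trace_form hχ hχ1 hrel hc hu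
    (![U * U, -(χ τ • (U * U)), -U, χ τ • U, -(p • U), (p * χ τ) • U, p • 1, -((p * χ τ) • 1)] :
      Fin 8 → Module.End R X) (fun i g x => by
      fin_cases i <;>
      simp [hU, smul_sub, map_smul])
    (![τ * Φ, Φ, τ * Φ * Φ, Φ * Φ, τ, 1, τ * Φ, Φ] : Fin 8 → G) (k := k) (fun z hz => by
      have h1 : U (ρ Φ (U z - ρ Φ z)) - p • (U z - ρ Φ z) ∈ tors X (𝔫 ^ k) := by
        have h2 : U z - ρ Φ z ∈ tors X (𝔫 ^ k) := sub_mem (map_tors U hz) (map_tors (ρ Φ) hz)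
        exact sub_mem (map_tors U (map_tors (ρ Φ) h2)) (Submodule.smul_mem _ _ h2)
      have h3 := step4 hχ hχ1 hrel hK hres hc hu hτ₀ hχτ hA2 k h1 (hcong z) τ hτ
      have h4 := sub_eq_zero.2 h3
      rw [← h4, Fin.sum_univ_eight]
      simp only [Matrix.cons_val, Module.End.mul_apply, LinearMap.neg_apply, LinearMap.smul_apply,
        Module.End.one_apply, map_sub, map_smul, hU, map_one, mul_act]
      module) (x := s • x) (hsX x)
  rw [Fin.sum_univ_eight] at key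
  simp only [Matrix.cons_val, Module.End.mul_apply, LinearMap.neg_apply, LinearMap.smul_apply,
        Module.End.one_apply, map_smul] at key
  rw [← key]
  module

end Fermat.Agent.OrdH
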