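import Fermat.Agent.OrdH.UA

/-!
# The congruence relation between `U_p` and Frobenius
-/

set_option autoImplicit false
set_option linter.unusedSectionVars false
set_option linter.style.haveILetI false

noncomputable section

namespace Fermat.Agent.OrdH

open ModularCurve Polynomial IntermediateField Fermat.Agent.ModPoly Fermat.Agent.Red
  Fermat.Agent.RedMod Fermat.Agent.Cusp Fermat.Agent.SemiSt AlgebraicCurve Fermat.Agent.Curve
  Fermat.Agent.RR Fermat.Agent.Nod Fermat.Agent.Flat Fermat.Agent.FlatRam Fermat.Agent.Places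
  Fermat.Agent.PRem Fermat.Agent.Ord

local notation "Ω" => AlgebraicClosure ℚ

variable {A : ValuationSubring (AlgebraicClosure ℚ)} {p : ℕ} [hp : Fact p.Prime]
  {M : ℕ} [NeZero M] {k : Type} [Field k] [Algebra A k] [CharP k p] [IsAlgClosed k]

/-- Frobenius acts on reductions -/
theorem rd_frob (hk : Function.Surjective (algebraMap A k)) {Φ : Ω ≃ₐ[ℚ] Ω} (hΦ : IsFr A p Φ)
    {x : LaurentSeries Ω} {a : LaurentSeries k} (h : Rd A x a) :
    Rd A (coeffMap (((Φ : Ω ≃+* Ω) : Ω →+* Ω)) x) (HeckeProd.Fr p a) := by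
  let τA : A →+* A :=
    { toFun := fun y => ⟨Φ y, (hΦ.1 y).2 y.2⟩
      map_one' := Subtype.ext (map_one Φ)
      map_mul' := fun y z => Subtype.ext (map_mul Φ _ _)
      map_zero' := Subtype.ext (map_zero Φ)
      map_add' := fun y z => Subtype.ext (map_add Φ _ _) }
  have h2 : ∀ y : A, algebraMap A k (τA y) = (algebraMap A k y) ^ p := by
    intro y
    rw [← sub_eq_zero, ← map_pow, ← map_sub]
    exact (red_eq_zero_iff hk).2 (hΦ.2 y y.2)
  obtain ⟨u, v, hv, rfl, rfl⟩ := h.exists_div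
  have h3 : ∀ y : LaurentSeries A, coeffMap (((Φ : Ω ≃+* Ω) : Ω →+* Ω)) (RedMod.incL A Ω y) =
      RedMod.incL A Ω (coeffMap τA y) := fun y => by
    rw [RedMod.incL, coeffMap_coeffMap, coeffMap_coeffMap]
    rfl
  have h4 : ∀ y : LaurentSeries A, redL A k (coeffMap τA y) = HeckeProd.Fr p (redL A k y) :=
    fun y => by
      ext n
      exact h2 _
  rw [map_div₀, h3, h3, map_div₀, ← h4 u, ← h4 v]
  exact rd_div (by rw [h4]; exact (_root_.map_ne_zero _).2 hv)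

variable {hk : Function.Surjective (algebraMap A k)} {hco : p.Coprime M} {hM : (M : k) ≠ 0} {b : A}
  [Algebra A (FF Ω (p * M))] [IsScalarTower A Ω (FF Ω (p * M))]
  [Algebra A (FF k M)] [IsScalarTower A k (FF k M)]
  [FunField k (FF k M)] [FunField Ω (FF Ω M)] [FunField Ω (FF Ω (p * M))]

/-- the two components of a unit -/
theorem uw_iff {f : FF Ω (p * M)} : UW (ng Ω hco hk hM b) f ↔ ∃ a c : LaurentSeries k, a ≠ 0 ∧ c ≠ 0 ∧
    Rd A (f : LaurentSeries Ω) a ∧ Rd A (w Ω hco f : LaurentSeries Ω) c := by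
  constructor
  · intro h
    exact ⟨_, _, fun h0 => h.r1_ne (Subtype.ext h0), fun h0 => h.r2_ne (Subtype.ext h0),
      rd1 h.mem, rd2 h.mem⟩
  · rintro ⟨a, c, ha, hc, h1, h2⟩
    have hm : f ∈ (ng Ω hco hk hM b).W := mem_W_of h1 h2
    refine UW.mk' hm ?_ ?_
    · intro h0
      apply ha
      rw [← r1_eq hm h1, h0]; rfl
    · intro h0
      apply hc
      rw [← r2_eq hm h2, h0]; rfl

/-- a convenient description of classes with trivial reduction -/
theorem mem_KK_iff {m : ℕ} [NeZero m] {ι : Ω →+* ℂ} {ξ : Kum.XL (p * M) m} :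
    ξ ∈ KK hk hco hM b ι m ↔ ∃ f : FF Ω (p * M), HasCls ι m f ξ ∧
      Rd A (f : LaurentSeries Ω) (1 : LaurentSeries k) ∧
      Rd A (w Ω hco f : LaurentSeries Ω) (1 : LaurentSeries k) := by
  constructor
  · rintro ⟨f, hf, hc, h1, h2⟩
    refine ⟨f, hc, ?_, ?_⟩
    · have := rd1 hf.mem
      rw [h1] at this
      exact this
    · have := rd2 hf.mem
      rw [h2] at this
      exact this
  · rintro ⟨f, hc, h1, h2⟩
    have hu : UW (ng Ω hco hk hM b) f := uw_iff.2 ⟨1, 1, one_ne_zero, one_ne_zero, h1, h2⟩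
    exact ⟨f, hu, hc, Subtype.ext (r1_eq hu.mem h1), Subtype.ext (r2_eq hu.mem h2)⟩

theorem fr_ne {a : LaurentSeries k} (ha : a ≠ 0) : HeckeProd.Fr p a ≠ 0 :=
  (_root_.map_ne_zero _).2 ha

variable {m : ℕ} [NeZero m] {ι : Ω →+* ℂ} {S : Set ℕ} (hpN : p ∣ p * M) (hpS : p ∉ S)

/-- the class of `U_p f` -/
theorem cls_Uf {f : FF Ω (p * M)} {ξ : Kum.XL (p * M) m} (h : HasCls ι m f ξ) :
    HasCls ι m (Uf hco f) (Kum.actX (p * M) m S (CuspForm.heckeAlgebra.U hp.out hpN hpS) ξ) := by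
  obtain ⟨ζ, hζ⟩ := exists_zeta (k := Ω) (N := p) (natCast_ne_zero_K Ω p)
  exact cls_NN h hp.out hpN hpS hζ (coe_Uf hco hζ h.ne_zero)

/-- `U_p` preserves the classes with trivial reduction -/
theorem KK_U {ξ : Kum.XL (p * M) m} (hξ : ξ ∈ KK hk hco hM b ι m) :
    Kum.actX (p * M) m S (CuspForm.heckeAlgebra.U hp.out hpN hpS) ξ ∈ KK hk hco hM b ι m := by
  rw [mem_KK_iff] at hξ ⊢
  obtain ⟨f, hc, h1, h2⟩ := hξ
  refine ⟨Uf hco f, cls_Uf hpN hpS hc, ?_, ?_⟩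
  · have := rd_Uf hco hk hM h1 h2 one_ne_zero
    rwa [map_one] at this
  · have := rd_w_Uf hco hk hM h1 h2 one_ne_zero
    rwa [map_one, one_pow, inv_one, one_mul, one_mul] at this

include hk hM in
/-- representatives which are units on both components -/
theorem exists_rep (hA : A.LiesOverPrime p) (ξ : Kum.XL (p * M) m) :
    ∃ (f : FF Ω (p * M)) (a c : LaurentSeries k), HasCls ι m f ξ ∧ a ≠ 0 ∧ c ≠ 0 ∧
      Rd A (f : LaurentSeries Ω) a ∧ Rd A (w Ω hco f : LaurentSeries Ω) c := by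
  obtain ⟨f, hf, -⟩ := exists_fixed ι ξ
  obtain ⟨g, hg, hW, h1, h2⟩ := exists_scale_kummer hco hk hM (hrank_of hk hA) (NeZero.ne m)
    hf.ne_zero
  obtain ⟨a, c, ha, hc, h3, h4⟩ := uw_iff.1 (⟨hW, h1, h2⟩ : UW (ng Ω hco hk hM (0 : A)) (f * g ^ m))
  exact ⟨f * g ^ m, a, c, hf.mul_pow hg, ha, hc, h3, h4⟩

/-- **the congruence relation** `(U Φ - p) (U - Φ) = 0` modulo classes with trivial reduction -/
theorem KK_cong (hA : A.LiesOverPrime p) {Φ : Ω ≃ₐ[ℚ] Ω} (hΦ : A.IsFrobeniusAt Φ p)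
    (ξ : Kum.XL (p * M) m) :
    Kum.actX (p * M) m S (CuspForm.heckeAlgebra.U hp.out hpN hpS) (Kum.rhoF ι m Φ
      (Kum.actX (p * M) m S (CuspForm.heckeAlgebra.U hp.out hpN hpS) ξ - Kum.rhoF ι m Φ ξ)) -
      p • (Kum.actX (p * M) m S (CuspForm.heckeAlgebra.U hp.out hpN hpS) ξ - Kum.rhoF ι m Φ ξ) ∈
      KK hk hco hM b ι m := by
  rw [mem_KK_iff]
  have hfr := isFr_of_isFrobeniusAt hΦ
  obtain ⟨f, a, c, hf, ha, hc, h1, h2⟩ := exists_rep (hk := hk) (hco := hco) (hM := hM)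
    (ι := ι) hA ξ
  -- the first function
  have hg := (cls_Uf (hco := hco) hpN hpS hf).div (hf.gal Φ)
  have e1 : Rd A ((act (p * M) (Φ : Ω ≃+* Ω) f : FF Ω (p * M)) : LaurentSeries Ω)
      (HeckeProd.Fr p a) := by
    rw [coe_act]
    exact rd_frob hk hfr h1
  have e2 : Rd A (w Ω hco (act (p * M) (Φ : Ω ≃+* Ω) f) : LaurentSeries Ω)
      (HeckeProd.Fr p c) := by
    rw [← act_w, coe_act]
    exact rd_frob hk hfr h2
  set g := Uf hco f * (act (p * M) (Φ : Ω ≃+* Ω) f)⁻¹ with hgdef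
  have g1 : Rd A (g : LaurentSeries Ω) (1 : LaurentSeries k) := by
    have := (rd_Uf hco hk hM h1 h2 hc).mul (e1.inv (fr_ne ha))
    rw [mul_inv_cancel₀ (fr_ne ha)] at this
    exact this
  obtain ⟨c', hc', g2⟩ : ∃ c' : LaurentSeries k, c' ≠ 0 ∧ Rd A (w Ω hco g : LaurentSeries Ω) c' := by
    refine ⟨qExpand k p c * a ^ p * a⁻¹ * (HeckeProd.Fr p c)⁻¹, ?_, ?_⟩
    · exact mul_ne_zero (mul_ne_zero (mul_ne_zero ((_root_.map_ne_zero _).2 hc)
        (pow_ne_zero _ ha)) (inv_ne_zero ha)) (inv_ne_zero (fr_ne hc))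
    · rw [hgdef, map_mul, map_inv₀]
      exact (rd_w_Uf hco hk hM h1 h2 ha).mul (e2.inv (fr_ne hc))
  -- the second function
  have k1 : Rd A ((act (p * M) (Φ : Ω ≃+* Ω) g : FF Ω (p * M)) : LaurentSeries Ω)
      (1 : LaurentSeries k) := by
    rw [coe_act]
    have := rd_frob hk hfr g1
    rwa [map_one] at this
  have k2 : Rd A (w Ω hco (act (p * M) (Φ : Ω ≃+* Ω) g) : LaurentSeries Ω)
      (HeckeProd.Fr p c') := by
    rw [← act_w, coe_act]
    exact rd_frob hk hfr g2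
  refine ⟨Uf hco (act (p * M) (Φ : Ω ≃+* Ω) g) * (g ^ p)⁻¹,
    (cls_Uf hpN hpS (hg.gal Φ)).div (hg.pow p), ?_, ?_⟩
  · have h5 := rd_Uf hco hk hM k1 k2 (fr_ne hc')
    rw [map_one] at h5
    have h6 := h5.mul ((g1.pow p).inv (by rw [one_pow]; exact one_ne_zero))
    rw [one_pow, inv_one, one_mul] at h6
    exact h6
  · have h5 := rd_w_Uf hco hk hM k1 k2 one_ne_zero
    rw [one_pow, inv_one, mul_one, mul_one, ← HeckeProd.pow_eq_qExpand] at h5
    have h6 := h5.mul ((g2.pow p).inv (pow_ne_zero p hc'))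
    rw [mul_inv_cancel₀ (pow_ne_zero p hc')] at h6
    rw [map_mul, map_inv₀, map_pow]
    exact h6

end Fermat.Agent.OrdH
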