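import Fermat.Agent.OrdH.UB
import Fermat.Agent.OrdH.UAlg
import Fermat.Agent.OrdH.TwU
import Fermat.Agent.OrdH.O1
import Fermat.Agent.LevelRaise.Raise

/-!
# The congruence relation on torsion Hecke modules
-/

set_option autoImplicit false
set_option linter.unusedSectionVars false
set_option linter.style.haveILetI false

noncomputable section

namespace Fermat.Agent.OrdH

open ModularCurve Polynomial IntermediateField Fermat.Agent.ModPoly Fermat.Agent.Red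
  Fermat.Agent.RedMod Fermat.Agent.Cusp Fermat.Agent.SemiSt AlgebraicCurve Fermat.Agent.Curve
  Fermat.Agent.RR Fermat.Agent.Nod Fermat.Agent.Flat Fermat.Agent.FlatRam Fermat.Agent.Places
  Fermat.Agent.PRem Fermat.Agent.Ord

local notation "Ω" => AlgebraicClosure ℚ

attribute [local instance] Spec.algFF

set_option maxHeartbeats 2000000 in
theorem exists_kkU {p M : ℕ} [hp : Fact p.Prime] [NeZero M] (hpM : ¬ p ∣ M)
    {A : ValuationSubring (AlgebraicClosure ℚ)} (hA : A.LiesOverPrime p) (hp2 : p ≠ 2)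
    (ι : Ω →+* ℂ) {S : Set ℕ} (hS : ∀ q, q.Prime → q ∣ p * M → q ∈ S) (a : ℕ) {D : ℕ} [NeZero D]
    (hD : D = p ^ a * p) {S' : Set ℕ} (hpN : p ∣ p * M) (hpS' : p ∉ S') :
    ∃ K : AddSubgroup (Kum.XL (p * M) D),
      (∀ t : CuspForm.heckeAlgebra (p * M) 2 S, ∀ ξ ∈ K, Kum.actX (p * M) D S t ξ ∈ K) ∧
      (∀ τ ∈ A.inertiaSubgroupIn ℚ, ∀ ξ, Kum.rhoF ι D τ ξ - ξ ∈ K) ∧
      (∀ Φ : Ω ≃ₐ[ℚ] Ω, A.IsFrobeniusAt Φ p → ∀ ξ : Kum.XL (p * M) D,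
        Kum.actX (p * M) D S' (CuspForm.heckeAlgebra.U hp.out hpN hpS') (Kum.rhoF ι D Φ
          (Kum.actX (p * M) D S' (CuspForm.heckeAlgebra.U hp.out hpN hpS') ξ -
            Kum.rhoF ι D Φ ξ)) -
          p • (Kum.actX (p * M) D S' (CuspForm.heckeAlgebra.U hp.out hpN hpS') ξ -
            Kum.rhoF ι D Φ ξ) ∈ K) ∧
      ∀ (𝔫 : Ideal (CuspForm.heckeAlgebra (p * M) 2 S)), 𝔫.IsMaximal →
        (p : CuspForm.heckeAlgebra (p * M) 2 S) ∈ 𝔫 →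
        ∀ (ℓ : ℕ) (hℓ : ℓ.Prime) (hℓN : ¬ ℓ ∣ p * M) (hℓS : ℓ ∉ S),
        CuspForm.heckeAlgebra.T hℓ hℓN hℓS - ((ℓ + 1 : ℕ) : CuspForm.heckeAlgebra (p * M) 2 S) ∉ 𝔫 →
        ∀ χ : (Ω ≃ₐ[ℚ] Ω) → ℕ, (∀ σ (ζ : Ω), ζ ^ p = 1 → σ ζ = ζ ^ χ σ) →
        (∀ σ ∈ A.inertiaSubgroupIn ℚ, ∀ τ ∈ A.inertiaSubgroupIn ℚ, ∀ w : Kum.XL (p * M) D,
          (∀ s ∈ 𝔫, Kum.actX (p * M) D S s w = 0) →
          Kum.rhoF ι D σ (Kum.rhoF ι D τ w - w) = (χ σ : ℤ) • (Kum.rhoF ι D τ w - w)) →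
        ∀ τ₀ ∈ A.inertiaSubgroupIn ℚ, ¬ (p : ℤ) ∣ (χ τ₀ : ℤ) - 1 → ∀ v ∈ K,
          (∀ s ∈ 𝔫, Kum.actX (p * M) D S s v = 0) → Kum.rhoF ι D τ₀ v = v → v = 0 := by
  have hp1 := hp.out.one_lt
  haveI : CharP (kk A) p := RedMod.charP_residue hA
  have hk : Function.Surjective (algebraMap A (kk A)) := IsLocalRing.residue_surjective
  have hM : (M : kk A) ≠ 0 := natCast_residue_ne_zero hA hpM
  have hco : p.Coprime M := (Nat.Prime.coprime_iff_not_dvd hp.out).2 hpM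
  haveI := funField_FF (k := kk A) (M := M) hM
  haveI := funField_FF (k := Ω) (M := M) (natCast_ne_zero_K Ω M)
  haveI := funField_FF (k := Ω) (M := p * M) (natCast_ne_zero_K Ω (p * M))
  have hgen := Spec.rrGenus_eq_level (A := A) (K := Ω) ι hk hM
  have hrank := hrank_of hk hA
  obtain ⟨b', hb'⟩ := exists_pow_ne (kk A) (n := p * p) (by nlinarith)
  obtain ⟨r, hr⟩ := algebraMap_kk_surjective hA b'
  obtain ⟨b, hb, rfl⟩ : ∃ b : A, (b : Ω) ∈ K0 A ∧ algebraMap A (kk A) b = b' :=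
    ⟨⟨r, r.2.1⟩, r.2.2, hr⟩
  have H := nodMod_ng (K := Ω) hco hk hM hgen b hb'
  haveI hNd := nonempty_nd (K := Ω) hco hk hM hgen b hb' hrank
  refine ⟨KK hk hco hM b ι D, fun t ξ hξ => KK_act hS t hξ, fun τ hτ ξ => KK_sub hA hτ ξ,
    fun Φ hΦ ξ => KK_cong hpN hpS' hA hΦ ξ, ?_⟩
  intro 𝔫 h𝔫 hp𝔫 ℓ hℓ hℓN hℓS ht χ hχ hstar τ₀ hτ₀ hχτ v hv hv𝔫 hτv
  have hpv : p • v = 0 := by
    have h1 := hv𝔫 _ hp𝔫
    rw [map_natCast] at h1
    exact h1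
  obtain ⟨η, rfl⟩ := exists_jE hD hpv
  obtain ⟨f, hf, hcl, f1, f2⟩ := KK_desc hD hv
  have hinj := jE_injective hD (N := p * M)
  have hη𝔫 : ∀ s ∈ 𝔫, Kum.actX (p * M) p S s η = 0 := fun s hs => by
    apply hinj
    rw [jE_act, hv𝔫 s hs, map_zero]
  obtain ⟨s, hs⟩ := h𝔫.exists_inv ht
  obtain ⟨i, hi, hsi⟩ := hs
  have hη : η = Kum.actX (p * M) p S (CuspForm.heckeAlgebra.T hℓ hℓN hℓS)
      (Kum.actX (p * M) p S s η) - (ℓ + 1) • Kum.actX (p * M) p S s η := by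
    have h1 : Kum.actX (p * M) p S (CuspForm.heckeAlgebra.T hℓ hℓN hℓS -
        ((ℓ + 1 : ℕ) : CuspForm.heckeAlgebra (p * M) 2 S)) (Kum.actX (p * M) p S s η) =
        Kum.actX (p * M) p S (CuspForm.heckeAlgebra.T hℓ hℓN hℓS)
      (Kum.actX (p * M) p S s η) - (ℓ + 1) • Kum.actX (p * M) p S s η := by
      rw [map_sub, map_natCast]; rfl
    rw [← h1]
    have h2 : (CuspForm.heckeAlgebra.T hℓ hℓN hℓS -
        ((ℓ + 1 : ℕ) : CuspForm.heckeAlgebra (p * M) 2 S)) * s = 1 - i := by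
      rw [← hsi]; ring
    have h3 : Kum.actX (p * M) p S (CuspForm.heckeAlgebra.T hℓ hℓN hℓS -
        ((ℓ + 1 : ℕ) : CuspForm.heckeAlgebra (p * M) 2 S)) (Kum.actX (p * M) p S s η) =
        Kum.actX (p * M) p S ((CuspForm.heckeAlgebra.T hℓ hℓN hℓS -
        ((ℓ + 1 : ℕ) : CuspForm.heckeAlgebra (p * M) 2 S)) * s) η := by
      rw [map_mul]; rfl
    rw [h3, h2, map_sub, map_one]
    change η = η - Kum.actX (p * M) p S i η
    rw [hη𝔫 i hi, sub_zero]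
  rw [fixed_zero H ι hA hp2 hpM hb hℓ hℓN hℓS hη hf hcl f1 f2 χ hχ ?_ hτ₀ ?_ hχτ, map_zero]
  · intro σ hσ τ hτ g hg
    apply hinj
    have h1 := hstar σ hσ τ hτ (Kum.rhoF ι D g (jE hD η)) (fun s hs => by
      rw [← rhoF_act' ι hS, hv𝔫 s hs]
      exact map_zero (rh ι D g))
    rw [jE_gal, map_sub, jE_gal, jE_gal, map_zsmul, map_sub, jE_gal, jE_gal]
    exact h1
  · apply hinj
    rw [jE_gal, hτv]


/-- the Galois action commutes with `U_p` -/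
theorem rhoF_U {p M m : ℕ} [hp : Fact p.Prime] [NeZero M] [NeZero m] (hpM : ¬ p ∣ M) (ι : Ω →+* ℂ)
    {S' : Set ℕ} (hpN : p ∣ p * M) (hpS' : p ∉ S') (σ : Ω ≃ₐ[ℚ] Ω) (ξ : Kum.XL (p * M) m) :
    Kum.rhoF ι m σ (Kum.actX (p * M) m S' (CuspForm.heckeAlgebra.U hp.out hpN hpS') ξ) =
      Kum.actX (p * M) m S' (CuspForm.heckeAlgebra.U hp.out hpN hpS') (Kum.rhoF ι m σ ξ) := by
  have hco : p.Coprime M := (Nat.Prime.coprime_iff_not_dvd hp.out).2 hpM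
  obtain ⟨f, hf, -⟩ := exists_fixed ι ξ
  obtain ⟨ζ, hζ⟩ := exists_zeta (k := Ω) (N := p) (natCast_ne_zero_K Ω p)
  have h1 := (cls_NN hf hp.out hpN hpS' hζ (coe_Uf hco hζ hf.ne_zero)).gal σ
  have h2 := cls_NN (hf.gal σ) hp.out hpN hpS' (hζ.map_of_injective
    (f := Units.map (((σ : Ω ≃+* Ω) : Ω →+* Ω) : Ω →* Ω)) (Units.map_injective
    (σ : Ω ≃+* Ω).injective)) (y := act (p * M) (σ : Ω ≃+* Ω) (Uf hco f)) (by
      rw [coe_act, coe_act, coe_Uf hco hζ hf.ne_zero, HeckeProd.coeffMap_NN])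
  exact h1.unique h2

section QCU

open Fermat.Agent.GalRep Fermat.Agent.Kum Fermat.Agent.HeckeHom Fermat.Agent.LevelRaise

variable {N : ℕ} [NeZero N] {S S' : Set ℕ}

theorem actX_inclH (h : S' ⊆ S) {m : ℕ} [NeZero m] (t : CuspForm.heckeAlgebra N 2 S)
    (ξ : XL N m) : actX N m S' (inclH h t) ξ = actX N m S t ξ := by
  obtain ⟨φ, rfl⟩ := mkX_surjective ξ
  rw [actX_mkX, actX_mkX, actL_inclH]

/-- the operator `U_p` as an endomorphism of the Hecke module -/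
def UX {p : ℕ} (hp : p.Prime) (h : S' ⊆ S) (m : ℕ) [NeZero m] (hpN : p ∣ N) (hpS' : p ∉ S') :
    letI := modXS N m S
    Module.End (CuspForm.heckeAlgebra N 2 S) (XL N m) :=
  letI := modXS N m S
  { toFun := actX N m S' (CuspForm.heckeAlgebra.U hp hpN hpS')
    map_add' := map_add _
    map_smul' := fun a ξ => by
      change actX N m S' (CuspForm.heckeAlgebra.U hp hpN hpS') (actX N m S a ξ) =
        actX N m S a (actX N m S' (CuspForm.heckeAlgebra.U hp hpN hpS') ξ)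
      rw [← actX_inclH h, ← actX_inclH h]
      change (actX N m S' _ * actX N m S' _) ξ = (actX N m S' _ * actX N m S' _) ξ
      rw [← map_mul, ← map_mul, mul_comm] }

set_option maxHeartbeats 2000000 in
/-- **the `U`-relation on the torsion Hecke modules** -/
theorem rel_U {p M : ℕ} [hp : Fact p.Prime] [NeZero M] (hpM : ¬ p ∣ M)
    {A : ValuationSubring (AlgebraicClosure ℚ)} (hA : A.LiesOverPrime p) (hp2 : p ≠ 2)
    (ι : Ω →+* ℂ) {S S' : Set ℕ} (hSS : S' ⊆ S) (hNS : ∀ q, q.Prime → q ∣ p * M → q ∈ S)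
    (hpN : p ∣ p * M) (hpS' : p ∉ S')
    (a : ℕ) {D : ℕ} [NeZero D] (hD : D = p ^ a * p)
    {𝔫 : Ideal (CuspForm.heckeAlgebra (p * M) 2 S)} (h𝔫 : 𝔫.IsMaximal)
    (hp𝔫 : (p : CuspForm.heckeAlgebra (p * M) 2 S) ∈ 𝔫)
    {ℓ : ℕ} (hℓ : ℓ.Prime) (hℓN : ¬ ℓ ∣ p * M) (hℓS : ℓ ∉ S)
    (hT : CuspForm.heckeAlgebra.T hℓ hℓN hℓS -
      ((ℓ + 1 : ℕ) : CuspForm.heckeAlgebra (p * M) 2 S) ∉ 𝔫)
    {m : ℕ} (hm1 : 1 ≤ m) (hm : ∀ x : XL (p * M) D, p ^ m • x = 0)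
    {r : GQ → CuspForm.heckeAlgebra (p * M) 2 S}
    (hrel : ∀ g x, rhoF ι D g x + (cyc (p ^ m) g).val • rhoF ι D g⁻¹ x =
      actX (p * M) D S (r g) x)
    (hres : ∀ σ ∈ A.inertiaSubgroupIn ℚ, ∀ τ ∈ A.inertiaSubgroupIn ℚ, ∀ g,
      r (σ * τ * g) - r (σ * g) - ((cyc (p ^ m) σ).val : CuspForm.heckeAlgebra (p * M) 2 S) *
      r (τ * g) + ((cyc (p ^ m) σ).val : CuspForm.heckeAlgebra (p * M) 2 S) * r g ∈ 𝔫)
    {c g₀ k₀ : GQ} (hc : c * c = 1)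
    (hu : r (g₀ * k₀) + r (c * g₀ * k₀) - r (g₀ * c * k₀) - r (c * g₀ * c * k₀) ∉ 𝔫)
    {τ₀ : GQ} (hτ₀ : τ₀ ∈ A.inertiaSubgroupIn ℚ)
    (hχτ : ((cyc (p ^ m) τ₀).val : CuspForm.heckeAlgebra (p * M) 2 S) - 1 ∉ 𝔫)
    {Φ : GQ} (hΦ : A.IsFrobeniusAt Φ p) {τ : GQ} (hτ : τ ∈ A.inertiaSubgroupIn ℚ) :
    ∃ s : CuspForm.heckeAlgebra (p * M) 2 S, s ∉ 𝔫 ∧ ∀ x : XL (p * M) D,
      actX (p * M) D S' (inclH hSS s * (
        inclH hSS (r (τ * Φ) - ((cyc (p ^ m) τ).val : CuspForm.heckeAlgebra (p * M) 2 S) * r Φ) *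
          CuspForm.heckeAlgebra.U hp.out hpN hpS' ^ 2 -
        inclH hSS ((r (τ * Φ * Φ) -
            ((cyc (p ^ m) τ).val : CuspForm.heckeAlgebra (p * M) 2 S) * r (Φ * Φ)) +
          (p : CuspForm.heckeAlgebra (p * M) 2 S) *
            (r τ - ((cyc (p ^ m) τ).val : CuspForm.heckeAlgebra (p * M) 2 S) * r 1)) *
          CuspForm.heckeAlgebra.U hp.out hpN hpS' +
        inclH hSS ((p : CuspForm.heckeAlgebra (p * M) 2 S) * (r (τ * Φ) -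
          ((cyc (p ^ m) τ).val : CuspForm.heckeAlgebra (p * M) 2 S) * r Φ)))) x = 0 := by
  letI := modXS (p * M) D S
  obtain ⟨K, hK1, hK2, hK4, hK3⟩ := exists_kkU hpM hA hp2 ι hNS a hD hpN hpS'
  let K' : Submodule (CuspForm.heckeAlgebra (p * M) 2 S) (XL (p * M) D) :=
    { K with smul_mem' := fun t ξ hξ => hK1 t ξ hξ }
  have hχ : ∀ g h (x : XL (p * M) D), ((cyc (p ^ m) (g * h)).val :
      CuspForm.heckeAlgebra (p * M) 2 S) • x = (((cyc (p ^ m) g).val :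
      CuspForm.heckeAlgebra (p * M) 2 S) * ((cyc (p ^ m) h).val :
      CuspForm.heckeAlgebra (p * M) 2 S)) • x := fun g h x => by
    rw [← Nat.cast_mul, Nat.cast_smul_eq_nsmul, Nat.cast_smul_eq_nsmul]
    exact cyc_smul_mul hm g h x
  have hχ1 : ∀ x : XL (p * M) D, ((cyc (p ^ m) 1).val :
      CuspForm.heckeAlgebra (p * M) 2 S) • x = x := fun x => by
    rw [Nat.cast_smul_eq_nsmul]
    exact cyc_smul_one hm x
  have hrel' : ∀ g (x : XL (p * M) D), rhoS hNS ι D g x + ((cyc (p ^ m) g).val :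
      CuspForm.heckeAlgebra (p * M) 2 S) • rhoS hNS ι D g⁻¹ x = r g • x := fun g x => by
    rw [Nat.cast_smul_eq_nsmul]
    exact hrel g x
  haveI : Finite (XL (p * M) D) := MzC.finite_XL
  obtain ⟨s, hs, hs'⟩ := thmU hχ hχ1 hrel' hc hu (K := K') (fun τ hτ x => hK2 τ hτ x) hres hτ₀ hχτ
    (by
      intro v hv hv𝔫 hτv
      refine hK3 𝔫 h𝔫 hp𝔫 ℓ hℓ hℓN hℓS hT (fun g => (cyc (p ^ m) g).val) ?_ ?_ τ₀ hτ₀ ?_ v hv
        hv𝔫 hτv
      · intro σ ζ hζ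
        apply apply_eq_pow_cyc
        obtain ⟨d, rfl⟩ : ∃ d, m = d + 1 := ⟨m - 1, by omega⟩
        rw [pow_succ, mul_comm, pow_mul, hζ, one_pow]
      · intro σ hσ τ hτ w hw
        have h1 := star_tors hχ hχ1 hrel' (hres σ hσ τ hτ) hc hu (x := w) hw
        rw [Nat.cast_smul_eq_nsmul] at h1
        rw [natCast_zsmul]
        exact h1
      · intro hdvd
        apply hχτ
        obtain ⟨z, hz⟩ := hdvd
        have h1 : ((cyc (p ^ m) τ₀).val : CuspForm.heckeAlgebra (p * M) 2 S) - 1 =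
            (p : CuspForm.heckeAlgebra (p * M) 2 S) * z := by
          exact_mod_cast congrArg (Int.cast : ℤ → CuspForm.heckeAlgebra (p * M) 2 S) hz
        rw [h1]
        exact Ideal.mul_mem_right _ _ hp𝔫)
    (UX hp.out hSS D hpN hpS') (fun g x => (rhoF_U hpM ι hpN hpS' g x).symm)
    (p : CuspForm.heckeAlgebra (p * M) 2 S) (Φ := Φ) (fun x => by
      rw [Nat.cast_smul_eq_nsmul]
      exact hK4 Φ hΦ x)
  refine ⟨s, hs, fun x => ?_⟩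
  have h1 := hs' τ hτ x
  have e0 : ∀ (u : CuspForm.heckeAlgebra (p * M) 2 S) (y : XL (p * M) D), u • y =
      actX (p * M) D S' (inclH hSS u) y := fun u y => (actX_inclH hSS u y).symm
  have e1 : ∀ y : XL (p * M) D, UX hp.out hSS D hpN hpS' y =
      actX (p * M) D S' (CuspForm.heckeAlgebra.U hp.out hpN hpS') y := fun y => rfl
  rw [e0, e0, e0, e0, e1, e1] at h1
  rw [map_mul, map_add, map_sub, map_mul, map_mul, pow_two, map_mul]
  exact h1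

end QCU

end Fermat.Agent.OrdH
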