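import Fermat.Agent.S59e.Fin
import Fermat.Agent.OrdH.Tw3

/-!
# The operator `U` at `p` and its relation with Frobenius: definitions
-/

set_option autoImplicit false
set_option linter.unusedSectionVars false
set_option linter.style.haveILetI false

open Matrix.SpecialLinearGroup
open scoped MatrixGroups TensorProduct
open IsLocalRing
open Fermat.Agent.AL Fermat.Agent.ALCoh Fermat.Agent.KumG Fermat.Agent.Cov Fermat.Agent.GamH
open Fermat.Agent.SSH Fermat.Agent.TW Fermat.Agent.GalRep Fermat.Agent.E2Y Fermat.Agent.S59e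

namespace Fermat.Agent.OrdH

noncomputable section

section op

variable {O : Type} [CommRing O] {q M : ℕ} [hq : Fact q.Prime] [NeZero M]
  {H : Subgroup (ZMod M)ˣ} [hH : Fact ((-1 : (ZMod M)ˣ) ∈ H)]

/-- the normalised operator `U_q` on the lattice of level `Γ₀(q) ∩ Γ_H(M)` -/
def UH (D : WData q M H) : Module.End ℤ (KumG.LZ (GH (q * M) (HM (dvd_mul_left M q) H))) :=
  resQ q M H ∘ₗ SSH.trL ∘ₗ WH D - WH D

variable (O) in
/-- the normalised operator `U_q` -/
def UO (D : WData q M H) : Module.End O (XH O (q * M) (HM (dvd_mul_left M q) H)) :=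
  rO O q M H ∘ₗ tO O q M H ∘ₗ WO O D - WO O D

theorem UO_eq (D : WData q M H) : UO O D = (UH D).baseChange O := by
  unfold UO UH
  rw [LinearMap.baseChange_sub, LinearMap.baseChange_comp, LinearMap.baseChange_comp]
  rfl

variable {S : Set ℕ} (hNS : ∀ l, l.Prime → l ∣ q * M → l ∈ S)

include hNS in
theorem UO_phi (D : WData q M H) (hqM : ¬ q ∣ M) (s : TS O S)
    (x : XH O (q * M) (HM (dvd_mul_left M q) H)) :
    UO O D (phiH O (HM (dvd_mul_left M q) H) hNS s x) =
      phiH O (HM (dvd_mul_left M q) H) hNS s (UO O D x) := by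
  have hMS : ∀ l, l.Prime → l ∣ M → l ∈ S := fun l hl h => hNS l hl (h.mul_left q)
  change rO O q M H (tO O q M H (WO O D _)) - WO O D _ = phiH O _ hNS s (rO O q M H (tO O q M H (WO O D _)) - WO O D _)
  rw [map_sub, WO_phi hNS, tO_phi hMS hNS D hqM, rO_phi hMS hNS]

end op

section Y

variable {O : Type} [CommRing O] [IsLocalRing O] [IsNoetherianRing O]
  [IsAdicComplete (maximalIdeal O) O] {p : ℕ} [hp : Fact p.Prime]
  {hpO : (p : O) ∈ maximalIdeal O} {ι : AlgebraicClosure ℚ →+* ℂ} {S : Set ℕ}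
  {M : ℕ} [NeZero M] {H : Subgroup (ZMod M)ˣ} [hH : Fact ((-1 : (ZMod M)ˣ) ∈ H)]
  {hNS : ∀ l, l.Prime → l ∣ p * M → l ∈ S} {e : TS O S}

/-- the normalised operator `U_p` on the localised lattice -/
def UY (hNS : ∀ l, l.Prime → l ∣ p * M → l ∈ S) (e : TS O S) (D : WData p M H) (hpM : ¬ p ∣ M) :
    Module.End O (YH (HM (dvd_mul_left M p) H) hNS e) :=
  mapY e (UO O D) (UO_phi hNS D hpM)

theorem UY_coe (D : WData p M H) (hpM : ¬ p ∣ M) (y : YH (HM (dvd_mul_left M p) H) hNS e) :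
    (UY hNS e D hpM y : XH O (p * M) (HM (dvd_mul_left M p) H)) = UO O D y := rfl

theorem UY_coe' (D : WData p M H) (hpM : ¬ p ∣ M) (y : YH (HM (dvd_mul_left M p) H) hNS e) :
    (UY hNS e D hpM y : XH O (p * M) (HM (dvd_mul_left M p) H)) =
      rO O p M H (tO O p M H (WO O D y)) - WO O D y := rfl

variable {S' : Set ℕ} {t : GQ → ResidueField O} {θ : TD O S (p * M) →ₐ[O] ResidueField O}
  [Nontrivial (YH (HM (dvd_mul_left M p) H) hNS e)]
  [Module.Free O (YH (HM (dvd_mul_left M p) H) hNS e)]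

/-- **the relation between `U_p` and Frobenius** at a prime `A ∣ p`:
`(1 - χ(τ)) (ψ(Φ) U² - (ψ(Φ)² + p) U + p ψ(Φ)) = 0` -/
def URel (h : HG hpO S' t (psiY (HM (dvd_mul_left M p) H) hNS e) θ
      (rhoY hpO ι (HM (dvd_mul_left M p) H) hNS e)) (D : WData p M H) (hpM : ¬ p ∣ M) : Prop :=
  ∀ A : ValuationSubring (AlgebraicClosure ℚ), A.LiesOverPrime p → ∀ Φ : GQ,
    A.IsFrobeniusAt Φ p → ∀ τ ∈ A.inertiaSubgroupIn ℚ,
    ∀ y : YH (HM (dvd_mul_left M p) H) hNS e,
      (h.tt (Φ * τ) - algebraMap O h.TT (cycO hpO τ) * h.tt Φ) • UY hNS e D hpM (UY hNS e D hpM y) -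
      ((h.tt (Φ * Φ * τ) - algebraMap O h.TT (cycO hpO τ) * h.tt (Φ * Φ)) +
        algebraMap O h.TT p * (h.tt τ - algebraMap O h.TT (cycO hpO τ) * h.tt 1)) •
          UY hNS e D hpM y +
      (algebraMap O h.TT p * (h.tt (Φ * τ) - algebraMap O h.TT (cycO hpO τ) * h.tt Φ)) • y = 0

end Y

end

end Fermat.Agent.OrdH
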